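import Mathlib

/-!
# A criterion for discrete valuation rings

A Noetherian local ring whose maximal ideal is generated by a single non-zero-divisor is a
discrete valuation ring (in particular a domain).
-/

namespace Fermat.Agent.Lib.CFT.Global.Places

open IsLocalRing

variable {B : Type*} [CommRing B] [IsLocalRing B] [IsNoetherianRing B]

/-- In a Noetherian local ring with principal maximal ideal `(π)`, every nonzero element is a
unit times a power of `π`. -/
theorem exists_eq_pow_mul_unit {π : B} (hπ : maximalIdeal B = Ideal.span {π}) {x : B}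
    (hx : x ≠ 0) : ∃ (n : ℕ) (u : Bˣ), x = π ^ n * u := by
  classical
  have hkrull : (⨅ n : ℕ, maximalIdeal B ^ n) = ⊥ :=
    Ideal.iInf_pow_eq_bot_of_isLocalRing (maximalIdeal B) Ideal.IsPrime.ne_top'
  have hex : ∃ n : ℕ, x ∉ maximalIdeal B ^ n := by
    by_contra! hcon
    have : x ∈ (⨅ n : ℕ, maximalIdeal B ^ n) := by
      rw [Ideal.mem_iInf]; exact hcon
    rw [hkrull] at this
    exact hx (by simpa using this)
  have hn := Nat.find_spec hex
  have hmin := fun m => Nat.find_min hex (m := m)
  set n := Nat.find hex with hn_def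
  have hn0 : n ≠ 0 := by
    intro h0
    rw [h0] at hn
    simp at hn
  obtain ⟨k, hk⟩ := Nat.exists_eq_succ_of_ne_zero hn0
  have hxk : x ∈ maximalIdeal B ^ k := by
    by_contra hcon
    exact hmin k (by omega) hcon
  rw [hπ, Ideal.span_singleton_pow, Ideal.mem_span_singleton'] at hxk
  obtain ⟨u, hu⟩ := hxk
  have hunit : IsUnit u := by
    by_contra hcon
    have humem : u ∈ maximalIdeal B := (IsLocalRing.mem_maximalIdeal u).mpr hcon
    apply hn
    rw [hk, pow_succ, ← hu, mul_comm u]
    exact Ideal.mul_mem_mul (by rw [hπ, Ideal.span_singleton_pow]; exact Ideal.mem_span_singleton_self _) humem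
  exact ⟨k, hunit.unit, by rw [← hu, mul_comm]; rfl⟩

/-- A Noetherian local ring whose maximal ideal is generated by a non-zero-divisor is a domain. -/
theorem isDomain_of_maximalIdeal_eq_span {π : B} (hπ : maximalIdeal B = Ideal.span {π})
    (hreg : π ∈ nonZeroDivisors B) : IsDomain B := by
  have : NoZeroDivisors B := by
    refine ⟨fun {x y} hxy => ?_⟩
    by_contra! hcon
    obtain ⟨n, u, rfl⟩ := exists_eq_pow_mul_unit hπ hcon.1
    obtain ⟨m, v, rfl⟩ := exists_eq_pow_mul_unit hπ hcon.2
    have h1 : π ^ (n + m) * ((u * v : Bˣ) : B) = 0 := by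
      rw [← hxy, pow_add, Units.val_mul]; ring
    have h2 : π ^ (n + m) = 0 := by
      have := (u * v).isUnit.mul_left_eq_zero.mp h1
      exact this
    have h3 : π ^ (n + m) ∈ nonZeroDivisors B := pow_mem hreg _
    have : (1 : B) = 0 := by
      have := (mem_nonZeroDivisors_iff.mp h3).2 1 (by rw [one_mul]; exact h2)
      exact this
    exact one_ne_zero this
  exact NoZeroDivisors.to_isDomain B

/-- A Noetherian local ring whose maximal ideal is generated by a non-zero-divisor is a DVR. -/
theorem isDiscreteValuationRing_of_maximalIdeal_eq_span [IsDomain B] {π : B}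
    (hπ : maximalIdeal B = Ideal.span {π}) (hπ0 : π ≠ 0) : IsDiscreteValuationRing B := by
  apply IsDiscreteValuationRing.ofHasUnitMulPowIrreducibleFactorization
  refine ⟨π, IsDiscreteValuationRing.irreducible_of_span_eq_maximalIdeal π hπ0 hπ, ?_⟩
  intro x hx
  obtain ⟨n, u, rfl⟩ := exists_eq_pow_mul_unit hπ hx
  exact ⟨n, ⟨u, rfl⟩⟩

end Fermat.Agent.Lib.CFT.Global.Places
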