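import Mathlib

/-!
# Lifting idempotents along a Henselian ideal

For a commutative ring `A` which is Henselian along an ideal `I` (e.g. `I`-adically complete),
idempotents of `A ⧸ I` lift uniquely to idempotents of `A`, and complete orthogonal families
lift to complete orthogonal families.
-/

namespace Fermat.Agent.Lib.CFT.Global.Places

open Polynomial

variable {A : Type*} [CommRing A] (I : Ideal A)

/-- Two idempotents congruent modulo an ideal inside the Jacobson radical are equal. -/
theorem idem_eq_of_sub_mem {e e' : A} (hI : I ≤ Ideal.jacobson ⊥)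
    (he : IsIdempotentElem e) (he' : IsIdempotentElem e') (h : e - e' ∈ I) : e = e' := by
  have h1 : e * e = e := he
  have h2 : e' * e' = e' := he'
  have h3 : (e - e') * (-((e - e') ^ 2) + 1) = 0 := by
    linear_combination (-(e + 1 - 3 * e')) * h1 + (-(3 * e - e' - 1)) * h2
  have hmem : (e - e') ^ 2 ∈ Ideal.jacobson (⊥ : Ideal A) :=
    hI (Ideal.pow_mem_of_mem I h 2 (by norm_num))
  have hu : IsUnit (-((e - e') ^ 2) + 1) := by
    have := (Ideal.mem_jacobson_bot.mp hmem) (-1)
    simpa using this
  have := hu.mul_left_eq_zero.mp h3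
  exact sub_eq_zero.mp this

/-- Idempotents lift along a Henselian ideal. -/
theorem exists_idem_lift [HenselianRing A I] {ebar : A ⧸ I} (he : IsIdempotentElem ebar) :
    ∃ e : A, IsIdempotentElem e ∧ Ideal.Quotient.mk I e = ebar := by
  obtain ⟨a₀, rfl⟩ := Ideal.Quotient.mk_surjective ebar
  have h0 : a₀ * a₀ - a₀ ∈ I := by
    rw [← Ideal.Quotient.eq, map_mul]; exact he
  obtain ⟨a, ha, haa⟩ := HenselianRing.is_henselian (R := A) (I := I) (X ^ 2 - X)
    (by
      apply Polynomial.monic_X_pow_sub
      exact lt_of_le_of_lt degree_X_le (by norm_num))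
    a₀ (by simpa [pow_two] using h0)
    (by
      have : (Ideal.Quotient.mk I) (eval a₀ (derivative (X ^ 2 - X : A[X])))
          = 2 * Ideal.Quotient.mk I a₀ - 1 := by
        simp
        ring
      rw [this]
      refine IsUnit.of_mul_eq_one (2 * Ideal.Quotient.mk I a₀ - 1) ?_
      have h1 : Ideal.Quotient.mk I a₀ * Ideal.Quotient.mk I a₀ = Ideal.Quotient.mk I a₀ := he
      linear_combination 4 * h1)
  refine ⟨a, ?_, ?_⟩
  · have : a ^ 2 - a = 0 := by simpa [IsRoot] using ha
    unfold IsIdempotentElem
    linear_combination this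
  · exact (Ideal.Quotient.eq.mpr haa)

/-- Unique lifting of idempotents along a Henselian ideal. -/
theorem existsUnique_idem_lift [HenselianRing A I] {ebar : A ⧸ I} (he : IsIdempotentElem ebar) :
    ∃! e : A, IsIdempotentElem e ∧ Ideal.Quotient.mk I e = ebar := by
  obtain ⟨e, he1, he2⟩ := exists_idem_lift I he
  refine ⟨e, ⟨he1, he2⟩, fun e' ⟨h1, h2⟩ => ?_⟩
  refine idem_eq_of_sub_mem I HenselianRing.jac h1 he1 ?_
  rw [← Ideal.Quotient.eq, h2, he2]

/-- Complete orthogonal idempotents lift along a Henselian ideal. -/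
theorem exists_completeOrthogonalIdempotents_lift [HenselianRing A I] {ι : Type*} [Fintype ι]
    {ebar : ι → A ⧸ I} (he : CompleteOrthogonalIdempotents ebar) :
    ∃ e : ι → A, CompleteOrthogonalIdempotents e ∧ ∀ i, Ideal.Quotient.mk I (e i) = ebar i := by
  have hjac : I ≤ Ideal.jacobson ⊥ := HenselianRing.jac
  choose e he1 he2 using fun i => exists_idem_lift I (he.idem i)
  have hortho : Pairwise fun i j => e i * e j = 0 := by
    intro i j hij
    refine idem_eq_of_sub_mem I hjac ((he1 i).mul (he1 j)) IsIdempotentElem.zero ?_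
    rw [sub_zero, ← Ideal.Quotient.eq_zero_iff_mem, map_mul, he2, he2]
    exact he.ortho hij
  have hO : OrthogonalIdempotents e := ⟨he1, hortho⟩
  refine ⟨e, ⟨hO, ?_⟩, he2⟩
  refine idem_eq_of_sub_mem I hjac hO.isIdempotentElem_sum IsIdempotentElem.one ?_
  rw [← Ideal.Quotient.eq, map_sum, map_one]
  simp only [he2]
  exact he.complete

/-- Uniqueness of the lifted family. -/
theorem completeOrthogonalIdempotents_lift_unique {ι : Type*}
    (hI : I ≤ Ideal.jacobson ⊥) {e e' : ι → A}
    (he : ∀ i, IsIdempotentElem (e i)) (he' : ∀ i, IsIdempotentElem (e' i))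
    (h : ∀ i, Ideal.Quotient.mk I (e i) = Ideal.Quotient.mk I (e' i)) : e = e' := by
  funext i
  exact idem_eq_of_sub_mem I hI (he i) (he' i) (Ideal.Quotient.eq.mp (h i))

end Fermat.Agent.Lib.CFT.Global.Places
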