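import Mathlib

/-!
# Primes of a Dedekind domain above an element: the prime power components of `(q)`
-/

namespace Fermat.Agent.Lib.CFT.Global.Places

open IsDedekindDomain IsDedekindDomain.HeightOneSpectrum

variable {O : Type*} [CommRing O] [IsDedekindDomain O]

/-- The primes of `O` containing `q`. -/
abbrev PrimesAbove (O : Type*) [CommRing O] [IsDedekindDomain O] (q : O) :=
  {v : HeightOneSpectrum O // q ∈ v.asIdeal}

/-- Exponent of `v` in `(q)`. -/
noncomputable def ramExp (q : O) (v : HeightOneSpectrum O) : ℕ :=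
  (Associates.mk v.asIdeal).count (Associates.mk (Ideal.span {q})).factors

/-- The `v`-primary component of `(q)`. -/
noncomputable def primePow (q : O) (v : HeightOneSpectrum O) : Ideal O :=
  v.asIdeal ^ ramExp q v

theorem primePow_eq_maxPowDividing (q : O) (v : HeightOneSpectrum O) :
    primePow q v = v.maxPowDividing (Ideal.span {q}) := rfl

theorem finite_primesAbove {q : O} (hq : q ≠ 0) : Finite (PrimesAbove O q) := by
  have h := Ideal.finite_factors (R := O) (I := Ideal.span {q})
    (by simpa [Ideal.span_singleton_eq_bot] using hq)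
  have : {v : HeightOneSpectrum O | v.asIdeal ∣ Ideal.span {q}} =
      {v : HeightOneSpectrum O | q ∈ v.asIdeal} := by
    ext v
    simp [Ideal.dvd_span_singleton]
  rw [this] at h
  exact h.to_subtype

theorem ramExp_ne_zero {q : O} (hq : q ≠ 0) (v : PrimesAbove O q) : ramExp q v.1 ≠ 0 := by
  have hI : Ideal.span {q} ≠ 0 := by simpa [Ideal.span_singleton_eq_bot] using hq
  unfold ramExp
  rw [Associates.count_ne_zero_iff_dvd hI v.1.irreducible, Ideal.dvd_span_singleton]
  exact v.2

theorem ramExp_eq_zero {q : O} (hq : q ≠ 0) (v : HeightOneSpectrum O) (hv : q ∉ v.asIdeal) :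
    ramExp q v = 0 := by
  have hI : Ideal.span {q} ≠ 0 := by simpa [Ideal.span_singleton_eq_bot] using hq
  by_contra hne
  unfold ramExp at hne
  have hne' := (Associates.count_ne_zero_iff_dvd hI v.irreducible).mp hne
  rw [Ideal.dvd_span_singleton] at hne'
  exact hv hne'

theorem primePow_le {q : O} (hq : q ≠ 0) (v : PrimesAbove O q) : primePow q v.1 ≤ v.1.asIdeal :=
  Ideal.pow_le_self (ramExp_ne_zero hq v)

theorem mem_span_iff_forall_mem_primePow {q : O} (hq : q ≠ 0) (x : O) :
    x ∈ Ideal.span {q} ↔ ∀ v : PrimesAbove O q, x ∈ primePow q v.1 := by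
  have hI : Ideal.span {q} ≠ 0 := by simpa [Ideal.span_singleton_eq_bot] using hq
  have h := Ideal.iInf_maxPowDividing_eq hI
  constructor
  · intro hx v
    rw [← h, Ideal.mem_iInf] at hx
    exact hx v.1
  · intro hx
    rw [← h, Ideal.mem_iInf]
    intro w
    by_cases hw : q ∈ w.asIdeal
    · exact hx ⟨w, hw⟩
    · rw [← primePow_eq_maxPowDividing, primePow, ramExp_eq_zero hq w hw, pow_zero]
      rw [Ideal.one_eq_top]
      exact Submodule.mem_top (R := O) (M := O)

theorem self_mem_primePow {q : O} (hq : q ≠ 0) (v : PrimesAbove O q) : q ∈ primePow q v.1 :=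
  (mem_span_iff_forall_mem_primePow hq q).mp (Ideal.mem_span_singleton_self q) v

/-- Chinese remainder elements for the decomposition of `O ⧸ (q)`. -/
theorem exists_crt {q : O} (hq : q ≠ 0) (v : PrimesAbove O q) :
    ∃ b : O, b - 1 ∈ primePow q v.1 ∧ ∀ w : PrimesAbove O q, w ≠ v → b ∈ primePow q w.1 := by
  classical
  have := finite_primesAbove hq
  have hcop : Pairwise (Function.onFun IsCoprime fun w : PrimesAbove O q => primePow q w.1) := by
    intro w w' hww'
    exact isCoprime_pow_of_ne w.1 w'.1 (fun h => hww' (Subtype.ext h)) _ _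
  obtain ⟨b, hb⟩ := Ideal.exists_forall_sub_mem_ideal hcop
    (fun w => if w = v then (1 : O) else 0)
  refine ⟨b, by simpa using hb v, fun w hw => ?_⟩
  have := hb w
  simpa [hw] using this

end Fermat.Agent.Lib.CFT.Global.Places
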