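import Mathlib
import Fermat.Agent.Lib.CFT.Global.Places.HenselIdem
import Fermat.Agent.Lib.CFT.Global.Places.DVRCriterion
import Fermat.Agent.Lib.CFT.Global.Places.PrimePow

/-!
# The `q`-adic completion of a Dedekind domain is a product of complete DVRs

Abstract setting: `O` a Dedekind domain, `q : O` nonzero, `A` an `O`-algebra which is a
`q`-adic completion of `O` (`IsAdicCompletionAt O q A`).  We construct the idempotents `idem v`
of `A` indexed by the primes `v` of `O` above `q`, and show that the factor rings
`LocalFactor O q A v = A ⧸ (1 - idem v)` are complete discrete valuation rings with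
`O ⧸ v^m ≃ LocalFactor ⧸ 𝔪^m`.
-/

namespace Fermat.Agent.Lib.CFT.Global.Places

open IsDedekindDomain IsDedekindDomain.HeightOneSpectrum

variable (O : Type*) [CommRing O] [IsDedekindDomain O] (q : O)
variable (A : Type*) [CommRing A] [Algebra O A]

/-- `A` is a `q`-adic completion of the Dedekind domain `O`. -/
structure IsAdicCompletionAt : Prop where
  ne_zero : q ≠ 0
  complete : IsAdicComplete (Ideal.span {algebraMap O A q}) A
  regular : algebraMap O A q ∈ nonZeroDivisors A
  noeth : IsNoetherianRing A
  approx : ∀ (k : ℕ) (a : A), ∃ x : O, a - algebraMap O A x ∈ Ideal.span {algebraMap O A q ^ k}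
  ker : ∀ (k : ℕ) (x : O), algebraMap O A x ∈ Ideal.span {algebraMap O A q ^ k} →
    x ∈ Ideal.span {q ^ k}

variable {O q A}

namespace IsAdicCompletionAt

variable (h : IsAdicCompletionAt O q A)
include h

omit [IsDedekindDomain O] in
theorem henselian : HenselianRing A (Ideal.span {algebraMap O A q}) :=
  haveI := h.complete
  inferInstance

omit [IsDedekindDomain O] in
theorem le_jacobson : Ideal.span {algebraMap O A q} ≤ Ideal.jacobson (⊥ : Ideal A) :=
  haveI := h.complete
  IsAdicComplete.le_jacobson_bot _

omit [IsDedekindDomain O] h in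
/-- If `x ∈ (q)` in `O` then its image lies in `q A`. -/
theorem map_mem_of_mem {x : O} (hx : x ∈ Ideal.span {q}) :
    algebraMap O A x ∈ Ideal.span {algebraMap O A q} := by
  obtain ⟨c, rfl⟩ := Ideal.mem_span_singleton'.mp hx
  rw [map_mul]
  exact Ideal.mul_mem_left _ _ (Ideal.mem_span_singleton_self _)

omit [IsDedekindDomain O] in
theorem mem_of_map_mem {x : O} (hx : algebraMap O A x ∈ Ideal.span {algebraMap O A q}) :
    x ∈ Ideal.span {q} := by
  have := h.ker 1 x (by simpa using hx)
  simpa using this

/-- Existence of the idempotent attached to a prime above `q`. -/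
theorem exists_idem (v : PrimesAbove O q) :
    ∃ e : A, IsIdempotentElem e ∧ ∃ b : O, (b - 1 ∈ primePow q v.1 ∧
      ∀ w : PrimesAbove O q, w ≠ v → b ∈ primePow q w.1) ∧
      e - algebraMap O A b ∈ Ideal.span {algebraMap O A q} := by
  obtain ⟨b, hb1, hb2⟩ := exists_crt h.ne_zero v
  have hbb : b * b - b ∈ Ideal.span {q} := by
    rw [mem_span_iff_forall_mem_primePow h.ne_zero]
    intro w
    by_cases hw : w = v
    · subst hw
      have : b * b - b = b * (b - 1) := by ring
      rw [this]
      exact Ideal.mul_mem_left _ _ hb1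
    · have : b * b - b = (b - 1) * b := by ring
      rw [this]
      exact Ideal.mul_mem_left _ _ (hb2 w hw)
  have := h.henselian
  have hidem : IsIdempotentElem (Ideal.Quotient.mk (Ideal.span {algebraMap O A q})
      (algebraMap O A b)) := by
    unfold IsIdempotentElem
    rw [← map_mul, ← map_mul, Ideal.Quotient.eq]
    have := map_mem_of_mem (A := A) hbb
    simpa using this
  obtain ⟨e, he1, he2⟩ := exists_idem_lift _ hidem
  exact ⟨e, he1, b, ⟨hb1, hb2⟩, Ideal.Quotient.eq.mp he2⟩

end IsAdicCompletionAt

open Classical in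
/-- The idempotent of `A` attached to the prime `v` above `q`. -/
noncomputable def idem (O : Type*) [CommRing O] [IsDedekindDomain O] (q : O)
    (A : Type*) [CommRing A] [Algebra O A] (v : PrimesAbove O q) : A :=
  if h : ∃ e : A, IsIdempotentElem e ∧ ∃ b : O, (b - 1 ∈ primePow q v.1 ∧
      ∀ w : PrimesAbove O q, w ≠ v → b ∈ primePow q w.1) ∧
      e - algebraMap O A b ∈ Ideal.span {algebraMap O A q} then h.choose else 0

namespace IsAdicCompletionAt

variable (h : IsAdicCompletionAt O q A)
include h

theorem idem_spec (v : PrimesAbove O q) :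
    IsIdempotentElem (idem O q A v) ∧ ∃ b : O, (b - 1 ∈ primePow q v.1 ∧
      ∀ w : PrimesAbove O q, w ≠ v → b ∈ primePow q w.1) ∧
      idem O q A v - algebraMap O A b ∈ Ideal.span {algebraMap O A q} := by
  unfold idem
  rw [dif_pos (h.exists_idem v)]
  exact (h.exists_idem v).choose_spec

theorem isIdempotentElem_idem (v : PrimesAbove O q) : IsIdempotentElem (idem O q A v) :=
  (h.idem_spec v).1

/-- Characterisation of `idem v`: any idempotent congruent mod `q` to a CRT element for `v`. -/
theorem eq_idem {v : PrimesAbove O q} {e : A} (he : IsIdempotentElem e) {b : O}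
    (hb1 : b - 1 ∈ primePow q v.1) (hb2 : ∀ w : PrimesAbove O q, w ≠ v → b ∈ primePow q w.1)
    (heb : e - algebraMap O A b ∈ Ideal.span {algebraMap O A q}) : e = idem O q A v := by
  obtain ⟨he', b', ⟨hb1', hb2'⟩, heb'⟩ := h.idem_spec v
  refine idem_eq_of_sub_mem _ h.le_jacobson he he' ?_
  have hbb : b - b' ∈ Ideal.span {q} := by
    rw [mem_span_iff_forall_mem_primePow h.ne_zero]
    intro w
    by_cases hw : w = v
    · subst hw
      have : b - b' = (b - 1) - (b' - 1) := by ring
      rw [this]
      exact Ideal.sub_mem _ hb1 hb1'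
    · exact Ideal.sub_mem _ (hb2 w hw) (hb2' w hw)
  have h3 := map_mem_of_mem (A := A) hbb
  have : e - idem O q A v = (e - algebraMap O A b) - (idem O q A v - algebraMap O A b')
      + algebraMap O A (b - b') := by
    rw [map_sub]; ring
  rw [this]
  exact Ideal.add_mem _ (Ideal.sub_mem _ heb heb') h3

theorem idem_mul_idem_of_ne {v w : PrimesAbove O q} (hvw : v ≠ w) :
    idem O q A v * idem O q A w = 0 := by
  obtain ⟨he, b, ⟨hb1, hb2⟩, heb⟩ := h.idem_spec v
  obtain ⟨he', b', ⟨hb1', hb2'⟩, heb'⟩ := h.idem_spec w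
  refine idem_eq_of_sub_mem _ h.le_jacobson (he.mul he') IsIdempotentElem.zero ?_
  rw [sub_zero]
  have hbb : b * b' ∈ Ideal.span {q} := by
    rw [mem_span_iff_forall_mem_primePow h.ne_zero]
    intro u
    by_cases hu : u = v
    · subst hu
      exact Ideal.mul_mem_left _ _ (hb2' u hvw)
    · exact Ideal.mul_mem_right _ _ (hb2 u hu)
  have h3 := map_mem_of_mem (A := A) hbb
  have : idem O q A v * idem O q A w = (idem O q A v - algebraMap O A b) * idem O q A w
      + algebraMap O A b * (idem O q A w - algebraMap O A b') + algebraMap O A (b * b') := by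
    rw [map_mul]; ring
  rw [this]
  exact Ideal.add_mem _ (Ideal.add_mem _ (Ideal.mul_mem_right _ _ heb)
    (Ideal.mul_mem_left _ _ heb')) h3

theorem orthogonalIdempotents_idem : OrthogonalIdempotents (idem O q A) :=
  ⟨h.isIdempotentElem_idem, fun _ _ hvw => h.idem_mul_idem_of_ne hvw⟩

theorem sum_idem [Fintype (PrimesAbove O q)] : ∑ v, idem O q A v = 1 := by
  classical
  refine idem_eq_of_sub_mem _ h.le_jacobson h.orthogonalIdempotents_idem.isIdempotentElem_sum
    IsIdempotentElem.one ?_
  choose _ b hb heb using h.idem_spec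
  have hbb : ∑ v, b v - 1 ∈ Ideal.span {q} := by
    rw [mem_span_iff_forall_mem_primePow h.ne_zero]
    intro u
    have : ∑ v, b v - 1 = (b u - 1) + ∑ v ∈ Finset.univ.erase u, b v := by
      rw [← Finset.add_sum_erase _ _ (Finset.mem_univ u)]; ring
    rw [this]
    refine Ideal.add_mem _ (hb u).1 (Ideal.sum_mem _ fun v hv => ?_)
    exact (hb v).2 u (Finset.ne_of_mem_erase hv).symm
  have h3 := map_mem_of_mem (A := A) hbb
  have : ∑ v, idem O q A v - 1 = ∑ v, (idem O q A v - algebraMap O A (b v))
      + algebraMap O A (∑ v, b v - 1) := by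
    rw [map_sub, map_sum, map_one, Finset.sum_sub_distrib]; ring
  rw [this]
  exact Ideal.add_mem _ (Ideal.sum_mem _ fun v _ => heb v) h3

theorem completeOrthogonalIdempotents_idem [Fintype (PrimesAbove O q)] :
    CompleteOrthogonalIdempotents (idem O q A) :=
  ⟨h.orthogonalIdempotents_idem, h.sum_idem⟩

end IsAdicCompletionAt

end Fermat.Agent.Lib.CFT.Global.Places
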