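import Mathlib
import Fermat.Agent.Lib.CFT.Global.Places.AdicDecomp

/-!
# The local factors of a `q`-adic completion of a Dedekind domain
-/

namespace Fermat.Agent.Lib.CFT.Global.Places

open IsDedekindDomain IsDedekindDomain.HeightOneSpectrum

variable {O : Type*} [CommRing O] [IsDedekindDomain O] {q : O}
variable {A : Type*} [CommRing A] [Algebra O A]

/-- The local factor of `A` at the prime `v` above `q`. -/
abbrev LocalFactor (O : Type*) [CommRing O] [IsDedekindDomain O] (q : O)
    (A : Type*) [CommRing A] [Algebra O A] (v : PrimesAbove O q) : Type _ :=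
  A ⧸ Ideal.span {1 - idem O q A v}

namespace IsAdicCompletionAt

variable (h : IsAdicCompletionAt O q A)
include h

theorem one_sub_idem_mem_map (v : PrimesAbove O q) :
    1 - idem O q A v ∈ (v.1.asIdeal).map (algebraMap O A) := by
  obtain ⟨-, b, ⟨hb1, -⟩, heb⟩ := h.idem_spec v
  have h1 : algebraMap O A (b - 1) ∈ (v.1.asIdeal).map (algebraMap O A) :=
    Ideal.mem_map_of_mem _ (primePow_le h.ne_zero v hb1)
  have h2 : Ideal.span {algebraMap O A q} ≤ (v.1.asIdeal).map (algebraMap O A) := by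
    rw [Ideal.span_singleton_le_iff_mem]
    exact Ideal.mem_map_of_mem _ v.2
  have : 1 - idem O q A v = -(idem O q A v - algebraMap O A b) - algebraMap O A (b - 1) := by
    rw [map_sub, map_one]; ring
  rw [this]
  exact Ideal.sub_mem _ (Ideal.neg_mem_iff _ |>.mpr (h2 heb)) h1

theorem one_sub_idem_mem_map_pow (v : PrimesAbove O q) (m : ℕ) :
    1 - idem O q A v ∈ (v.1.asIdeal ^ m).map (algebraMap O A) := by
  rcases Nat.eq_zero_or_pos m with rfl | hm
  · rw [pow_zero, Ideal.one_eq_top, Ideal.map_top]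
    exact Submodule.mem_top (R := A) (M := A)
  · have hid : IsIdempotentElem (1 - idem O q A v) := (h.isIdempotentElem_idem v).one_sub
    have : (1 - idem O q A v) ^ m = 1 - idem O q A v := hid.pow_eq (by omega)
    rw [← this, Ideal.map_pow]
    exact Ideal.pow_mem_pow (h.one_sub_idem_mem_map v) m

omit [IsDedekindDomain O] in
/-- Elements of `𝔞 A` are congruent mod `q^k` to elements of `𝔞`. -/
theorem exists_sub_mem_of_mem_map (𝔞 : Ideal O) (k : ℕ) {a : A}
    (ha : a ∈ 𝔞.map (algebraMap O A)) :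
    ∃ y ∈ 𝔞, a - algebraMap O A y ∈ Ideal.span {algebraMap O A q ^ k} := by
  let S : Ideal A :=
    { carrier := {a | ∃ y ∈ 𝔞, a - algebraMap O A y ∈ Ideal.span {algebraMap O A q ^ k}}
      add_mem' := by
        rintro a a' ⟨y, hy, hay⟩ ⟨y', hy', hay'⟩
        refine ⟨y + y', 𝔞.add_mem hy hy', ?_⟩
        have : a + a' - algebraMap O A (y + y') =
            (a - algebraMap O A y) + (a' - algebraMap O A y') := by rw [map_add]; ring
        rw [this]
        exact Ideal.add_mem _ hay hay'
      zero_mem' := ⟨0, 𝔞.zero_mem, by simp⟩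
      smul_mem' := by
        rintro c a ⟨y, hy, hay⟩
        obtain ⟨z, hz⟩ := h.approx k c
        refine ⟨z * y, 𝔞.mul_mem_left _ hy, ?_⟩
        have : c • a - algebraMap O A (z * y) =
            (c - algebraMap O A z) * a + algebraMap O A z * (a - algebraMap O A y) := by
          rw [map_mul, smul_eq_mul]; ring
        rw [this]
        exact Ideal.add_mem _ (Ideal.mul_mem_right _ _ hz) (Ideal.mul_mem_left _ _ hay) }
  have hle : 𝔞.map (algebraMap O A) ≤ S := by
    rw [Ideal.map_le_iff_le_comap]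
    intro y hy
    exact ⟨y, hy, by simp⟩
  exact hle ha

omit [IsDedekindDomain O] in
theorem mem_of_map_mem_map {𝔞 : Ideal O} {k : ℕ} (hk : q ^ k ∈ 𝔞) {x : O}
    (hx : algebraMap O A x ∈ 𝔞.map (algebraMap O A)) : x ∈ 𝔞 := by
  obtain ⟨y, hy, hxy⟩ := h.exists_sub_mem_of_mem_map 𝔞 k hx
  rw [← map_sub] at hxy
  have := h.ker k _ hxy
  have h2 : x - y ∈ 𝔞 := (Ideal.span_singleton_le_iff_mem 𝔞 |>.mpr hk) this
  have : x = (x - y) + y := by ring
  rw [this]
  exact 𝔞.add_mem h2 hy

/-- `O ⧸ v^m → A_v ⧸ v^m A_v` is injective. -/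
theorem algebraMap_mem_map_pow_iff (v : PrimesAbove O q) (m : ℕ) (x : O) :
    algebraMap O (LocalFactor O q A v) x ∈
      (v.1.asIdeal ^ m).map (algebraMap O (LocalFactor O q A v)) ↔ x ∈ v.1.asIdeal ^ m := by
  refine ⟨fun hx => ?_, fun hx => Ideal.mem_map_of_mem _ hx⟩
  have hcomp : algebraMap O (LocalFactor O q A v) =
      (Ideal.Quotient.mk (Ideal.span {1 - idem O q A v})).comp (algebraMap O A) := rfl
  rw [hcomp, ← Ideal.map_map, RingHom.comp_apply,
    Ideal.mem_map_span_singleton_iff_of_isIdempotentElem (h.isIdempotentElem_idem v).one_sub] at hx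
  have h1 := Ideal.mul_mem_right (algebraMap O A x) _ (h.one_sub_idem_mem_map_pow v m)
  have h2 := Ideal.add_mem _ hx h1
  have : (1 - (1 - idem O q A v)) * algebraMap O A x + (1 - idem O q A v) * algebraMap O A x
      = algebraMap O A x := by ring
  rw [this] at h2
  exact h.mem_of_map_mem_map (Ideal.pow_mem_pow v.2 m) h2

/-- `O ⧸ v^m → A_v ⧸ v^m A_v` is surjective. -/
theorem exists_sub_mem_map_pow (v : PrimesAbove O q) (m : ℕ) (a : LocalFactor O q A v) :
    ∃ x : O, a - algebraMap O (LocalFactor O q A v) x ∈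
      (v.1.asIdeal ^ m).map (algebraMap O (LocalFactor O q A v)) := by
  obtain ⟨a, rfl⟩ := Ideal.Quotient.mk_surjective a
  obtain ⟨x, hx⟩ := h.approx m a
  refine ⟨x, ?_⟩
  obtain ⟨c, hc⟩ := Ideal.mem_span_singleton'.mp hx
  have hcomp : algebraMap O (LocalFactor O q A v) x =
      Ideal.Quotient.mk (Ideal.span {1 - idem O q A v}) (algebraMap O A x) := rfl
  rw [hcomp, ← map_sub, ← hc, map_mul, map_pow]
  refine Ideal.mul_mem_left _ _ ?_
  have : Ideal.Quotient.mk (Ideal.span {1 - idem O q A v}) (algebraMap O A q) =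
      algebraMap O (LocalFactor O q A v) q := rfl
  rw [this, ← map_pow]
  exact Ideal.mem_map_of_mem _ (Ideal.pow_mem_pow v.2 m)

end IsAdicCompletionAt

end Fermat.Agent.Lib.CFT.Global.Places
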