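import Mathlib
import Fermat.Agent.Lib.CFT.Global.Places.LocalFactor

/-!
# Functoriality of the idempotent decomposition of a `q`-adic completion

`f : O →+* O'` a ring homomorphism of Dedekind domains, `A`, `A'` completions of `O` at `q` and of
`O'` at `q' = f q`, and `F : A →+* A'` a ring homomorphism compatible with `f`.  Then `F` maps the
idempotent `idem v` of a prime `v` above `q` to the sum of the idempotents `idem w` of the primes
`w` above `q'` lying over `v`.  Consequently `F` induces ring homomorphisms between the local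
factors `LocalFactor O q A v → LocalFactor O' q' A' w` for `w` over `v`.
-/

namespace Fermat.Agent.Lib.CFT.Global.Places.Galois

open IsDedekindDomain IsDedekindDomain.HeightOneSpectrum
open Fermat.Agent.Lib.CFT.Global.Places

variable {O : Type*} [CommRing O] [IsDedekindDomain O] {q : O}
variable {A : Type*} [CommRing A] [Algebra O A]
variable {O' : Type*} [CommRing O'] [IsDedekindDomain O'] {q' : O'}
variable {A' : Type*} [CommRing A'] [Algebra O' A']

/-- `w` lies over `v` with respect to `f`. -/
def LiesOverAlong (f : O →+* O') (v : PrimesAbove O q) (w : PrimesAbove O' q') : Prop :=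
  ∀ x ∈ v.1.asIdeal, f x ∈ w.1.asIdeal

theorem liesOverAlong_iff_comap_eq (f : O →+* O') (v : PrimesAbove O q) (w : PrimesAbove O' q') :
    LiesOverAlong f v w ↔ w.1.asIdeal.comap f = v.1.asIdeal := by
  constructor
  · intro h
    have hle : v.1.asIdeal ≤ w.1.asIdeal.comap f := fun x hx => h x hx
    have hmax : v.1.asIdeal.IsMaximal := v.1.isMaximal
    have hne : w.1.asIdeal.comap f ≠ ⊤ := (Ideal.comap_isPrime f w.1.asIdeal).ne_top
    exact (hmax.eq_of_le hne hle).symm
  · intro h x hx
    rw [← h] at hx
    exact hx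

/-- The prime of `O` under a prime `w` of `O'` above `q' = f q`. -/
noncomputable def under (f : O →+* O') (hq : f q = q') (hq0 : q ≠ 0)
    (w : PrimesAbove O' q') : PrimesAbove O q :=
  ⟨⟨w.1.asIdeal.comap f, Ideal.comap_isPrime f w.1.asIdeal, by
      intro h
      have hqw : q ∈ w.1.asIdeal.comap f := by
        rw [Ideal.mem_comap, hq]; exact w.2
      rw [h] at hqw
      exact hq0 (by simpa using hqw)⟩, by
    show q ∈ w.1.asIdeal.comap f
    rw [Ideal.mem_comap, hq]; exact w.2⟩

theorem liesOverAlong_under (f : O →+* O') (hq : f q = q')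
    (hq0 : q ≠ 0) (w : PrimesAbove O' q') : LiesOverAlong f (under f hq hq0 w) w :=
  fun _ hx => hx

theorem eq_under_of_liesOverAlong (f : O →+* O') (hq : f q = q')
    (hq0 : q ≠ 0) {v : PrimesAbove O q} {w : PrimesAbove O' q'} (h : LiesOverAlong f v w) :
    v = under f hq hq0 w := by
  apply Subtype.ext
  apply HeightOneSpectrum.ext
  exact ((liesOverAlong_iff_comap_eq f v w).mp h).symm


/-- A CRT element `b` for `v` satisfies `b * (b - 1) ∈ (q)`. -/
theorem crt_mul_sub_one_mem {q : O} (hq0 : q ≠ 0) {v : PrimesAbove O q} {b : O}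
    (hb1 : b - 1 ∈ primePow q v.1) (hb2 : ∀ w : PrimesAbove O q, w ≠ v → b ∈ primePow q w.1) :
    b * (b - 1) ∈ Ideal.span {q} := by
  rw [mem_span_iff_forall_mem_primePow hq0]
  intro w
  by_cases hw : w = v
  · subst hw
    exact Ideal.mul_mem_left _ _ hb1
  · exact Ideal.mul_mem_right _ _ (hb2 w hw)

/-- The image of a CRT element for `v` is congruent to `1` modulo the `w`-primary part of `(q')`
when `w` lies over `v`. -/
theorem map_crt_sub_one_mem (f : O →+* O') (hq : f q = q') (hq0 : q ≠ 0) (hq0' : q' ≠ 0)
    {v : PrimesAbove O q} {w : PrimesAbove O' q'} (hvw : LiesOverAlong f v w) {b : O}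
    (hb1 : b - 1 ∈ primePow q v.1) (hb2 : ∀ u : PrimesAbove O q, u ≠ v → b ∈ primePow q u.1) :
    f b - 1 ∈ primePow q' w.1 := by
  have h1 : f b * (f b - 1) ∈ w.1.asIdeal ^ ramExp q' w.1 := by
    have h := crt_mul_sub_one_mem hq0 hb1 hb2
    obtain ⟨c, hc⟩ := Ideal.mem_span_singleton'.mp h
    have h2 : f b * (f b - 1) = f c * q' := by
      rw [← hq, ← map_mul, hc, map_mul, map_sub, map_one]
    rw [h2]
    exact Ideal.mul_mem_left _ _ (self_mem_primePow hq0' w)
  have h3 : f b - 1 ∈ w.1.asIdeal := by
    have hb : b - 1 ∈ v.1.asIdeal := primePow_le hq0 v hb1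
    have := hvw _ hb
    rwa [map_sub, map_one] at this
  have h4 : f b ∉ w.1.asIdeal := by
    intro h
    have : (1 : O') ∈ w.1.asIdeal := by
      have := Ideal.sub_mem _ h h3
      simpa using this
    exact w.1.isPrime.ne_top ((Ideal.eq_top_iff_one _).mpr this)
  rcases Ideal.IsPrime.mul_mem_pow w.1.asIdeal h1 with h | h
  · exact absurd h h4
  · exact h


/-- The image of a CRT element for `v` lies in the `w`-primary part of `(q')` when `w` does not
lie over `v`. -/
theorem map_crt_mem (f : O →+* O') (hq : f q = q') (hq0 : q ≠ 0) (hq0' : q' ≠ 0)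
    {v : PrimesAbove O q} {w : PrimesAbove O' q'} (hvw : ¬ LiesOverAlong f v w) {b : O}
    (hb1 : b - 1 ∈ primePow q v.1) (hb2 : ∀ u : PrimesAbove O q, u ≠ v → b ∈ primePow q u.1) :
    f b ∈ primePow q' w.1 := by
  have h1 : (f b - 1) * f b ∈ w.1.asIdeal ^ ramExp q' w.1 := by
    have h := crt_mul_sub_one_mem hq0 hb1 hb2
    obtain ⟨c, hc⟩ := Ideal.mem_span_singleton'.mp h
    have h2 : (f b - 1) * f b = f c * q' := by
      rw [← hq, ← map_mul, hc, map_mul, map_sub, map_one, mul_comm]
    rw [h2]
    exact Ideal.mul_mem_left _ _ (self_mem_primePow hq0' w)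
  have hne : under f hq hq0 w ≠ v := by
    intro h
    apply hvw
    rw [← h]
    exact liesOverAlong_under f hq hq0 w
  have h3 : f b ∈ w.1.asIdeal := by
    have := primePow_le hq0 _ (hb2 _ hne)
    exact this
  have h4 : f b - 1 ∉ w.1.asIdeal := by
    intro h
    have : (1 : O') ∈ w.1.asIdeal := by
      have := Ideal.sub_mem _ h3 h
      simpa using this
    exact w.1.isPrime.ne_top ((Ideal.eq_top_iff_one _).mpr this)
  rcases Ideal.IsPrime.mul_mem_pow w.1.asIdeal h1 with h | h
  · exact absurd h h4
  · exact h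

section Completion

variable (h : IsAdicCompletionAt O q A) (h' : IsAdicCompletionAt O' q' A')
variable (f : O →+* O') (hq : f q = q') (F : A →+* A')
variable (hF : ∀ x, F (algebraMap O A x) = algebraMap O' A' (f x))

omit [IsDedekindDomain O] [IsDedekindDomain O'] in
include hq hF in
theorem map_mem_span (a : A) (ha : a ∈ Ideal.span {algebraMap O A q}) :
    F a ∈ Ideal.span {algebraMap O' A' q'} := by
  obtain ⟨c, rfl⟩ := Ideal.mem_span_singleton'.mp ha
  rw [map_mul, hF, hq]
  exact Ideal.mul_mem_left _ _ (Ideal.mem_span_singleton_self _)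

include h h' hq hF in
/-- `F (idem v) * idem w = idem w` if `w` lies over `v`. -/
theorem map_idem_mul_idem_of_liesOver {v : PrimesAbove O q} {w : PrimesAbove O' q'}
    (hvw : LiesOverAlong f v w) :
    F (idem O q A v) * idem O' q' A' w = idem O' q' A' w := by
  obtain ⟨he, b, ⟨hb1, hb2⟩, heb⟩ := h.idem_spec v
  obtain ⟨he', b', ⟨hb1', hb2'⟩, heb'⟩ := h'.idem_spec w
  have heF : IsIdempotentElem (F (idem O q A v)) := he.map F
  refine idem_eq_of_sub_mem _ h'.le_jacobson (heF.mul he') he' ?_
  have h1 : F (idem O q A v) - algebraMap O' A' (f b) ∈ Ideal.span {algebraMap O' A' q'} := by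
    have := map_mem_span f hq F hF _ heb
    rwa [map_sub, hF] at this
  have h2 : (f b - 1) * b' ∈ Ideal.span {q'} := by
    rw [mem_span_iff_forall_mem_primePow h'.ne_zero]
    intro u
    by_cases hu : u = w
    · subst hu
      exact Ideal.mul_mem_right _ _ (map_crt_sub_one_mem f hq h.ne_zero h'.ne_zero hvw hb1 hb2)
    · exact Ideal.mul_mem_left _ _ (hb2' u hu)
  have h3 := IsAdicCompletionAt.map_mem_of_mem (A := A') h2
  have : F (idem O q A v) * idem O' q' A' w - idem O' q' A' w =
      (F (idem O q A v) - algebraMap O' A' (f b)) * idem O' q' A' w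
      + (algebraMap O' A' (f b) - 1) * (idem O' q' A' w - algebraMap O' A' b')
      + algebraMap O' A' ((f b - 1) * b') := by
    rw [map_mul, map_sub, map_one]; ring
  rw [this]
  exact Ideal.add_mem _ (Ideal.add_mem _ (Ideal.mul_mem_right _ _ h1)
    (Ideal.mul_mem_left _ _ heb')) h3

include h h' hq hF in
/-- `F (idem v) * idem w = 0` if `w` does not lie over `v`. -/
theorem map_idem_mul_idem_of_not_liesOver {v : PrimesAbove O q} {w : PrimesAbove O' q'}
    (hvw : ¬ LiesOverAlong f v w) :
    F (idem O q A v) * idem O' q' A' w = 0 := by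
  obtain ⟨he, b, ⟨hb1, hb2⟩, heb⟩ := h.idem_spec v
  obtain ⟨he', b', ⟨hb1', hb2'⟩, heb'⟩ := h'.idem_spec w
  have heF : IsIdempotentElem (F (idem O q A v)) := he.map F
  refine idem_eq_of_sub_mem _ h'.le_jacobson (heF.mul he') IsIdempotentElem.zero ?_
  rw [sub_zero]
  have h1 : F (idem O q A v) - algebraMap O' A' (f b) ∈ Ideal.span {algebraMap O' A' q'} := by
    have := map_mem_span f hq F hF _ heb
    rwa [map_sub, hF] at this
  have h2 : f b * b' ∈ Ideal.span {q'} := by
    rw [mem_span_iff_forall_mem_primePow h'.ne_zero]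
    intro u
    by_cases hu : u = w
    · subst hu
      exact Ideal.mul_mem_right _ _ (map_crt_mem f hq h.ne_zero h'.ne_zero hvw hb1 hb2)
    · exact Ideal.mul_mem_left _ _ (hb2' u hu)
  have h3 := IsAdicCompletionAt.map_mem_of_mem (A := A') h2
  have : F (idem O q A v) * idem O' q' A' w =
      (F (idem O q A v) - algebraMap O' A' (f b)) * idem O' q' A' w
      + algebraMap O' A' (f b) * (idem O' q' A' w - algebraMap O' A' b')
      + algebraMap O' A' (f b * b') := by
    rw [map_mul]; ring
  rw [this]
  exact Ideal.add_mem _ (Ideal.add_mem _ (Ideal.mul_mem_right _ _ h1)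
    (Ideal.mul_mem_left _ _ heb')) h3


include h h' hq hF in
open Classical in
/-- `F` maps `idem v` to the sum of the `idem w`, `w` over `v`. -/
theorem map_idem_eq_sum [Fintype (PrimesAbove O' q')] (v : PrimesAbove O q) :
    F (idem O q A v) =
      ∑ w ∈ Finset.univ.filter (fun w : PrimesAbove O' q' => LiesOverAlong f v w),
        idem O' q' A' w := by
  calc F (idem O q A v) = F (idem O q A v) * ∑ w, idem O' q' A' w := by
        rw [h'.sum_idem, mul_one]
    _ = ∑ w, F (idem O q A v) * idem O' q' A' w := Finset.mul_sum _ _ _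
    _ = ∑ w, if LiesOverAlong f v w then idem O' q' A' w else 0 := by
        refine Finset.sum_congr rfl fun w _ => ?_
        split_ifs with hw
        · exact map_idem_mul_idem_of_liesOver h h' f hq F hF hw
        · exact map_idem_mul_idem_of_not_liesOver h h' f hq F hF hw
    _ = _ := by rw [Finset.sum_filter]

include h h' hq hF in
/-- `1 - idem v` is mapped into the ideal generated by `1 - idem w` if `w` lies over `v`. -/
theorem map_one_sub_idem_mem {v : PrimesAbove O q} {w : PrimesAbove O' q'}
    (hvw : LiesOverAlong f v w) :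
    F (1 - idem O q A v) ∈ Ideal.span {1 - idem O' q' A' w} := by
  rw [Ideal.mem_span_singleton']
  refine ⟨F (1 - idem O q A v), ?_⟩
  have := map_idem_mul_idem_of_liesOver h h' f hq F hF hvw
  rw [map_sub, map_one] at *
  linear_combination this

/-- The ring homomorphism between local factors induced by `F`, for `w` over `v`. -/
noncomputable def localFactorMap {v : PrimesAbove O q} {w : PrimesAbove O' q'}
    (hvw : LiesOverAlong f v w) : LocalFactor O q A v →+* LocalFactor O' q' A' w :=
  Ideal.Quotient.lift _ ((Ideal.Quotient.mk (Ideal.span {1 - idem O' q' A' w})).comp F)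
    (by
      intro a ha
      obtain ⟨c, rfl⟩ := Ideal.mem_span_singleton'.mp ha
      rw [RingHom.comp_apply, map_mul, map_mul]
      have := map_one_sub_idem_mem h h' f hq F hF hvw
      rw [Ideal.Quotient.eq_zero_iff_mem.mpr this, mul_zero])

@[simp] theorem localFactorMap_mk {v : PrimesAbove O q} {w : PrimesAbove O' q'}
    (hvw : LiesOverAlong f v w) (a : A) :
    localFactorMap h h' f hq F hF hvw (Ideal.Quotient.mk _ a) = Ideal.Quotient.mk _ (F a) :=
  rfl

theorem localFactorMap_algebraMap {v : PrimesAbove O q} {w : PrimesAbove O' q'}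
    (hvw : LiesOverAlong f v w) (x : O) :
    localFactorMap h h' f hq F hF hvw (algebraMap O (LocalFactor O q A v) x) =
      algebraMap O' (LocalFactor O' q' A' w) (f x) := by
  have h1 : algebraMap O (LocalFactor O q A v) x =
      Ideal.Quotient.mk (Ideal.span {1 - idem O q A v}) (algebraMap O A x) := rfl
  have h2 : algebraMap O' (LocalFactor O' q' A' w) (f x) =
      Ideal.Quotient.mk (Ideal.span {1 - idem O' q' A' w}) (algebraMap O' A' (f x)) := rfl
  rw [h1, h2, localFactorMap_mk, hF]


include h h' hq hF in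
/-- If `w` is the only prime over `v`, then `F (idem v) = idem w`. -/
theorem map_idem_eq_idem [Fintype (PrimesAbove O' q')] {v : PrimesAbove O q}
    {w : PrimesAbove O' q'} (hvw : LiesOverAlong f v w)
    (hu : ∀ u : PrimesAbove O' q', LiesOverAlong f v u → u = w) :
    F (idem O q A v) = idem O' q' A' w := by
  classical
  rw [map_idem_eq_sum h h' f hq F hF v]
  have : Finset.univ.filter (fun u : PrimesAbove O' q' => LiesOverAlong f v u) = {w} := by
    ext u
    simp only [Finset.mem_filter, Finset.mem_univ, true_and, Finset.mem_singleton]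
    exact ⟨hu u, fun hh => hh ▸ hvw⟩
  rw [this, Finset.sum_singleton]

end Completion

end Fermat.Agent.Lib.CFT.Global.Places.Galois
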