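import Mathlib

/-!
# Auxiliary results on adic completeness

* a direct factor `A ⧸ (1 - e)` (`e` idempotent) of an `I`-adically complete ring is complete;
* if `𝔪 ^ e = J` with `e ≠ 0`, then `J`-adic completeness implies `𝔪`-adic completeness.
-/

namespace Fermat.Agent.Lib.CFT.Global.Places

section
variable {B : Type*} [CommRing B]

theorem smodEq_pow_iff (J : Ideal B) (n : ℕ) (x y : B) :
    x ≡ y [SMOD (J ^ n • ⊤ : Submodule B B)] ↔ x - y ∈ J ^ n := by
  rw [SModEq.sub_mem, smul_eq_mul, Ideal.mul_top]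

theorem isHausdorff_iff_pow (J : Ideal B) :
    IsHausdorff J B ↔ ∀ x : B, (∀ n : ℕ, x ∈ J ^ n) → x = 0 := by
  rw [isHausdorff_iff]
  refine forall_congr' fun x => ?_
  refine imp_congr_left (forall_congr' fun n => ?_)
  rw [smodEq_pow_iff, sub_zero]

theorem isPrecomplete_iff_pow (J : Ideal B) :
    IsPrecomplete J B ↔ ∀ f : ℕ → B, (∀ m n, m ≤ n → f m - f n ∈ J ^ m) →
      ∃ L : B, ∀ n, f n - L ∈ J ^ n := by
  rw [isPrecomplete_iff]
  refine forall_congr' fun f => ?_
  constructor
  · intro H hf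
    obtain ⟨L, hL⟩ := H (fun {m n} hmn => (smodEq_pow_iff J m _ _).mpr (hf m n hmn))
    exact ⟨L, fun n => (smodEq_pow_iff J n _ _).mp (hL n)⟩
  · intro H hf
    obtain ⟨L, hL⟩ := H (fun m n hmn => (smodEq_pow_iff J m _ _).mp (hf hmn))
    exact ⟨L, fun n => (smodEq_pow_iff J n _ _).mpr (hL n)⟩

/-- If `𝔪 ^ e = J` with `e ≠ 0` then `J`-adic completeness implies `𝔪`-adic completeness. -/
theorem isAdicComplete_of_pow_eq {J 𝔪 : Ideal B} {e : ℕ} (he : e ≠ 0) (hJ : 𝔪 ^ e = J)
    [IsAdicComplete J B] : IsAdicComplete 𝔪 B := by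
  have hpow : ∀ n : ℕ, J ^ n = 𝔪 ^ (e * n) := fun n => by rw [← hJ, ← pow_mul]
  have hle : ∀ n : ℕ, n ≤ e * n := fun n => Nat.le_mul_of_pos_left n (Nat.pos_of_ne_zero he)
  have hH : IsHausdorff J B := inferInstance
  have hP : IsPrecomplete J B := inferInstance
  rw [isHausdorff_iff_pow] at hH
  rw [isPrecomplete_iff_pow] at hP
  refine { toIsHausdorff := ?_, toIsPrecomplete := ?_ }
  · rw [isHausdorff_iff_pow]
    intro x hx
    exact hH x fun n => by rw [hpow]; exact hx _
  · rw [isPrecomplete_iff_pow]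
    intro f hf
    obtain ⟨L, hL⟩ := hP (fun k => f (e * k)) (fun k l hkl => by
      rw [hpow]
      exact hf _ _ (Nat.mul_le_mul_left e hkl))
    refine ⟨L, fun n => ?_⟩
    have h1 : f n - f (e * n) ∈ 𝔪 ^ n := hf n (e * n) (hle n)
    have h2 : f (e * n) - L ∈ 𝔪 ^ n := by
      have := hL n
      rw [hpow] at this
      exact Ideal.pow_le_pow_right (hle n) this
    have : f n - L = (f n - f (e * n)) + (f (e * n) - L) := by ring
    rw [this]
    exact Ideal.add_mem _ h1 h2

end

section
variable {A : Type*} [CommRing A]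

theorem mk_mem_map_pow_iff (I : Ideal A) {e : A} (he : IsIdempotentElem e) (n : ℕ) (a : A) :
    Ideal.Quotient.mk (Ideal.span {1 - e}) a ∈
      (I.map (Ideal.Quotient.mk (Ideal.span {1 - e}))) ^ n ↔ e * a ∈ I ^ n := by
  rw [← Ideal.map_pow, Ideal.mem_map_span_singleton_iff_of_isIdempotentElem he.one_sub]
  rw [show (1 - (1 - e)) * a = e * a by ring]

/-- A direct factor of an `I`-adically complete ring is adically complete. -/
theorem isAdicComplete_quotient_idem (I : Ideal A) [IsAdicComplete I A] {e : A}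
    (he : IsIdempotentElem e) :
    IsAdicComplete (I.map (Ideal.Quotient.mk (Ideal.span {1 - e}))) (A ⧸ Ideal.span {1 - e}) := by
  have hH : IsHausdorff I A := inferInstance
  have hP : IsPrecomplete I A := inferInstance
  rw [isHausdorff_iff_pow] at hH
  rw [isPrecomplete_iff_pow] at hP
  have hee : e * e = e := he
  refine { toIsHausdorff := ?_, toIsPrecomplete := ?_ }
  · rw [isHausdorff_iff_pow]
    intro x hx
    obtain ⟨x, rfl⟩ := Ideal.Quotient.mk_surjective x
    have h1 : e * x = 0 := hH _ fun n => (mk_mem_map_pow_iff I he n x).mp (hx n)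
    rw [Ideal.Quotient.eq_zero_iff_mem, Ideal.mem_span_singleton']
    exact ⟨x, by linear_combination (-1 : A) * h1⟩
  · rw [isPrecomplete_iff_pow]
    intro f hf
    choose g hg using fun n => Ideal.Quotient.mk_surjective (f n)
    obtain ⟨L, hL⟩ := hP (fun n => e * g n) (fun m n hmn => by
      have := hf m n hmn
      rw [← hg m, ← hg n, ← map_sub, mk_mem_map_pow_iff I he] at this
      rw [← mul_sub]
      exact this)
    refine ⟨Ideal.Quotient.mk _ L, fun n => ?_⟩
    rw [← hg n, ← map_sub, mk_mem_map_pow_iff I he]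
    have h2 := Ideal.mul_mem_left _ e (hL n)
    have : e * (g n - L) = e * (e * g n - L) := by linear_combination (-(g n)) * hee
    rw [this]
    exact h2

end

end Fermat.Agent.Lib.CFT.Global.Places
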