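import Mathlib
import Fermat.Agent.Lib.CFT.Global.Places.LocalFactor

/-!
# The local factors are discrete valuation rings
-/

namespace Fermat.Agent.Lib.CFT.Global.Places

open IsDedekindDomain IsDedekindDomain.HeightOneSpectrum IsLocalRing

variable {O : Type*} [CommRing O] [IsDedekindDomain O] {q : O}
variable {A : Type*} [CommRing A] [Algebra O A]

namespace IsAdicCompletionAt

variable (h : IsAdicCompletionAt O q A)
include h

/-- The image of `q` lies in the Jacobson radical of the local factor. -/
theorem algebraMap_q_mem_jacobson (v : PrimesAbove O q) :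
    algebraMap O (LocalFactor O q A v) q ∈ Ideal.jacobson (⊥ : Ideal (LocalFactor O q A v)) := by
  rw [Ideal.mem_jacobson_bot]
  intro y
  obtain ⟨y, rfl⟩ := Ideal.Quotient.mk_surjective y
  have h1 : algebraMap O A q ∈ Ideal.jacobson (⊥ : Ideal A) :=
    h.le_jacobson (Ideal.mem_span_singleton_self _)
  have h2 := (Ideal.mem_jacobson_bot.mp h1) y
  have : algebraMap O (LocalFactor O q A v) q * Ideal.Quotient.mk _ y + 1 =
      Ideal.Quotient.mk (Ideal.span {1 - idem O q A v}) (algebraMap O A q * y + 1) := by
    rw [map_add, map_mul, map_one]; rfl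
  rw [this]
  exact h2.map _

theorem span_q_le_jacobson (v : PrimesAbove O q) :
    Ideal.span {algebraMap O (LocalFactor O q A v) q} ≤
      Ideal.jacobson (⊥ : Ideal (LocalFactor O q A v)) := by
  rw [Ideal.span_singleton_le_iff_mem]
  exact h.algebraMap_q_mem_jacobson v

/-- `v^e A_v = q A_v`. -/
theorem map_primePow_eq (v : PrimesAbove O q) :
    (primePow q v.1).map (algebraMap O (LocalFactor O q A v)) =
      Ideal.span {algebraMap O (LocalFactor O q A v) q} := by
  apply le_antisymm
  · obtain ⟨-, b, ⟨hb1, hb2⟩, heb⟩ := h.idem_spec v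
    -- the image of `b` is a unit
    have hbunit : IsUnit (algebraMap O (LocalFactor O q A v) b) := by
      obtain ⟨c, hc⟩ := Ideal.mem_span_singleton'.mp heb
      have h1 : Ideal.Quotient.mk (Ideal.span {1 - idem O q A v}) (idem O q A v) = 1 := by
        rw [← map_one (Ideal.Quotient.mk (Ideal.span {1 - idem O q A v})), Ideal.Quotient.eq]
        rw [show idem O q A v - 1 = -(1 - idem O q A v) by ring]
        exact Ideal.neg_mem_iff _ |>.mpr (Ideal.mem_span_singleton_self _)
      have h2 : algebraMap O (LocalFactor O q A v) b =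
          algebraMap O (LocalFactor O q A v) q * (-(Ideal.Quotient.mk _ c)) + 1 := by
        have h3 : algebraMap O A b = idem O q A v - c * algebraMap O A q := by rw [hc]; ring
        have h4 : algebraMap O (LocalFactor O q A v) b =
            Ideal.Quotient.mk (Ideal.span {1 - idem O q A v}) (algebraMap O A b) := rfl
        have h5 : algebraMap O (LocalFactor O q A v) q =
            Ideal.Quotient.mk (Ideal.span {1 - idem O q A v}) (algebraMap O A q) := rfl
        rw [h4, h3, map_sub, map_mul, h1, h5]; ring
      rw [h2]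
      exact (Ideal.mem_jacobson_bot.mp (h.algebraMap_q_mem_jacobson v)) _
    rw [Ideal.map_le_iff_le_comap]
    intro x hx
    rw [Ideal.mem_comap]
    have hxb : x * b ∈ Ideal.span {q} := by
      rw [mem_span_iff_forall_mem_primePow h.ne_zero]
      intro w
      by_cases hw : w = v
      · subst hw; exact Ideal.mul_mem_right _ _ hx
      · exact Ideal.mul_mem_left _ _ (hb2 w hw)
    obtain ⟨c, hc⟩ := Ideal.mem_span_singleton'.mp hxb
    have h6 : algebraMap O (LocalFactor O q A v) x * algebraMap O (LocalFactor O q A v) b ∈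
        Ideal.span {algebraMap O (LocalFactor O q A v) q} := by
      rw [← map_mul, ← hc, map_mul]
      exact Ideal.mul_mem_left _ _ (Ideal.mem_span_singleton_self _)
    obtain ⟨u, hu⟩ := hbunit
    have : algebraMap O (LocalFactor O q A v) x =
        (algebraMap O (LocalFactor O q A v) x * algebraMap O (LocalFactor O q A v) b) *
          (u⁻¹ : (LocalFactor O q A v)ˣ) := by
      rw [← hu, mul_assoc, Units.mul_inv, mul_one]
    rw [this]
    exact Ideal.mul_mem_right _ _ h6
  · rw [Ideal.span_singleton_le_iff_mem]
    exact Ideal.mem_map_of_mem _ (self_mem_primePow h.ne_zero v)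

theorem map_le_jacobson (v : PrimesAbove O q) :
    (v.1.asIdeal).map (algebraMap O (LocalFactor O q A v)) ≤
      Ideal.jacobson (⊥ : Ideal (LocalFactor O q A v)) := by
  intro y hy
  have h1 : y ^ ramExp q v.1 ∈ (primePow q v.1).map (algebraMap O (LocalFactor O q A v)) := by
    unfold primePow
    rw [Ideal.map_pow]
    exact Ideal.pow_mem_pow hy _
  rw [h.map_primePow_eq v] at h1
  have h2 := h.span_q_le_jacobson v h1
  exact (Ideal.isRadical_jacobson (⊥ : Ideal (LocalFactor O q A v))) ⟨_, h2⟩

theorem map_isMaximal (v : PrimesAbove O q) :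
    ((v.1.asIdeal).map (algebraMap O (LocalFactor O q A v))).IsMaximal := by
  rw [Ideal.isMaximal_iff]
  constructor
  · intro h1
    have h2 : algebraMap O (LocalFactor O q A v) 1 ∈
        (v.1.asIdeal ^ 1).map (algebraMap O (LocalFactor O q A v)) := by
      rw [map_one, pow_one]; exact h1
    rw [h.algebraMap_mem_map_pow_iff v 1 1, pow_one] at h2
    exact v.1.isPrime.ne_top ((Ideal.eq_top_iff_one _).mpr h2)
  · intro J a hJ ha haJ
    obtain ⟨x, hx⟩ := h.exists_sub_mem_map_pow v 1 a
    rw [pow_one] at hx
    have hxv : x ∉ v.1.asIdeal := by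
      intro hxv
      apply ha
      have : a = (a - algebraMap O (LocalFactor O q A v) x) +
          algebraMap O (LocalFactor O q A v) x := by ring
      rw [this]
      exact Ideal.add_mem _ hx (Ideal.mem_map_of_mem _ hxv)
    have hmax : v.1.asIdeal.IsMaximal := v.1.isMaximal
    obtain ⟨y, z, hz, hyz⟩ := hmax.exists_inv hxv
    -- y * x + z = 1 with z ∈ v
    have h3 : algebraMap O (LocalFactor O q A v) x ∈ J := by
      have : algebraMap O (LocalFactor O q A v) x =
          a - (a - algebraMap O (LocalFactor O q A v) x) := by ring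
      rw [this]
      exact Ideal.sub_mem _ haJ (hJ hx)
    have h4 : (1 : LocalFactor O q A v) = algebraMap O (LocalFactor O q A v) y *
        algebraMap O (LocalFactor O q A v) x + algebraMap O (LocalFactor O q A v) z := by
      rw [← map_mul, ← map_add, hyz, map_one]
    rw [h4]
    exact Ideal.add_mem _ (Ideal.mul_mem_left _ _ h3) (hJ (Ideal.mem_map_of_mem _ hz))

theorem isLocalRing (v : PrimesAbove O q) : IsLocalRing (LocalFactor O q A v) := by
  refine IsLocalRing.of_unique_max_ideal
    ⟨(v.1.asIdeal).map (algebraMap O (LocalFactor O q A v)), h.map_isMaximal v, ?_⟩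
  intro M hM
  have h1 : (v.1.asIdeal).map (algebraMap O (LocalFactor O q A v)) ≤ M := by
    refine (h.map_le_jacobson v).trans ?_
    exact sInf_le ⟨bot_le, hM⟩
  exact ((h.map_isMaximal v).eq_of_le hM.ne_top h1).symm

end IsAdicCompletionAt

end Fermat.Agent.Lib.CFT.Global.Places
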