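import Mathlib
import Fermat.Agent.Lib.CFT.Global.Places.LocalFactorDVR

/-!
# Uniformizers of the local factors; the local factors are DVRs
-/

namespace Fermat.Agent.Lib.CFT.Global.Places

open IsDedekindDomain IsDedekindDomain.HeightOneSpectrum IsLocalRing

variable {O : Type*} [CommRing O] [IsDedekindDomain O] {q : O}
variable {A : Type*} [CommRing A] [Algebra O A]

omit [IsDedekindDomain O] in
/-- A Dedekind prime is generated by any element outside its square, modulo its square. -/
theorem eq_span_sup_sq [IsDedekindDomain O] (v : HeightOneSpectrum O) {π : O}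
    (hπ : π ∈ v.asIdeal) (hπ2 : π ∉ v.asIdeal ^ 2) :
    v.asIdeal = Ideal.span {π} ⊔ v.asIdeal ^ 2 := by
  have hlt : v.asIdeal ^ (1 + 1) < Ideal.span {π} ⊔ v.asIdeal ^ 2 := by
    refine lt_of_le_of_ne le_sup_right ?_
    intro heq
    apply hπ2
    have : π ∈ Ideal.span {π} ⊔ v.asIdeal ^ 2 :=
      Ideal.mem_sup_left (Ideal.mem_span_singleton_self π)
    rw [← heq] at this
    exact this
  have hle : Ideal.span {π} ⊔ v.asIdeal ^ 2 ≤ v.asIdeal ^ 1 := by
    rw [pow_one]
    refine sup_le ?_ (Ideal.pow_le_self (by norm_num))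
    rw [Ideal.span_singleton_le_iff_mem]
    exact hπ
  have := Ideal.eq_prime_pow_of_succ_lt_of_le (P := v.asIdeal) v.ne_bot hlt hle
  rw [this, pow_one]

theorem exists_mem_not_mem_sq (v : HeightOneSpectrum O) :
    ∃ π : O, π ∈ v.asIdeal ∧ π ∉ v.asIdeal ^ 2 := by
  obtain ⟨π, h1, h2⟩ := Ideal.exists_mem_pow_notMem_pow_succ v.asIdeal v.ne_bot
    v.isPrime.ne_top 1
  exact ⟨π, by simpa using h1, by simpa using h2⟩

namespace IsAdicCompletionAt

variable (h : IsAdicCompletionAt O q A)
include h

theorem isNoetherianRing_localFactor (v : PrimesAbove O q) :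
    IsNoetherianRing (LocalFactor O q A v) := by
  have := h.noeth
  infer_instance

/-- The image of an element of `v \ v^2` generates `v A_v`. -/
theorem map_eq_span_singleton (v : PrimesAbove O q) {π : O}
    (hπ : π ∈ v.1.asIdeal) (hπ2 : π ∉ v.1.asIdeal ^ 2) :
    (v.1.asIdeal).map (algebraMap O (LocalFactor O q A v)) =
      Ideal.span {algebraMap O (LocalFactor O q A v) π} := by
  have := h.isNoetherianRing_localFactor v
  set 𝔭 := (v.1.asIdeal).map (algebraMap O (LocalFactor O q A v)) with h𝔭
  apply le_antisymm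
  · refine Submodule.le_of_le_smul_of_le_jacobson_bot (I := 𝔭)
      (IsNoetherian.noetherian 𝔭) (h.map_le_jacobson v) ?_
    have h1 : 𝔭 = Ideal.span {algebraMap O (LocalFactor O q A v) π} ⊔ 𝔭 ^ 2 := by
      conv_lhs => rw [h𝔭, eq_span_sup_sq v.1 hπ hπ2]
      rw [Ideal.map_sup, Ideal.map_span, Set.image_singleton, Ideal.map_pow]
    conv_lhs => rw [h1]
    rw [smul_eq_mul, pow_two]
  · rw [Ideal.span_singleton_le_iff_mem]
    exact Ideal.mem_map_of_mem _ hπ

/-- `q` is a non-zero-divisor of the local factor. -/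
theorem algebraMap_q_mem_nonZeroDivisors (v : PrimesAbove O q) :
    algebraMap O (LocalFactor O q A v) q ∈ nonZeroDivisors (LocalFactor O q A v) := by
  rw [mem_nonZeroDivisors_iff]
  have key : ∀ a : LocalFactor O q A v, algebraMap O (LocalFactor O q A v) q * a = 0 → a = 0 := by
    intro a ha
    obtain ⟨a, rfl⟩ := Ideal.Quotient.mk_surjective a
    have h1 : algebraMap O (LocalFactor O q A v) q =
        Ideal.Quotient.mk (Ideal.span {1 - idem O q A v}) (algebraMap O A q) := rfl
    rw [h1, ← map_mul, Ideal.Quotient.eq_zero_iff_mem, Ideal.mem_span_singleton'] at ha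
    obtain ⟨c, hc⟩ := ha
    have hid : idem O q A v * idem O q A v = idem O q A v := h.isIdempotentElem_idem v
    have h2 : algebraMap O A q * (idem O q A v * a) = 0 := by
      have : algebraMap O A q * (idem O q A v * a) = idem O q A v * (algebraMap O A q * a) := by
        ring
      rw [this, ← hc]
      linear_combination (-c) * hid
    have h3 : idem O q A v * a = 0 := by
      have := (mem_nonZeroDivisors_iff.mp h.regular).1 _ h2
      exact this
    rw [Ideal.Quotient.eq_zero_iff_mem, Ideal.mem_span_singleton']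
    exact ⟨a, by linear_combination (-1 : A) * h3⟩
  exact ⟨fun a ha => key a ha, fun a ha => key a (by rw [mul_comm]; exact ha)⟩

/-- `q A_v = π^e A_v`. -/
theorem span_q_eq_span_pow (v : PrimesAbove O q) {π : O}
    (hπ : π ∈ v.1.asIdeal) (hπ2 : π ∉ v.1.asIdeal ^ 2) :
    Ideal.span {algebraMap O (LocalFactor O q A v) q} =
      Ideal.span {algebraMap O (LocalFactor O q A v) π ^ ramExp q v.1} := by
  rw [← h.map_primePow_eq v, primePow, Ideal.map_pow, h.map_eq_span_singleton v hπ hπ2,
    Ideal.span_singleton_pow]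

/-- The image of a uniformizer of `v` is a non-zero-divisor in the local factor. -/
theorem algebraMap_unif_mem_nonZeroDivisors (v : PrimesAbove O q) {π : O}
    (hπ : π ∈ v.1.asIdeal) (hπ2 : π ∉ v.1.asIdeal ^ 2) :
    algebraMap O (LocalFactor O q A v) π ∈ nonZeroDivisors (LocalFactor O q A v) := by
  have h1 := h.span_q_eq_span_pow v hπ hπ2
  have h2 : algebraMap O (LocalFactor O q A v) q ∈
      Ideal.span {algebraMap O (LocalFactor O q A v) π ^ ramExp q v.1} := by
    rw [← h1]; exact Ideal.mem_span_singleton_self _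
  obtain ⟨c, hc⟩ := Ideal.mem_span_singleton'.mp h2
  have hq := h.algebraMap_q_mem_nonZeroDivisors v
  have he : ramExp q v.1 ≠ 0 := ramExp_ne_zero h.ne_zero v
  obtain ⟨k, hk⟩ := Nat.exists_eq_succ_of_ne_zero he
  rw [mem_nonZeroDivisors_iff]
  have key : ∀ a : LocalFactor O q A v, algebraMap O (LocalFactor O q A v) π * a = 0 → a = 0 := by
    intro a ha
    have h3 : algebraMap O (LocalFactor O q A v) q * a = 0 := by
      rw [← hc, hk, pow_succ]
      linear_combination (c * algebraMap O (LocalFactor O q A v) π ^ k) * ha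
    exact (mem_nonZeroDivisors_iff.mp hq).1 _ h3
  refine ⟨fun a ha => key a ha, fun a ha => key a (by rw [mul_comm]; exact ha)⟩

theorem isDomain_localFactor (v : PrimesAbove O q) : IsDomain (LocalFactor O q A v) := by
  have := h.isNoetherianRing_localFactor v
  have := h.isLocalRing v
  obtain ⟨π, hπ, hπ2⟩ := exists_mem_not_mem_sq v.1
  refine isDomain_of_maximalIdeal_eq_span (π := algebraMap O (LocalFactor O q A v) π) ?_
    (h.algebraMap_unif_mem_nonZeroDivisors v hπ hπ2)
  rw [← h.map_eq_span_singleton v hπ hπ2]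
  exact (IsLocalRing.eq_maximalIdeal (h.map_isMaximal v)).symm

theorem maximalIdeal_eq_map (v : PrimesAbove O q) [IsLocalRing (LocalFactor O q A v)] :
    maximalIdeal (LocalFactor O q A v) =
      (v.1.asIdeal).map (algebraMap O (LocalFactor O q A v)) :=
  (IsLocalRing.eq_maximalIdeal (h.map_isMaximal v)).symm

theorem maximalIdeal_eq_span (v : PrimesAbove O q) [IsLocalRing (LocalFactor O q A v)] {π : O}
    (hπ : π ∈ v.1.asIdeal) (hπ2 : π ∉ v.1.asIdeal ^ 2) :
    maximalIdeal (LocalFactor O q A v) = Ideal.span {algebraMap O (LocalFactor O q A v) π} := by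
  rw [h.maximalIdeal_eq_map v, h.map_eq_span_singleton v hπ hπ2]

theorem isDiscreteValuationRing_localFactor (v : PrimesAbove O q)
    [IsDomain (LocalFactor O q A v)] : IsDiscreteValuationRing (LocalFactor O q A v) := by
  have := h.isNoetherianRing_localFactor v
  have := h.isLocalRing v
  obtain ⟨π, hπ, hπ2⟩ := exists_mem_not_mem_sq v.1
  refine isDiscreteValuationRing_of_maximalIdeal_eq_span
    (π := algebraMap O (LocalFactor O q A v) π) (h.maximalIdeal_eq_span v hπ hπ2) ?_
  exact nonZeroDivisors.ne_zero (h.algebraMap_unif_mem_nonZeroDivisors v hπ hπ2)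

end IsAdicCompletionAt

end Fermat.Agent.Lib.CFT.Global.Places
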