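import Mathlib
import Fermat.Agent.Lib.CFT.Global.Places.LocalFactorUnif
import Fermat.Agent.Lib.CFT.Global.Places.CompleteAux

/-!
# Completeness, valuations and residue fields of the local factors; product decomposition
-/

namespace Fermat.Agent.Lib.CFT.Global.Places

open IsDedekindDomain IsDedekindDomain.HeightOneSpectrum IsLocalRing

variable {O : Type*} [CommRing O] [IsDedekindDomain O] {q : O}
variable {A : Type*} [CommRing A] [Algebra O A]

namespace IsAdicCompletionAt

variable (h : IsAdicCompletionAt O q A)
include h

theorem maximalIdeal_pow_eq_map (v : PrimesAbove O q) [IsLocalRing (LocalFactor O q A v)] (m : ℕ) :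
    maximalIdeal (LocalFactor O q A v) ^ m =
      (v.1.asIdeal ^ m).map (algebraMap O (LocalFactor O q A v)) := by
  rw [h.maximalIdeal_eq_map v, Ideal.map_pow]

/-- Compatibility of the filtrations: `x ∈ v^m` iff its image lies in `𝔪^m`. -/
theorem algebraMap_mem_maximalIdeal_pow_iff (v : PrimesAbove O q)
    [IsLocalRing (LocalFactor O q A v)] (m : ℕ) (x : O) :
    algebraMap O (LocalFactor O q A v) x ∈ maximalIdeal (LocalFactor O q A v) ^ m ↔
      x ∈ v.1.asIdeal ^ m := by
  rw [h.maximalIdeal_pow_eq_map v m, h.algebraMap_mem_map_pow_iff v m x]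

/-- Every element of the local factor is congruent mod `𝔪^m` to an element of `O`. -/
theorem exists_sub_mem_maximalIdeal_pow (v : PrimesAbove O q)
    [IsLocalRing (LocalFactor O q A v)] (m : ℕ) (a : LocalFactor O q A v) :
    ∃ x : O, a - algebraMap O (LocalFactor O q A v) x ∈
      maximalIdeal (LocalFactor O q A v) ^ m := by
  rw [h.maximalIdeal_pow_eq_map v m]
  exact h.exists_sub_mem_map_pow v m a

theorem algebraMap_localFactor_injective (v : PrimesAbove O q) :
    Function.Injective (algebraMap O (LocalFactor O q A v)) := by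
  have := h.isLocalRing v
  rw [injective_iff_map_eq_zero]
  intro x hx
  have h1 : ∀ m : ℕ, x ∈ v.1.asIdeal ^ m := fun m => by
    rw [← h.algebraMap_mem_maximalIdeal_pow_iff v m x, hx]
    exact Ideal.zero_mem _
  have h2 : x ∈ (⨅ m : ℕ, v.1.asIdeal ^ m) := by
    rw [Ideal.mem_iInf]; exact h1
  rw [Ideal.iInf_pow_eq_bot_of_isDomain v.1.asIdeal v.1.isPrime.ne_top] at h2
  exact h2

/-- `q A_v = 𝔪 ^ e`. -/
theorem span_q_eq_maximalIdeal_pow (v : PrimesAbove O q) [IsLocalRing (LocalFactor O q A v)] :
    Ideal.span {algebraMap O (LocalFactor O q A v) q} =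
      maximalIdeal (LocalFactor O q A v) ^ ramExp q v.1 := by
  rw [h.maximalIdeal_pow_eq_map v, ← h.map_primePow_eq v, primePow]

/-- The local factor is `q`-adically complete. -/
theorem isAdicComplete_span_q (v : PrimesAbove O q) :
    IsAdicComplete (Ideal.span {algebraMap O (LocalFactor O q A v) q})
      (LocalFactor O q A v) := by
  have := h.complete
  have h1 := isAdicComplete_quotient_idem (Ideal.span {algebraMap O A q})
    (h.isIdempotentElem_idem v)
  rw [Ideal.map_span, Set.image_singleton] at h1
  exact h1

/-- The local factor is complete with respect to its maximal ideal. -/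
theorem isAdicComplete_maximalIdeal (v : PrimesAbove O q) [IsLocalRing (LocalFactor O q A v)] :
    IsAdicComplete (maximalIdeal (LocalFactor O q A v)) (LocalFactor O q A v) := by
  have := h.isAdicComplete_span_q v
  exact isAdicComplete_of_pow_eq (ramExp_ne_zero h.ne_zero v)
    (h.span_q_eq_maximalIdeal_pow v).symm

/-- The residue field of the local factor at `v` is `O ⧸ v`. -/
theorem residue_surjective (v : PrimesAbove O q) [IsLocalRing (LocalFactor O q A v)] :
    Function.Surjective ((residue (LocalFactor O q A v)).comp
      (algebraMap O (LocalFactor O q A v))) := by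
  intro a
  obtain ⟨a, rfl⟩ := Ideal.Quotient.mk_surjective a
  obtain ⟨x, hx⟩ := h.exists_sub_mem_maximalIdeal_pow v 1 a
  rw [pow_one] at hx
  refine ⟨x, ?_⟩
  rw [RingHom.comp_apply]
  exact (Ideal.Quotient.eq.mpr hx).symm

theorem ker_residue_comp (v : PrimesAbove O q) [IsLocalRing (LocalFactor O q A v)] :
    RingHom.ker ((residue (LocalFactor O q A v)).comp
      (algebraMap O (LocalFactor O q A v))) = v.1.asIdeal := by
  ext x
  rw [RingHom.mem_ker, RingHom.comp_apply, residue_eq_zero_iff]
  have := h.algebraMap_mem_maximalIdeal_pow_iff v 1 x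
  rwa [pow_one, pow_one] at this

/-- The residue field of the local factor at `v` is `O ⧸ v`. -/
noncomputable def residueFieldEquiv (v : PrimesAbove O q) [IsLocalRing (LocalFactor O q A v)] :
    (O ⧸ v.1.asIdeal) ≃+* ResidueField (LocalFactor O q A v) :=
  (Ideal.quotEquivOfEq (h.ker_residue_comp v).symm).trans
    (RingHom.quotientKerEquivOfSurjective (h.residue_surjective v))

theorem residueFieldEquiv_mk (v : PrimesAbove O q) [IsLocalRing (LocalFactor O q A v)] (x : O) :
    h.residueFieldEquiv v (Ideal.Quotient.mk _ x) =
      residue (LocalFactor O q A v) (algebraMap O (LocalFactor O q A v) x) := rfl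

/-- The product decomposition of `A` into its local factors. -/
noncomputable def equivPi [Fintype (PrimesAbove O q)] :
    A ≃+* ∀ v : PrimesAbove O q, LocalFactor O q A v :=
  RingEquiv.ofBijective _ h.completeOrthogonalIdempotents_idem.bijective_pi

theorem equivPi_apply [Fintype (PrimesAbove O q)] (a : A) (v : PrimesAbove O q) :
    h.equivPi a v = Ideal.Quotient.mk (Ideal.span {1 - idem O q A v}) a := rfl

end IsAdicCompletionAt

end Fermat.Agent.Lib.CFT.Global.Places
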