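import Mathlib

/-!
# Finite free modules over adically complete rings are adically complete
-/

namespace Fermat.Agent.Lib.CFT.Global.Places

open Module

variable {ι R M : Type*} [CommRing R] [AddCommGroup M] [Module R M]

/-- Membership in `J • ⊤` can be tested on the coordinates with respect to a basis. -/
theorem mem_smul_top_iff_repr (b : Basis ι R M) (J : Ideal R) (x : M) :
    x ∈ J • (⊤ : Submodule R M) ↔ ∀ i, b.repr x i ∈ J := by
  rw [← b.span_eq, Submodule.mem_ideal_smul_span_iff_exists_sum]
  constructor
  · rintro ⟨a, ha, rfl⟩ i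
    have : b.repr (a.sum fun i c => c • b i) = a := by
      rw [← Finsupp.linearCombination_apply, b.repr_linearCombination]
    rw [this]; exact ha i
  · intro h
    exact ⟨b.repr x, h, by rw [← Finsupp.linearCombination_apply, b.linearCombination_repr]⟩

theorem isHausdorff_of_basis (b : Basis ι R M) (I : Ideal R) [IsHausdorff I R] :
    IsHausdorff I M := by
  refine ⟨fun x hx => ?_⟩
  apply b.repr.injective
  ext i
  rw [map_zero, Finsupp.zero_apply]
  refine IsHausdorff.haus (I := I) inferInstance _ fun n => ?_
  have h1 := (mem_smul_top_iff_repr b (I ^ n) x).mp (SModEq.zero.mp (hx n)) i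
  rw [SModEq.zero, smul_eq_mul, Ideal.mul_top]
  exact h1

theorem isPrecomplete_of_basis [Finite ι] (b : Basis ι R M) (I : Ideal R) [IsPrecomplete I R] :
    IsPrecomplete I M := by
  cases nonempty_fintype ι
  refine ⟨fun f hf => ?_⟩
  have hcoord : ∀ i, ∃ L : R, ∀ n, b.repr (f n) i ≡ L [SMOD (I ^ n • ⊤ : Submodule R R)] := by
    intro i
    refine IsPrecomplete.prec (I := I) inferInstance (f := fun n => b.repr (f n) i) ?_
    intro m n hmn
    have h1 := (mem_smul_top_iff_repr b (I ^ m) (f m - f n)).mp (SModEq.sub_mem.mp (hf hmn)) i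
    rw [SModEq.sub_mem, smul_eq_mul, Ideal.mul_top]
    simpa using h1
  choose L hL using hcoord
  refine ⟨∑ i, L i • b i, fun n => ?_⟩
  rw [SModEq.sub_mem, mem_smul_top_iff_repr b]
  intro i
  have h2 := SModEq.sub_mem.mp (hL i n)
  rw [smul_eq_mul, Ideal.mul_top] at h2
  have h3 : b.repr (∑ j, L j • b j) i = L i := congrFun (b.repr_sum_self L) i
  rw [map_sub, Finsupp.sub_apply, h3]
  exact h2

/-- A finite free module over an `I`-adically complete ring is `I`-adically complete. -/
theorem isAdicComplete_of_basis [Finite ι] (b : Basis ι R M) (I : Ideal R) [IsAdicComplete I R] :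
    IsAdicComplete I M :=
  { toIsHausdorff := isHausdorff_of_basis b I
    toIsPrecomplete := isPrecomplete_of_basis b I }

/-- A finite free algebra over an `I`-adically complete ring is `IA`-adically complete. -/
theorem isAdicComplete_map_of_basis {A : Type*} [CommRing A] [Algebra R A] [Finite ι]
    (b : Basis ι R A) (I : Ideal R) [IsAdicComplete I R] :
    IsAdicComplete (I.map (algebraMap R A)) A :=
  { toIsHausdorff := by
      have := isHausdorff_of_basis b I
      exact IsHausdorff.map_algebraMap_iff.mpr this
    toIsPrecomplete := by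
      have := isPrecomplete_of_basis b I
      exact IsPrecomplete.map_algebraMap_iff.mpr this }

end Fermat.Agent.Lib.CFT.Global.Places
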