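import Mathlib
import Fermat.Agent.Lib.CFT.Global.Places.FreeComplete
import Fermat.Agent.Lib.CFT.Global.Places.AdicDecomp

/-!
# `ℤ_p ⊗ O` is a `p`-adic completion of `O`

For a Dedekind domain `O` which is a finite free `ℤ`-module (e.g. the ring of integers of a number
field) and a prime number `p`, the ring `Ohat O p = ℤ_[p] ⊗[ℤ] O` is a `p`-adic completion of `O`
in the sense of `IsAdicCompletionAt`.
-/

open scoped TensorProduct

namespace Fermat.Agent.Lib.CFT.Global.Places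

open Module

variable (O : Type*) [CommRing O] (p : ℕ) [Fact p.Prime]

/-- The ring `ℤ_p ⊗ O`. -/
def Ohat : Type _ := ℤ_[p] ⊗[ℤ] O

namespace Ohat

noncomputable instance : CommRing (Ohat O p) := inferInstanceAs (CommRing (ℤ_[p] ⊗[ℤ] O))

noncomputable instance : Algebra ℤ_[p] (Ohat O p) :=
  inferInstanceAs (Algebra ℤ_[p] (ℤ_[p] ⊗[ℤ] O))

noncomputable instance : Algebra O (Ohat O p) :=
  (Algebra.TensorProduct.includeRight (R := ℤ) (A := ℤ_[p]) (B := O)).toRingHom.toAlgebra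

variable {O p}

/-- The pure tensor `a ⊗ x`. -/
noncomputable def tmul (a : ℤ_[p]) (x : O) : Ohat O p := a ⊗ₜ[ℤ] x

theorem algebraMap_apply (x : O) : algebraMap O (Ohat O p) x = tmul 1 x := rfl

theorem algebraMap_padic_apply (a : ℤ_[p]) : algebraMap ℤ_[p] (Ohat O p) a = tmul a 1 := rfl

theorem tmul_mul_tmul (a b : ℤ_[p]) (x y : O) :
    (tmul a x * tmul b y : Ohat O p) = tmul (a * b) (x * y) :=
  Algebra.TensorProduct.tmul_mul_tmul a b x y

theorem smul_tmul (a b : ℤ_[p]) (x : O) : a • (tmul b x : Ohat O p) = tmul (a * b) x := by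
  change a • (b ⊗ₜ[ℤ] x) = (a * b) ⊗ₜ[ℤ] x
  rw [TensorProduct.smul_tmul', smul_eq_mul]

theorem natCast_eq (n : ℕ) : ((n : O) : O) = n := rfl

/-- The image of the natural number `n` from `O` is `n`. -/
theorem algebraMap_natCast (n : ℕ) : algebraMap O (Ohat O p) (n : O) = (n : Ohat O p) :=
  map_natCast _ n

theorem algebraMap_padic_natCast (n : ℕ) :
    algebraMap ℤ_[p] (Ohat O p) (n : ℤ_[p]) = (n : Ohat O p) :=
  map_natCast _ n

variable (O p) in
/-- The `ℤ_p`-basis of `ℤ_p ⊗ O` induced by a `ℤ`-basis of `O`. -/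
noncomputable def basis {ι : Type*} (b : Basis ι ℤ O) : Basis ι ℤ_[p] (Ohat O p) :=
  Algebra.TensorProduct.basis ℤ_[p] b

theorem basis_apply {ι : Type*} (b : Basis ι ℤ O) (i : ι) :
    basis O p b i = algebraMap O (Ohat O p) (b i) :=
  Algebra.TensorProduct.basis_apply b i

theorem basis_repr_algebraMap {ι : Type*} (b : Basis ι ℤ O) (x : O) (i : ι) :
    (basis O p b).repr (algebraMap O (Ohat O p) x) i = ((b.repr x i : ℤ) : ℤ_[p]) := by
  have := Algebra.TensorProduct.basis_repr_tmul (A := ℤ_[p]) b (1 : ℤ_[p]) x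
  change (Algebra.TensorProduct.basis ℤ_[p] b).repr ((1 : ℤ_[p]) ⊗ₜ[ℤ] x) i = _
  rw [this]
  simp

end Ohat

end Fermat.Agent.Lib.CFT.Global.Places
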