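import Mathlib
import Fermat.Agent.Lib.CFT.Global.Places.Ohat

/-!
# `ℤ_p ⊗ O` is a `p`-adic completion of `O`: the proof
-/

open scoped TensorProduct

namespace Fermat.Agent.Lib.CFT.Global.Places

open Module

variable {O : Type*} [CommRing O] {p : ℕ} [Fact p.Prime]

namespace Ohat

/-- Membership in `p^k (ℤ_p ⊗ O)` can be tested on coordinates. -/
theorem mem_span_pow_iff_repr {ι : Type*} (b : Basis ι ℤ O) (k : ℕ) (a : Ohat O p) :
    a ∈ Ideal.span {((p : ℕ) : Ohat O p) ^ k} ↔
      ∀ i, (basis O p b).repr a i ∈ Ideal.span {((p : ℕ) : ℤ_[p]) ^ k} := by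
  rw [← mem_smul_top_iff_repr (basis O p b) (Ideal.span {((p : ℕ) : ℤ_[p]) ^ k}) a,
    Submodule.ideal_span_singleton_smul, Submodule.mem_smul_pointwise_iff_exists,
    Ideal.mem_span_singleton']
  constructor
  · rintro ⟨c, rfl⟩
    refine ⟨c, Submodule.mem_top, ?_⟩
    rw [Algebra.smul_def, map_pow, algebraMap_padic_natCast, mul_comm]
  · rintro ⟨c, -, rfl⟩
    refine ⟨c, ?_⟩
    rw [Algebra.smul_def, map_pow, algebraMap_padic_natCast, mul_comm]

end Ohat

variable (O p)
variable [Module.Free ℤ O] [Module.Finite ℤ O] [CharZero O]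

/-- `ℤ_p ⊗ O` is a `p`-adic completion of `O`. -/
theorem Ohat.isAdicCompletionAt : IsAdicCompletionAt O ((p : ℕ) : O) (Ohat O p) := by
  classical
  let b := Module.Free.chooseBasis ℤ O
  have hpO : algebraMap O (Ohat O p) ((p : ℕ) : O) = ((p : ℕ) : Ohat O p) :=
    Ohat.algebraMap_natCast p
  refine
    { ne_zero := Nat.cast_ne_zero.mpr (Fact.out : p.Prime).ne_zero
      complete := ?_
      regular := ?_
      noeth := ?_
      approx := ?_
      ker := ?_ }
  · have h1 := isAdicComplete_map_of_basis (Ohat.basis O p b) (IsLocalRing.maximalIdeal ℤ_[p])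
    rw [PadicInt.maximalIdeal_eq_span_p, Ideal.map_span, Set.image_singleton,
      Ohat.algebraMap_padic_natCast] at h1
    rw [hpO]
    exact h1
  · rw [hpO, mem_nonZeroDivisors_iff]
    have key : ∀ x : Ohat O p, ((p : ℕ) : Ohat O p) * x = 0 → x = 0 := by
      intro x hx
      have h2 : ((p : ℕ) : ℤ_[p]) • x = 0 := by
        rw [Algebra.smul_def, Ohat.algebraMap_padic_natCast]; exact hx
      apply (Ohat.basis O p b).repr.injective
      ext i
      have h3 := congrArg (fun y => (Ohat.basis O p b).repr y i) h2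
      simp only [map_smul, Finsupp.smul_apply, smul_eq_mul, map_zero, Finsupp.zero_apply] at h3
      have hp0 : ((p : ℕ) : ℤ_[p]) ≠ 0 := Nat.cast_ne_zero.mpr (Fact.out : p.Prime).ne_zero
      rw [map_zero, Finsupp.zero_apply]
      exact (mul_eq_zero.mp h3).resolve_left hp0
    exact ⟨fun x hx => key x hx, fun x hx => key x (by rw [mul_comm]; exact hx)⟩
  · have : Module.Finite ℤ_[p] (Ohat O p) := Module.Finite.of_basis (Ohat.basis O p b)
    exact IsNoetherianRing.of_finite ℤ_[p] (Ohat O p)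
  · intro k a
    rw [hpO]
    refine ⟨∑ i, (PadicInt.appr ((Ohat.basis O p b).repr a i) k : ℤ) • b i, ?_⟩
    rw [Ohat.mem_span_pow_iff_repr b]
    intro i
    rw [map_sub, Finsupp.sub_apply, Ohat.basis_repr_algebraMap]
    have h4 : b.repr (∑ j, (PadicInt.appr ((Ohat.basis O p b).repr a j) k : ℤ) • b j) i =
        (PadicInt.appr ((Ohat.basis O p b).repr a i) k : ℤ) :=
      congrFun (b.repr_sum_self _) i
    rw [h4]
    have := PadicInt.appr_spec k ((Ohat.basis O p b).repr a i)
    simpa using this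
  · intro k x hx
    rw [hpO, Ohat.mem_span_pow_iff_repr b] at hx
    have hdvd : ∀ i, ((p : ℤ) ^ k) ∣ b.repr x i := by
      intro i
      have h5 := hx i
      rw [Ohat.basis_repr_algebraMap, Ideal.mem_span_singleton] at h5
      have h6 : ((p : ℕ) : ℤ_[p]) ^ k ∣ ((b.repr x i : ℤ) : ℤ_[p]) := h5
      exact (PadicInt.pow_p_dvd_int_iff k (b.repr x i)).mp h6
    choose d hd using hdvd
    rw [Ideal.mem_span_singleton']
    refine ⟨∑ i, d i • b i, ?_⟩
    conv_rhs => rw [← b.sum_repr x]
    rw [Finset.sum_mul]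
    refine Finset.sum_congr rfl fun i _ => ?_
    rw [hd i, mul_smul, smul_mul_assoc]
    simp only [zsmul_eq_mul, Int.cast_pow, Int.cast_natCast]
    ring

end Fermat.Agent.Lib.CFT.Global.Places
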