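import Mathlib
import Fermat.Agent.Lib.CFT.Global.Places.OhatCompletion
import Fermat.Agent.Lib.CFT.Global.Places.LocalFactorComplete

/-!
# The completed local rings `LocalInt O p v` of `O` at the primes `v` above `p`

`O` is a Dedekind domain, finite free over `ℤ`, of characteristic zero (e.g. `𝓞 L`).
For a prime number `p` and a prime `v` of `O` above `p`, `LocalInt O p v` is a complete discrete
valuation ring, finite over `ℤ_[p]`, with residue field `O ⧸ v`; `ℤ_[p] ⊗ O` is the product of
the `LocalInt O p v`.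
-/

open scoped TensorProduct

namespace Fermat.Agent.Lib.CFT.Global.Places

open IsDedekindDomain IsLocalRing

variable (O : Type*) [CommRing O] [IsDedekindDomain O] [Module.Free ℤ O] [Module.Finite ℤ O]
  [CharZero O] (p : ℕ) [Fact p.Prime]

/-- The primes of `O` above the prime number `p`. -/
abbrev PrimesOverNat : Type _ := PrimesAbove O ((p : ℕ) : O)

omit [IsDedekindDomain O] [Module.Free ℤ O] [Module.Finite ℤ O] in
theorem natCast_ne_zero' : ((p : ℕ) : O) ≠ 0 :=
  Nat.cast_ne_zero.mpr (Fact.out : p.Prime).ne_zero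

instance : Finite (PrimesOverNat O p) := finite_primesAbove (natCast_ne_zero' O p)

noncomputable instance : Fintype (PrimesOverNat O p) := Fintype.ofFinite _

/-- The completion of `O` at the prime `v` above `p`. -/
abbrev LocalInt (v : PrimesOverNat O p) : Type _ :=
  LocalFactor O ((p : ℕ) : O) (Ohat O p) v

variable {O p}

instance (v : PrimesOverNat O p) : IsLocalRing (LocalInt O p v) :=
  (Ohat.isAdicCompletionAt O p).isLocalRing v

instance (v : PrimesOverNat O p) : IsDomain (LocalInt O p v) :=
  (Ohat.isAdicCompletionAt O p).isDomain_localFactor v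

instance (v : PrimesOverNat O p) : IsDiscreteValuationRing (LocalInt O p v) :=
  (Ohat.isAdicCompletionAt O p).isDiscreteValuationRing_localFactor v

instance (v : PrimesOverNat O p) : IsNoetherianRing (LocalInt O p v) :=
  (Ohat.isAdicCompletionAt O p).isNoetherianRing_localFactor v

instance (v : PrimesOverNat O p) :
    IsAdicComplete (maximalIdeal (LocalInt O p v)) (LocalInt O p v) :=
  (Ohat.isAdicCompletionAt O p).isAdicComplete_maximalIdeal v

instance : Module.Finite ℤ_[p] (Ohat O p) :=
  Module.Finite.of_basis (Ohat.basis O p (Module.Free.chooseBasis ℤ O))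

instance : Module.Free ℤ_[p] (Ohat O p) :=
  Module.Free.of_basis (Ohat.basis O p (Module.Free.chooseBasis ℤ O))

instance (v : PrimesOverNat O p) : Module.Finite ℤ_[p] (LocalInt O p v) :=
  Module.Finite.of_surjective
    (Ideal.Quotient.mkₐ ℤ_[p] (Ideal.span {1 - idem O ((p : ℕ) : O) (Ohat O p) v})).toLinearMap
    (Ideal.Quotient.mkₐ_surjective ℤ_[p] _)

namespace LocalInt

variable (v : PrimesOverNat O p)

theorem maximalIdeal_eq_map :
    maximalIdeal (LocalInt O p v) = (v.1.asIdeal).map (algebraMap O (LocalInt O p v)) :=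
  (Ohat.isAdicCompletionAt O p).maximalIdeal_eq_map v

/-- Compatibility of filtrations: `x ∈ v^m ↔ x ∈ 𝔪^m`. -/
theorem algebraMap_mem_maximalIdeal_pow_iff (m : ℕ) (x : O) :
    algebraMap O (LocalInt O p v) x ∈ maximalIdeal (LocalInt O p v) ^ m ↔ x ∈ v.1.asIdeal ^ m :=
  (Ohat.isAdicCompletionAt O p).algebraMap_mem_maximalIdeal_pow_iff v m x

theorem exists_sub_mem_maximalIdeal_pow (m : ℕ) (a : LocalInt O p v) :
    ∃ x : O, a - algebraMap O (LocalInt O p v) x ∈ maximalIdeal (LocalInt O p v) ^ m :=
  (Ohat.isAdicCompletionAt O p).exists_sub_mem_maximalIdeal_pow v m a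

theorem algebraMap_injective : Function.Injective (algebraMap O (LocalInt O p v)) :=
  (Ohat.isAdicCompletionAt O p).algebraMap_localFactor_injective v

/-- The image of an element of `v \ v^2` is a uniformizer. -/
theorem maximalIdeal_eq_span {π : O} (hπ : π ∈ v.1.asIdeal) (hπ2 : π ∉ v.1.asIdeal ^ 2) :
    maximalIdeal (LocalInt O p v) = Ideal.span {algebraMap O (LocalInt O p v) π} :=
  (Ohat.isAdicCompletionAt O p).maximalIdeal_eq_span v hπ hπ2

theorem irreducible_algebraMap {π : O} (hπ : π ∈ v.1.asIdeal) (hπ2 : π ∉ v.1.asIdeal ^ 2) :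
    Irreducible (algebraMap O (LocalInt O p v) π) :=
  (IsDiscreteValuationRing.irreducible_iff_uniformizer _).mpr (maximalIdeal_eq_span v hπ hπ2)

/-- `p` generates the `e`-th power of the maximal ideal, `e = ramExp p v`. -/
theorem span_p_eq_maximalIdeal_pow :
    Ideal.span {((p : ℕ) : LocalInt O p v)} =
      maximalIdeal (LocalInt O p v) ^ ramExp ((p : ℕ) : O) v.1 := by
  have := (Ohat.isAdicCompletionAt O p).span_q_eq_maximalIdeal_pow v
  rwa [map_natCast] at this

omit [Module.Free ℤ O] [Module.Finite ℤ O] in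
theorem ramExp_ne_zero : ramExp ((p : ℕ) : O) v.1 ≠ 0 :=
  Places.ramExp_ne_zero (natCast_ne_zero' O p) v

/-- The residue field of `LocalInt O p v` is `O ⧸ v`. -/
noncomputable def residueFieldEquiv : (O ⧸ v.1.asIdeal) ≃+* ResidueField (LocalInt O p v) :=
  (Ohat.isAdicCompletionAt O p).residueFieldEquiv v

theorem residueFieldEquiv_mk (x : O) :
    residueFieldEquiv v (Ideal.Quotient.mk _ x) =
      residue (LocalInt O p v) (algebraMap O (LocalInt O p v) x) := rfl

end LocalInt

variable (O p)

/-- `ℤ_p ⊗ O` is the product of the completed local rings. -/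
noncomputable def Ohat.equivPi : Ohat O p ≃+* ∀ v : PrimesOverNat O p, LocalInt O p v :=
  (Ohat.isAdicCompletionAt O p).equivPi

theorem Ohat.equivPi_apply (a : Ohat O p) (v : PrimesOverNat O p) :
    Ohat.equivPi O p a v = Ideal.Quotient.mk _ a := rfl

end Fermat.Agent.Lib.CFT.Global.Places
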