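import Mathlib
import Fermat.Agent.Lib.CFT.Global.Places.LocalInt
import Fermat.Agent.Lib.CFT.Global.Places.GaloisIdem

/-!
# Functoriality of `ℤ_p ⊗ O` and of the completed local rings `LocalInt O p v`
-/

set_option linter.unusedSectionVars false

open scoped TensorProduct

namespace Fermat.Agent.Lib.CFT.Global.Places.Galois

open Fermat.Agent.Lib.CFT.Global.Places

variable {O O' O'' : Type*} [CommRing O] [CommRing O'] [CommRing O''] (p : ℕ) [Fact p.Prime]

/-- The map `id ⊗ f : ℤ_p ⊗ O → ℤ_p ⊗ O'`. -/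
noncomputable def ohatMap (f : O →+* O') : Ohat O p →ₐ[ℤ_[p]] Ohat O' p :=
  (Algebra.TensorProduct.map (AlgHom.id ℤ_[p] ℤ_[p]) f.toIntAlgHom :
    ℤ_[p] ⊗[ℤ] O →ₐ[ℤ_[p]] ℤ_[p] ⊗[ℤ] O')

@[simp] theorem ohatMap_tmul (f : O →+* O') (a : ℤ_[p]) (x : O) :
    ohatMap p f (Ohat.tmul a x) = Ohat.tmul a (f x) := by
  change (Algebra.TensorProduct.map (AlgHom.id ℤ_[p] ℤ_[p]) f.toIntAlgHom) (a ⊗ₜ[ℤ] x) = a ⊗ₜ[ℤ] f x
  rw [Algebra.TensorProduct.map_tmul]
  rfl

theorem ohatMap_algebraMap (f : O →+* O') (x : O) :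
    ohatMap p f (algebraMap O (Ohat O p) x) = algebraMap O' (Ohat O' p) (f x) := by
  rw [Ohat.algebraMap_apply, Ohat.algebraMap_apply, ohatMap_tmul]

theorem ohat_induction_on {motive : Ohat O p → Prop} (z : Ohat O p)
    (zero : motive 0) (tmul : ∀ a x, motive (Ohat.tmul a x))
    (add : ∀ x y, motive x → motive y → motive (x + y)) : motive z :=
  TensorProduct.induction_on (motive := motive) z zero tmul add

theorem ohatMap_id (z : Ohat O p) : ohatMap p (RingHom.id O) z = z := by
  induction z using ohat_induction_on with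
  | zero => simp
  | tmul a x => simp
  | add x y hx hy => simp [hx, hy]

theorem ohatMap_comp (f : O →+* O') (g : O' →+* O'') (z : Ohat O p) :
    ohatMap p (g.comp f) z = ohatMap p g (ohatMap p f z) := by
  induction z using ohat_induction_on with
  | zero => simp
  | tmul a x => simp
  | add x y hx hy => simp [hx, hy]


section LocalInt

open IsLocalRing

variable {O O' O'' : Type*} [CommRing O] [IsDedekindDomain O] [Module.Free ℤ O]
  [Module.Finite ℤ O] [CharZero O]
  [CommRing O'] [IsDedekindDomain O'] [Module.Free ℤ O'] [Module.Finite ℤ O'] [CharZero O']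
  [CommRing O''] [IsDedekindDomain O''] [Module.Free ℤ O''] [Module.Finite ℤ O''] [CharZero O'']
  {p : ℕ} [Fact p.Prime]

/-- The map between completed local rings induced by `f : O →+* O'`, for `w` over `v`. -/
noncomputable def localIntMap (f : O →+* O') {v : PrimesOverNat O p} {w : PrimesOverNat O' p}
    (hvw : LiesOverAlong f v w) : LocalInt O p v →+* LocalInt O' p w :=
  localFactorMap (Ohat.isAdicCompletionAt O p) (Ohat.isAdicCompletionAt O' p) f
    (map_natCast f p) (ohatMap p f) (ohatMap_algebraMap p f) hvw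

@[simp] theorem localIntMap_mk (f : O →+* O') {v : PrimesOverNat O p} {w : PrimesOverNat O' p}
    (hvw : LiesOverAlong f v w) (a : Ohat O p) :
    localIntMap f hvw (Ideal.Quotient.mk _ a) = Ideal.Quotient.mk _ (ohatMap p f a) := rfl

theorem localIntMap_algebraMap (f : O →+* O') {v : PrimesOverNat O p} {w : PrimesOverNat O' p}
    (hvw : LiesOverAlong f v w) (x : O) :
    localIntMap f hvw (algebraMap O (LocalInt O p v) x) =
      algebraMap O' (LocalInt O' p w) (f x) :=
  localFactorMap_algebraMap _ _ f _ _ _ hvw x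

theorem localIntMap_algebraMap_padic (f : O →+* O') {v : PrimesOverNat O p}
    {w : PrimesOverNat O' p} (hvw : LiesOverAlong f v w) (a : ℤ_[p]) :
    localIntMap f hvw (algebraMap ℤ_[p] (LocalInt O p v) a) =
      algebraMap ℤ_[p] (LocalInt O' p w) a := by
  have h1 : algebraMap ℤ_[p] (LocalInt O p v) a =
      Ideal.Quotient.mk _ (algebraMap ℤ_[p] (Ohat O p) a) := rfl
  have h2 : algebraMap ℤ_[p] (LocalInt O' p w) a =
      Ideal.Quotient.mk _ (algebraMap ℤ_[p] (Ohat O' p) a) := rfl
  rw [h1, h2, localIntMap_mk, AlgHom.commutes]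

theorem liesOverAlong_id (v : PrimesOverNat O p) : LiesOverAlong (RingHom.id O) v v :=
  fun _ hx => hx

theorem liesOverAlong_comp {f : O →+* O'} {g : O' →+* O''} {v : PrimesOverNat O p}
    {w : PrimesOverNat O' p} {u : PrimesOverNat O'' p} (hvw : LiesOverAlong f v w)
    (hwu : LiesOverAlong g w u) : LiesOverAlong (g.comp f) v u :=
  fun x hx => hwu _ (hvw x hx)

theorem localIntMap_congr {f f' : O →+* O'} (hff' : f = f') {v : PrimesOverNat O p}
    {w : PrimesOverNat O' p} (hvw : LiesOverAlong f v w) (hvw' : LiesOverAlong f' v w)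
    (x : LocalInt O p v) : localIntMap f hvw x = localIntMap f' hvw' x := by
  subst hff'
  rfl

theorem localIntMap_id (v : PrimesOverNat O p) (x : LocalInt O p v) :
    localIntMap (RingHom.id O) (liesOverAlong_id v) x = x := by
  obtain ⟨a, rfl⟩ := Ideal.Quotient.mk_surjective x
  rw [localIntMap_mk, ohatMap_id]

theorem localIntMap_comp {f : O →+* O'} {g : O' →+* O''} {v : PrimesOverNat O p}
    {w : PrimesOverNat O' p} {u : PrimesOverNat O'' p} (hvw : LiesOverAlong f v w)
    (hwu : LiesOverAlong g w u) (x : LocalInt O p v) :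
    localIntMap (g.comp f) (liesOverAlong_comp hvw hwu) x =
      localIntMap g hwu (localIntMap f hvw x) := by
  obtain ⟨a, rfl⟩ := Ideal.Quotient.mk_surjective x
  rw [localIntMap_mk, localIntMap_mk, localIntMap_mk, ohatMap_comp]

/-- `localIntMap` maps the maximal ideal into the maximal ideal. -/
theorem localIntMap_mem_maximalIdeal (f : O →+* O') {v : PrimesOverNat O p}
    {w : PrimesOverNat O' p} (hvw : LiesOverAlong f v w) {x : LocalInt O p v}
    (hx : x ∈ maximalIdeal (LocalInt O p v)) :
    localIntMap f hvw x ∈ maximalIdeal (LocalInt O' p w) := by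
  rw [LocalInt.maximalIdeal_eq_map] at hx
  have hle : (v.1.asIdeal).map (algebraMap O (LocalInt O p v)) ≤
      (maximalIdeal (LocalInt O' p w)).comap (localIntMap f hvw) := by
    rw [Ideal.map_le_iff_le_comap]
    intro y hy
    rw [Ideal.mem_comap, Ideal.mem_comap, localIntMap_algebraMap, LocalInt.maximalIdeal_eq_map]
    exact Ideal.mem_map_of_mem _ (hvw y hy)
  exact hle hx

theorem isLocalHom_localIntMap (f : O →+* O') {v : PrimesOverNat O p}
    {w : PrimesOverNat O' p} (hvw : LiesOverAlong f v w) : IsLocalHom (localIntMap f hvw) := by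
  refine ⟨fun x hx => ?_⟩
  by_contra hnu
  have hmem : x ∈ maximalIdeal (LocalInt O p v) := (mem_maximalIdeal x).mpr hnu
  have := localIntMap_mem_maximalIdeal f hvw hmem
  exact (mem_maximalIdeal _).mp this hx

theorem localIntMap_injective (f : O →+* O') (hf : Function.Injective f)
    {v : PrimesOverNat O p} {w : PrimesOverNat O' p} (hvw : LiesOverAlong f v w) :
    Function.Injective (localIntMap f hvw) := by
  rw [injective_iff_map_eq_zero]
  intro x hx
  by_contra hx0
  obtain ⟨π, hπ, hπ2⟩ := exists_mem_not_mem_sq v.1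
  have hirr := LocalInt.irreducible_algebraMap v hπ hπ2
  obtain ⟨n, u, hu⟩ := IsDiscreteValuationRing.eq_unit_mul_pow_irreducible hx0 hirr
  rw [hu, map_mul, map_pow, localIntMap_algebraMap] at hx
  have hunit : IsUnit (localIntMap f hvw (u : LocalInt O p v)) := u.isUnit.map _
  have h0 : algebraMap O' (LocalInt O' p w) (f π) ^ n = 0 := by
    rcases mul_eq_zero.mp hx with h | h
    · exact absurd h hunit.ne_zero
    · exact h
  have h1 : algebraMap O' (LocalInt O' p w) (f π) = 0 := pow_eq_zero_iff (n := n) (by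
    intro hn
    rw [hn, pow_zero] at h0
    exact one_ne_zero h0) |>.mp h0
  have h2 : f π = 0 := by
    apply LocalInt.algebraMap_injective w
    rw [h1, map_zero]
  have h3 : π = 0 := hf (by rw [h2, map_zero])
  rw [h3] at hπ2
  exact hπ2 (Ideal.zero_mem _)

end LocalInt

end Fermat.Agent.Lib.CFT.Global.Places.Galois
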