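import Mathlib
import Fermat.Agent.Lib.CFT.Global.Places.GaloisMap

/-!
# Invariants of a finite group acting on `ℤ_p ⊗ O'`

If `G` acts on `O'` with ring of invariants `O`, then the invariants of `G` on `ℤ_p ⊗ O'` are
`ℤ_p ⊗ O` (flatness of `ℤ_p` over `ℤ`).
-/

set_option linter.unusedSectionVars false

open scoped TensorProduct

namespace Fermat.Agent.Lib.CFT.Global.Places.Galois

open Fermat.Agent.Lib.CFT.Global.Places

section Invariants

variable {O O' : Type*} [CommRing O] [CommRing O'] [Algebra O O'] (p : ℕ) [Fact p.Prime]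
variable {G : Type*} [Group G] [Finite G] [MulSemiringAction G O']

theorem ohatMap_eq_lTensor (f : O →+* O') (z : ℤ_[p] ⊗[ℤ] O) :
    (ohatMap p f (z : Ohat O p) : ℤ_[p] ⊗[ℤ] O') =
      (LinearMap.lTensor ℤ_[p] f.toIntAlgHom.toLinearMap : _ →ₗ[ℤ] _) z := by
  induction z using TensorProduct.induction_on with
  | zero =>
    rw [map_zero]
    exact map_zero (ohatMap p f)
  | tmul a x =>
    exact ohatMap_tmul p f a x
  | add x y hx hy =>
    rw [map_add, ← hx, ← hy]
    exact map_add (ohatMap p f) _ _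

/-- The `ℤ`-linear map `x ↦ (g • x - x)_g`. -/
noncomputable def diffMap (G : Type*) [Group G] (O' : Type*) [CommRing O'] [MulSemiringAction G O'] :
    O' →ₗ[ℤ] (G → O') :=
  LinearMap.pi fun g =>
    ((MulSemiringAction.toRingHom G O' g).toIntAlgHom.toLinearMap - LinearMap.id : O' →ₗ[ℤ] O')

theorem diffMap_apply (x : O') (g : G) : diffMap G O' x g = g • x - x := rfl

theorem exact_diffMap [SMulCommClass G O O'] [Algebra.IsInvariant O O' G] :
    Function.Exact ((algebraMap O O').toIntAlgHom.toLinearMap : O →ₗ[ℤ] O') (diffMap G O') := by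
  intro x
  constructor
  · intro hx
    have : ∀ g : G, g • x = x := fun g => by
      have := congrFun hx g
      rw [diffMap_apply] at this
      exact sub_eq_zero.mp this
    obtain ⟨a, ha⟩ := Algebra.IsInvariant.isInvariant (A := O) (G := G) x this
    exact ⟨a, ha⟩
  · rintro ⟨a, rfl⟩
    funext g
    rw [diffMap_apply]
    show g • algebraMap O O' a - algebraMap O O' a = 0
    rw [smul_algebraMap, sub_self]


/-- An element of `ℤ_p ⊗ (G → O')` all of whose components vanish is zero. -/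
theorem eq_zero_of_forall_proj_lTensor (y : ℤ_[p] ⊗[ℤ] (G → O'))
    (hy : ∀ g : G, (LinearMap.lTensor ℤ_[p] (LinearMap.proj g : (G → O') →ₗ[ℤ] O')) y = 0) :
    y = 0 := by
  classical
  have := Fintype.ofFinite G
  apply (TensorProduct.piRight ℤ ℤ ℤ_[p] (fun _ : G => O')).injective
  rw [map_zero]
  funext g
  have key : ∀ y : ℤ_[p] ⊗[ℤ] (G → O'),
      (TensorProduct.piRight ℤ ℤ ℤ_[p] (fun _ : G => O')) y g =
        (LinearMap.lTensor ℤ_[p] (LinearMap.proj g : (G → O') →ₗ[ℤ] O')) y := by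
    intro y
    induction y using TensorProduct.induction_on with
    | zero => simp
    | tmul a x => simp
    | add x y hx hy => simp only [map_add, Pi.add_apply, hx, hy]
  rw [key, hy]
  rfl

theorem exists_lTensor_eq_of_forall_smul_eq [SMulCommClass G O O']
    [Algebra.IsInvariant O O' G] (z : ℤ_[p] ⊗[ℤ] O')
    (hz : ∀ g : G, (LinearMap.lTensor ℤ_[p]
      ((MulSemiringAction.toRingHom G O' g).toIntAlgHom.toLinearMap : O' →ₗ[ℤ] O')) z = z) :
    ∃ s : ℤ_[p] ⊗[ℤ] O,
      (LinearMap.lTensor ℤ_[p] ((algebraMap O O').toIntAlgHom.toLinearMap : O →ₗ[ℤ] O')) s = z := by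
  have hex := Module.Flat.lTensor_exact ℤ_[p] (exact_diffMap (O := O) (O' := O') (G := G))
  have hz0 : (LinearMap.lTensor ℤ_[p] (diffMap G O')) z = 0 := by
    apply eq_zero_of_forall_proj_lTensor
    intro g
    rw [← LinearMap.comp_apply, ← LinearMap.lTensor_comp]
    have : (LinearMap.proj g : (G → O') →ₗ[ℤ] O') ∘ₗ diffMap G O' =
        ((MulSemiringAction.toRingHom G O' g).toIntAlgHom.toLinearMap - LinearMap.id :
          O' →ₗ[ℤ] O') := rfl
    rw [this, LinearMap.lTensor_sub, LinearMap.sub_apply, LinearMap.lTensor_id,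
      LinearMap.id_apply]
    exact sub_eq_zero.mpr (hz g)
  exact (hex _).mp hz0

/-- The invariants of `G` on `ℤ_p ⊗ O'` are `ℤ_p ⊗ O`. -/
theorem exists_ohatMap_eq_of_forall_smul_eq [SMulCommClass G O O'] [Algebra.IsInvariant O O' G]
    (z : Ohat O' p) (hz : ∀ g : G, ohatMap p (MulSemiringAction.toRingHom G O' g) z = z) :
    ∃ s : Ohat O p, ohatMap p (algebraMap O O') s = z := by
  obtain ⟨z', rfl⟩ : ∃ z' : ℤ_[p] ⊗[ℤ] O', (z' : Ohat O' p) = z := ⟨z, rfl⟩
  obtain ⟨s, hs⟩ := exists_lTensor_eq_of_forall_smul_eq (O := O) p z' (fun g => by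
    rw [← ohatMap_eq_lTensor]
    exact hz g)
  refine ⟨(s : Ohat O p), ?_⟩
  rw [← hs]
  exact ohatMap_eq_lTensor p (algebraMap O O') s

end Invariants

end Fermat.Agent.Lib.CFT.Global.Places.Galois
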