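import Mathlib
import Fermat.Agent.Lib.CFT.Global.Places.GaloisInvariant

/-!
# Decomposition groups and the completed local rings

`G` a finite group acting on `O'` with ring of invariants `O` (`IsGaloisGroup G O O'`), `w` a prime
of `O'` above `p`, lying over the prime `v` of `O`.  The decomposition group
`MulAction.stabilizer G w.asIdeal` acts on the completed local ring `LocalInt O' p w`, and this
action makes it a Galois group of `LocalInt O' p w` over `LocalInt O p v`.
-/

set_option linter.unusedSectionVars false

open scoped TensorProduct Pointwise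

namespace Fermat.Agent.Lib.CFT.Global.Places.Galois

open Fermat.Agent.Lib.CFT.Global.Places IsDedekindDomain IsLocalRing

variable {O O' : Type*} [CommRing O] [IsDedekindDomain O] [Module.Free ℤ O]
  [Module.Finite ℤ O] [CharZero O]
  [CommRing O'] [IsDedekindDomain O'] [Module.Free ℤ O'] [Module.Finite ℤ O'] [CharZero O']
  {p : ℕ} [Fact p.Prime]
variable {G : Type*} [Group G] [MulSemiringAction G O']

/-- The action of `G` on the primes of `O'` above `p`. -/
noncomputable def smulPrime (g : G) (w : PrimesOverNat O' p) : PrimesOverNat O' p :=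
  ⟨⟨g • w.1.asIdeal, inferInstance, by
      intro h
      have : w.1.asIdeal = ⊥ := by
        have := congrArg (fun I => g⁻¹ • I) h
        simpa using this
      exact w.1.ne_bot this⟩, by
    show ((p : ℕ) : O') ∈ g • w.1.asIdeal
    have h1 : g • ((p : ℕ) : O') ∈ g • w.1.asIdeal := Ideal.smul_mem_pointwise_smul g _ _ w.2
    have h2 : g • ((p : ℕ) : O') = ((p : ℕ) : O') :=
      map_natCast (MulSemiringAction.toRingHom G O' g) p
    rwa [h2] at h1⟩

noncomputable instance : MulAction G (PrimesOverNat O' p) where
  smul := smulPrime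
  one_smul w := by
    apply Subtype.ext
    apply HeightOneSpectrum.ext
    exact one_smul G w.1.asIdeal
  mul_smul g h w := by
    apply Subtype.ext
    apply HeightOneSpectrum.ext
    exact mul_smul g h w.1.asIdeal

@[simp] theorem smul_prime_asIdeal (g : G) (w : PrimesOverNat O' p) :
    (g • w).1.asIdeal = g • w.1.asIdeal := rfl

theorem smul_prime_eq_iff (g : G) (w u : PrimesOverNat O' p) :
    g • w = u ↔ g • w.1.asIdeal = u.1.asIdeal := by
  constructor
  · intro h; rw [← h]; rfl
  · intro h
    apply Subtype.ext
    apply HeightOneSpectrum.ext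
    exact h

theorem liesOverAlong_smul (g : G) (w : PrimesOverNat O' p) :
    LiesOverAlong (MulSemiringAction.toRingHom G O' g) w (g • w) :=
  fun x hx => Ideal.smul_mem_pointwise_smul g x _ hx

theorem eq_smul_of_liesOverAlong {g : G} {w u : PrimesOverNat O' p}
    (h : LiesOverAlong (MulSemiringAction.toRingHom G O' g) w u) : u = g • w := by
  symm
  rw [smul_prime_eq_iff]
  have hle : g • w.1.asIdeal ≤ u.1.asIdeal := by
    rw [Ideal.pointwise_smul_def, Ideal.map_le_iff_le_comap]
    exact fun x hx => h x hx
  have hmax : (g • w.1.asIdeal).IsMaximal := (g • w).1.isMaximal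
  exact hmax.eq_of_le u.1.isPrime.ne_top hle


/-- `G` permutes the idempotents of `ℤ_p ⊗ O'`. -/
theorem ohatMap_smul_idem (g : G) (w : PrimesOverNat O' p) :
    ohatMap p (MulSemiringAction.toRingHom G O' g) (idem O' ((p : ℕ) : O') (Ohat O' p) w) =
      idem O' ((p : ℕ) : O') (Ohat O' p) (g • w) :=
  map_idem_eq_idem (Ohat.isAdicCompletionAt O' p) (Ohat.isAdicCompletionAt O' p)
    (MulSemiringAction.toRingHom G O' g) (map_natCast _ p)
    (ohatMap p (MulSemiringAction.toRingHom G O' g)) (ohatMap_algebraMap p _)
    (liesOverAlong_smul g w) (fun _ hu => eq_smul_of_liesOverAlong hu)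

theorem toRingHom_one_eq : MulSemiringAction.toRingHom G O' 1 = RingHom.id O' := by
  ext x; simp

theorem toRingHom_mul_eq (g h : G) : MulSemiringAction.toRingHom G O' (g * h) =
    (MulSemiringAction.toRingHom G O' g).comp (MulSemiringAction.toRingHom G O' h) := by
  ext x; simp [mul_smul]

theorem liesOverAlong_of_mem_stabilizer {w : PrimesOverNat O' p} {g : G}
    (hg : g ∈ MulAction.stabilizer G w.1.asIdeal) :
    LiesOverAlong (MulSemiringAction.toRingHom G O' g) w w := by
  intro x hx
  have := Ideal.smul_mem_pointwise_smul g x _ hx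
  rwa [MulAction.mem_stabilizer_iff.mp hg] at this

/-- The decomposition group of `w` acts on the completed local ring at `w`. -/
noncomputable instance stabilizerAction (w : PrimesOverNat O' p) :
    MulSemiringAction (MulAction.stabilizer G w.1.asIdeal) (LocalInt O' p w) where
  smul g x := localIntMap (MulSemiringAction.toRingHom G O' g.1)
    (liesOverAlong_of_mem_stabilizer g.2) x
  one_smul x := by
    show localIntMap (MulSemiringAction.toRingHom G O' (1 : G)) _ x = x
    rw [localIntMap_congr toRingHom_one_eq _ (liesOverAlong_id w), localIntMap_id]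
  mul_smul g h x := by
    show localIntMap (MulSemiringAction.toRingHom G O' (g.1 * h.1)) _ x =
      localIntMap (MulSemiringAction.toRingHom G O' g.1) _
        (localIntMap (MulSemiringAction.toRingHom G O' h.1) _ x)
    rw [localIntMap_congr (toRingHom_mul_eq g.1 h.1) _
      (liesOverAlong_comp (liesOverAlong_of_mem_stabilizer h.2)
        (liesOverAlong_of_mem_stabilizer g.2)), localIntMap_comp]
  smul_zero g := map_zero _
  smul_add g := map_add _
  smul_one g := map_one _
  smul_mul g := map_mul _

theorem stabilizer_smul_def {w : PrimesOverNat O' p} (g : MulAction.stabilizer G w.1.asIdeal)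
    (x : LocalInt O' p w) :
    g • x = localIntMap (MulSemiringAction.toRingHom G O' g.1)
      (liesOverAlong_of_mem_stabilizer g.2) x := rfl

theorem stabilizer_smul_mk {w : PrimesOverNat O' p} (g : MulAction.stabilizer G w.1.asIdeal)
    (a : Ohat O' p) :
    g • (Ideal.Quotient.mk _ a : LocalInt O' p w) =
      Ideal.Quotient.mk _ (ohatMap p (MulSemiringAction.toRingHom G O' g.1) a) := rfl

theorem stabilizer_smul_algebraMap {w : PrimesOverNat O' p}
    (g : MulAction.stabilizer G w.1.asIdeal) (x : O') :
    g • algebraMap O' (LocalInt O' p w) x = algebraMap O' (LocalInt O' p w) (g.1 • x) := by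
  rw [stabilizer_smul_def, localIntMap_algebraMap]
  rfl


section Main

variable [Algebra O O']

/-- The image of the idempotent `idem w` in the local factor at `w` is `1`. -/
theorem mk_idem_eq_one (w : PrimesOverNat O' p) :
    (Ideal.Quotient.mk (Ideal.span {1 - idem O' ((p : ℕ) : O') (Ohat O' p) w})
      (idem O' ((p : ℕ) : O') (Ohat O' p) w) : LocalInt O' p w) = 1 := by
  have : (Ideal.Quotient.mk (Ideal.span {1 - idem O' ((p : ℕ) : O') (Ohat O' p) w})
      (1 - idem O' ((p : ℕ) : O') (Ohat O' p) w) : LocalInt O' p w) = 0 :=
    Ideal.Quotient.eq_zero_iff_mem.mpr (Ideal.mem_span_singleton_self _)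
  rw [map_sub, map_one, sub_eq_zero] at this
  exact this.symm

/-- An element of the ideal `(1 - e)` is killed by the idempotent `e`. -/
theorem mul_idem_eq_zero_of_mem {A : Type*} [CommRing A] {e x : A} (he : IsIdempotentElem e)
    (hx : x ∈ Ideal.span {1 - e}) : x * e = 0 := by
  obtain ⟨c, rfl⟩ := Ideal.mem_span_singleton'.mp hx
  have : e * e = e := he
  linear_combination (-c) * this

theorem exists_localIntMap_eq_of_forall_stabilizer_smul_eq [Finite G] [SMulCommClass G O O']
    [Algebra.IsInvariant O O' G] {v : PrimesOverNat O p} {w : PrimesOverNat O' p}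
    (hvw : LiesOverAlong (algebraMap O O') v w) (b : LocalInt O' p w)
    (hb : ∀ g : MulAction.stabilizer G w.1.asIdeal, g • b = b) :
    ∃ a : LocalInt O p v, localIntMap (algebraMap O O') hvw a = b := by
  classical
  obtain ⟨b0, rfl⟩ := Ideal.Quotient.mk_surjective b
  set e := idem O' ((p : ℕ) : O') (Ohat O' p) w with he_def
  have he : IsIdempotentElem e := (Ohat.isAdicCompletionAt O' p).isIdempotentElem_idem w
  have hee : e * e = e := he
  set bt := b0 * e with hbt
  have hbte : bt * e = bt := by rw [hbt, mul_assoc, hee]
  let σ : G → Ohat O' p →ₐ[ℤ_[p]] Ohat O' p := fun g =>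
    ohatMap p (MulSemiringAction.toRingHom G O' g)
  have hσmul : ∀ g h x, σ (g * h) x = σ g (σ h x) := fun g h x => by
    show ohatMap p (MulSemiringAction.toRingHom G O' (g * h)) x = _
    rw [toRingHom_mul_eq, ohatMap_comp]
  have hσe : ∀ g, σ g e = idem O' ((p : ℕ) : O') (Ohat O' p) (g • w) :=
    fun g => ohatMap_smul_idem g w
  -- the decomposition group fixes `bt`
  have h1 : ∀ g ∈ MulAction.stabilizer G w.1.asIdeal, σ g bt = bt := by
    intro g hg
    have hgw : g • w = w := (smul_prime_eq_iff g w w).mpr (MulAction.mem_stabilizer_iff.mp hg)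
    have hge : σ g e = e := by rw [hσe, hgw]
    have h2 := hb ⟨g, hg⟩
    rw [stabilizer_smul_mk, Ideal.Quotient.eq] at h2
    have h3 := mul_idem_eq_zero_of_mem he h2
    have h4 : σ g bt = σ g b0 * e := by rw [hbt, map_mul, hge]
    rw [h4, hbt]
    linear_combination h3
  -- the function on cosets
  let Φ : G → Ohat O' p := fun g => σ g bt
  have hΦ : ∀ a b : G, (QuotientGroup.leftRel (MulAction.stabilizer G w.1.asIdeal)) a b →
      Φ a = Φ b := by
    intro a b hab
    rw [QuotientGroup.leftRel_apply] at hab
    have : b = a * (a⁻¹ * b) := by group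
    show σ a bt = σ b bt
    rw [this, hσmul, h1 _ hab]
  let φ : G ⧸ MulAction.stabilizer G w.1.asIdeal → Ohat O' p := fun c => Quotient.liftOn' c Φ hΦ
  have hφmk : ∀ g : G, φ (QuotientGroup.mk g) = σ g bt := fun g => rfl
  have := Fintype.ofFinite (G ⧸ MulAction.stabilizer G w.1.asIdeal)
  set t := ∑ c, φ c with ht
  have h2 : ∀ h : G, σ h t = t := by
    intro h
    rw [ht, map_sum]
    have : ∀ c, σ h (φ c) = φ (h • c) := by
      intro c
      induction c using QuotientGroup.induction_on with
      | H g =>
        rw [hφmk, MulAction.Quotient.smul_mk, hφmk, smul_eq_mul, hσmul]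
    simp_rw [this]
    exact Equiv.sum_comp (MulAction.toPerm h) φ
  have h3 : t * e = bt := by
    rw [ht, Finset.sum_mul]
    have : ∀ c, φ c * e =
        if c = (QuotientGroup.mk 1 : G ⧸ MulAction.stabilizer G w.1.asIdeal) then bt else 0 := by
      intro c
      induction c using QuotientGroup.induction_on with
      | H g =>
        rw [hφmk]
        have h5 : σ g bt = σ g bt * idem O' ((p : ℕ) : O') (Ohat O' p) (g • w) := by
          rw [← hσe, ← map_mul, hbte]
        split_ifs with hc
        · have hg : g ∈ MulAction.stabilizer G w.1.asIdeal := by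
            have := QuotientGroup.eq.mp hc
            simpa using this
          rw [h1 g hg, hbte]
        · have hg : g ∉ MulAction.stabilizer G w.1.asIdeal := by
            intro hg
            apply hc
            rw [QuotientGroup.eq]
            simpa using hg
          have hne : g • w ≠ w := by
            intro h
            exact hg (MulAction.mem_stabilizer_iff.mpr ((smul_prime_eq_iff g w w).mp h))
          rw [h5, mul_assoc, he_def,
            (Ohat.isAdicCompletionAt O' p).idem_mul_idem_of_ne hne, mul_zero]
    simp_rw [this]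
    rw [Finset.sum_ite_eq' Finset.univ]
    simp
  obtain ⟨s, hs⟩ := exists_ohatMap_eq_of_forall_smul_eq (O := O) p t h2
  refine ⟨Ideal.Quotient.mk _ s, ?_⟩
  rw [localIntMap_mk, hs]
  have h6 : (Ideal.Quotient.mk (Ideal.span {1 - e}) t : LocalInt O' p w) =
      Ideal.Quotient.mk (Ideal.span {1 - e}) (t * e) := by
    rw [map_mul, mk_idem_eq_one, mul_one]
  rw [h6, h3, hbt, map_mul, mk_idem_eq_one, mul_one]


/-- The algebra structure of `LocalInt O' p w` over `LocalInt O p v` for `w` over `v`. -/
@[reducible] noncomputable def localIntAlgebra {v : PrimesOverNat O p} {w : PrimesOverNat O' p}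
    (hvw : LiesOverAlong (algebraMap O O') v w) : Algebra (LocalInt O p v) (LocalInt O' p w) :=
  (localIntMap (algebraMap O O') hvw).toAlgebra

theorem localIntAlgebra_algebraMap {v : PrimesOverNat O p} {w : PrimesOverNat O' p}
    (hvw : LiesOverAlong (algebraMap O O') v w) :
    letI := localIntAlgebra hvw
    algebraMap (LocalInt O p v) (LocalInt O' p w) = localIntMap (algebraMap O O') hvw := rfl

theorem stabilizer_smul_localIntMap [SMulCommClass G O O'] {v : PrimesOverNat O p}
    {w : PrimesOverNat O' p} (hvw : LiesOverAlong (algebraMap O O') v w)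
    (g : MulAction.stabilizer G w.1.asIdeal) (a : LocalInt O p v) :
    g • localIntMap (algebraMap O O') hvw a = localIntMap (algebraMap O O') hvw a := by
  rw [stabilizer_smul_def, ← localIntMap_comp hvw (liesOverAlong_of_mem_stabilizer g.2)]
  apply localIntMap_congr
  ext x
  exact smul_algebraMap g.1 x

/-- **The decomposition group is the Galois group of the local extension**: if `G` is a Galois
group of `O'` over `O` and `w` is a prime of `O'` over the prime `v` of `O`, then the
decomposition group of `w` is a Galois group of `LocalInt O' p w` over `LocalInt O p v`. -/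
theorem isGaloisGroup_localInt [Finite G] [IsGaloisGroup G O O'] {v : PrimesOverNat O p}
    {w : PrimesOverNat O' p} (hvw : LiesOverAlong (algebraMap O O') v w) :
    letI := localIntAlgebra hvw
    IsGaloisGroup (MulAction.stabilizer G w.1.asIdeal) (LocalInt O p v) (LocalInt O' p w) := by
  let _ := localIntAlgebra hvw
  have hfaith : FaithfulSMul G O' := IsGaloisGroup.faithful O
  refine ⟨⟨?_⟩, ⟨?_⟩, ⟨?_⟩⟩
  · intro g h hgh
    apply Subtype.ext
    apply hfaith.eq_of_smul_eq_smul
    intro x
    have := hgh (algebraMap O' (LocalInt O' p w) x)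
    rw [stabilizer_smul_algebraMap, stabilizer_smul_algebraMap] at this
    exact LocalInt.algebraMap_injective w this
  · intro g a b
    rw [Algebra.smul_def, Algebra.smul_def, smul_mul', localIntAlgebra_algebraMap,
      stabilizer_smul_localIntMap]
  · intro b hb
    exact exists_localIntMap_eq_of_forall_stabilizer_smul_eq hvw b hb

end Main

end Fermat.Agent.Lib.CFT.Global.Places.Galois
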