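import Mathlib
import Fermat.Agent.Lib.CFT.Global.Ideles
import Fermat.Agent.Lib.CFT.Global.Places.LocalInt

/-!
# Bridge: `ℤ_q ⊗ 𝓞 L → ℚ_q ⊗ L`

The canonical map `toLocAlg L q : Ohat (𝓞 L) (pv q) →ₐ[ℤ_q] LocAlg L q` is injective, its range
is `locInt L q`, and `LocAlg L q` is the localization of `Ohat` at `q`.
-/

open scoped TensorProduct NumberField

noncomputable section

namespace Fermat.Agent.Lib.CFT.Global.Places

open Module Fermat.Agent.Lib.CFT.Global

@[elab_as_elim]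
theorem Ohat.induction_on {O : Type*} [CommRing O] {p : ℕ} [Fact p.Prime]
    {motive : Ohat O p → Prop} (y : Ohat O p) (zero : motive 0)
    (tmul : ∀ (a : ℤ_[p]) (x : O), motive (Ohat.tmul a x))
    (add : ∀ y z : Ohat O p, motive y → motive z → motive (y + z)) : motive y :=
  TensorProduct.induction_on (motive := motive) y zero tmul add

variable (L : Type) [Field L] [NumberField L] (q : Nat.Primes)

/-- The canonical map `ℤ_q ⊗ 𝓞 L → ℚ_q ⊗ L`. -/
def toLocAlg : Ohat (𝓞 L) (pv q) →ₐ[ℤ_[pv q]] LocAlg L q :=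
  Algebra.TensorProduct.lift (Algebra.ofId ℤ_[pv q] (LocAlg L q))
    (((Algebra.TensorProduct.includeRight : L →ₐ[ℚ] LocAlg L q).toRingHom.comp
      (algebraMap (𝓞 L) L)).toIntAlgHom)
    (fun _ _ => Commute.all _ _)

variable {L q}

theorem toLocAlg_tmul (a : ℤ_[pv q]) (x : 𝓞 L) :
    toLocAlg L q (Ohat.tmul a x) = ((a : ℚ_[pv q]) ⊗ₜ[ℚ] (x : L) : LocAlg L q) := by
  change Algebra.TensorProduct.lift _ _ _ (a ⊗ₜ[ℤ] x) = _
  rw [Algebra.TensorProduct.lift_tmul]
  change algebraMap ℤ_[pv q] (LocAlg L q) a * ((1 : ℚ_[pv q]) ⊗ₜ[ℚ] (x : L)) = _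
  rw [Algebra.TensorProduct.algebraMap_apply, Algebra.TensorProduct.tmul_mul_tmul, mul_one, one_mul]
  rfl

theorem toLocAlg_algebraMap (x : 𝓞 L) :
    toLocAlg L q (algebraMap (𝓞 L) (Ohat (𝓞 L) (pv q)) x) =
      ((1 : ℚ_[pv q]) ⊗ₜ[ℚ] (x : L) : LocAlg L q) := by
  rw [Ohat.algebraMap_apply, toLocAlg_tmul]
  simp

/-- The `ℚ_q`-basis of `ℚ_q ⊗ L` induced by the integral basis. -/
def locAlgBasis (L : Type) [Field L] [NumberField L] (q : Nat.Primes) :
    Basis (Free.ChooseBasisIndex ℤ (𝓞 L)) ℚ_[pv q] (LocAlg L q) :=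
  Algebra.TensorProduct.basis ℚ_[pv q] (NumberField.integralBasis L)

theorem locAlgBasis_apply (i : Free.ChooseBasisIndex ℤ (𝓞 L)) :
    locAlgBasis L q i = toLocAlg L q (Ohat.basis (𝓞 L) (pv q) (NumberField.RingOfIntegers.basis L) i) := by
  rw [Ohat.basis_apply, toLocAlg_algebraMap, locAlgBasis, Algebra.TensorProduct.basis_apply,
    NumberField.integralBasis_apply]

/-- `toLocAlg` in coordinates. -/
theorem locAlgBasis_repr_toLocAlg (y : Ohat (𝓞 L) (pv q)) (i : Free.ChooseBasisIndex ℤ (𝓞 L)) :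
    (locAlgBasis L q).repr (toLocAlg L q y) i =
      (((Ohat.basis (𝓞 L) (pv q) (NumberField.RingOfIntegers.basis L)).repr y i : ℤ_[pv q]) :
        ℚ_[pv q]) := by
  classical
  set β := Ohat.basis (𝓞 L) (pv q) (NumberField.RingOfIntegers.basis L) with hβ
  conv_lhs => rw [← β.sum_repr y]
  rw [map_sum, map_sum, Finsupp.coe_finsetSum, Finset.sum_apply]
  rw [Finset.sum_eq_single i]
  · rw [map_smul, ← locAlgBasis_apply, algebra_compatible_smul ℚ_[pv q], map_smul]
    simp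
  · intro j _ hji
    rw [map_smul, ← locAlgBasis_apply, algebra_compatible_smul ℚ_[pv q], map_smul]
    simp [hji]
  · intro hi
    exact absurd (Finset.mem_univ i) hi

theorem toLocAlg_injective : Function.Injective (toLocAlg L q) := by
  rw [injective_iff_map_eq_zero]
  intro y hy
  apply (Ohat.basis (𝓞 L) (pv q) (NumberField.RingOfIntegers.basis L)).repr.injective
  ext i
  have h1 := locAlgBasis_repr_toLocAlg y i
  rw [hy, map_zero, Finsupp.zero_apply] at h1
  rw [map_zero, Finsupp.zero_apply]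
  exact Subtype.ext h1.symm

end Fermat.Agent.Lib.CFT.Global.Places
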