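import Mathlib
import Fermat.Agent.Lib.CFT.Global.Places.Bridge

/-!
# `ℚ_q ⊗ L` is the localization of `ℤ_q ⊗ 𝓞 L` at `q`; the range of `toLocAlg` is `locInt`
-/

open scoped TensorProduct NumberField

noncomputable section

namespace Fermat.Agent.Lib.CFT.Global.Places

open Module Fermat.Agent.Lib.CFT.Global

set_option maxHeartbeats 400000

variable {L : Type} [Field L] [NumberField L] {q : Nat.Primes}

/-- A `p`-adic number of norm at most one, as a `p`-adic integer. -/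
def padicIntOfNormLe {p : ℕ} [Fact p.Prime] (x : ℚ_[p]) (h : ‖x‖ ≤ 1) : ℤ_[p] := ⟨x, h⟩

theorem coe_padicIntOfNormLe {p : ℕ} [Fact p.Prime] (x : ℚ_[p]) (h : ‖x‖ ≤ 1) :
    ((padicIntOfNormLe x h : ℤ_[p]) : ℚ_[p]) = x := rfl

/-- Every `q`-adic number becomes integral after multiplication by a power of `q`. -/
theorem exists_pow_mul_norm_le_one (p : ℕ) [Fact p.Prime] (c : ℚ_[p]) :
    ∃ k : ℕ, ‖(p : ℚ_[p]) ^ k * c‖ ≤ 1 := by
  have hp1 : (1 : ℝ) < p := by exact_mod_cast (Fact.out : p.Prime).one_lt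
  obtain ⟨k, hk⟩ := pow_unbounded_of_one_lt ‖c‖ hp1
  refine ⟨k, ?_⟩
  rw [norm_mul, Padic.norm_p_pow, zpow_neg, zpow_natCast]
  have hpos : (0 : ℝ) < (p : ℝ) ^ k := by positivity
  rw [inv_mul_le_iff₀ hpos, mul_one]
  exact hk.le

theorem isUnit_natCast_locAlg : IsUnit (((pv q : ℕ) : ℕ) : LocAlg L q) := by
  have h1 : IsUnit ((pv q : ℕ) : ℚ_[pv q]) :=
    IsUnit.mk0 _ (Nat.cast_ne_zero.mpr (pv_prime q).ne_zero)
  have := h1.map (algebraMap ℚ_[pv q] (LocAlg L q))
  rwa [map_natCast] at this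

theorem toLocAlg_natCast (n : ℕ) : toLocAlg L q (n : Ohat (𝓞 L) (pv q)) = (n : LocAlg L q) :=
  map_natCast _ n

/-- `ℚ_q ⊗ L` is obtained from `ℤ_q ⊗ 𝓞 L` by inverting `q`. -/
theorem exists_pow_mul_eq_toLocAlg (y : LocAlg L q) :
    ∃ (k : ℕ) (a : Ohat (𝓞 L) (pv q)), ((pv q : ℕ) : LocAlg L q) ^ k * y = toLocAlg L q a := by
  classical
  set B := locAlgBasis L q with hB
  set β := Ohat.basis (𝓞 L) (pv q) (NumberField.RingOfIntegers.basis L) with hβ
  choose k hk using fun i => exists_pow_mul_norm_le_one (pv q) (B.repr y i)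
  set K := ∑ i, k i with hK
  have hK' : ∀ i, ‖((pv q : ℕ) : ℚ_[pv q]) ^ K * B.repr y i‖ ≤ 1 := by
    intro i
    have hle : k i ≤ K := Finset.single_le_sum (fun _ _ => Nat.zero_le _) (Finset.mem_univ i)
    obtain ⟨d, hd⟩ := Nat.exists_eq_add_of_le hle
    rw [hd, pow_add, mul_comm (_ ^ k i), mul_assoc, norm_mul]
    have h1 : ‖((pv q : ℕ) : ℚ_[pv q]) ^ d‖ ≤ 1 := by
      rw [Padic.norm_p_pow, zpow_neg, zpow_natCast]
      apply inv_le_one_of_one_le₀
      have : (1 : ℝ) ≤ (pv q : ℝ) := by exact_mod_cast (pv_prime q).one_lt.le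
      exact one_le_pow₀ this
    calc _ ≤ 1 * 1 := mul_le_mul h1 (hk i) (norm_nonneg _) zero_le_one
      _ = 1 := one_mul 1
  refine ⟨K, ∑ i, (padicIntOfNormLe _ (hK' i)) • β i, ?_⟩
  apply B.repr.injective
  ext i
  rw [locAlgBasis_repr_toLocAlg]
  have h2 : β.repr (∑ j, (padicIntOfNormLe _ (hK' j)) • β j) i = padicIntOfNormLe _ (hK' i) :=
    congrFun (β.repr_sum_self _) i
  rw [h2, coe_padicIntOfNormLe]
  have h3 : ((pv q : ℕ) : LocAlg L q) ^ K * y = (((pv q : ℕ) : ℚ_[pv q]) ^ K) • y := by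
    rw [Algebra.smul_def, map_pow, map_natCast]
  rw [h3, map_smul, Finsupp.smul_apply, smul_eq_mul]

/-- The range of `toLocAlg` is the integral subalgebra `locInt L q`. -/
theorem range_toLocAlg : (toLocAlg L q).range = locInt L q := by
  apply le_antisymm
  · rintro _ ⟨y, rfl⟩
    change toLocAlg L q y ∈ locInt L q
    induction y using Ohat.induction_on with
    | zero => rw [map_zero]; exact zero_mem _
    | tmul a x =>
      rw [toLocAlg_tmul]
      exact tmul_mem_locInt L q a x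
    | add y z hy hz => rw [map_add]; exact add_mem hy hz
  · unfold locInt
    rw [Algebra.adjoin_le_iff]
    rintro _ ⟨x, rfl⟩
    exact ⟨algebraMap (𝓞 L) _ x, toLocAlg_algebraMap x⟩

theorem mem_locInt_iff (y : LocAlg L q) :
    y ∈ locInt L q ↔ ∃ a : Ohat (𝓞 L) (pv q), toLocAlg L q a = y := by
  rw [← range_toLocAlg]
  exact Iff.rfl

end Fermat.Agent.Lib.CFT.Global.Places
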