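import Mathlib
import Fermat.Agent.Lib.CFT.Global.Places.BridgeLoc

/-!
# The local fields `localField L q v` of a number field `L` at the primes `v` above `q`

`localField L q v` is the quotient of `LocAlg L q = ℚ_q ⊗ L` by the maximal ideal `maxIdeal L q v`;
it is the fraction field of the complete DVR `localInt L q v`.
-/

open scoped TensorProduct NumberField

noncomputable section

namespace Fermat.Agent.Lib.CFT.Global.Places

open Module Fermat.Agent.Lib.CFT.Global IsLocalRing

set_option maxHeartbeats 400000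

variable (L : Type) [Field L] [NumberField L] (q : Nat.Primes)

/-- The primes of `𝓞 L` above the rational prime `q`. -/
abbrev PrimesOver : Type := PrimesOverNat (𝓞 L) (pv q)

/-- The completion of `𝓞 L` at `v`. -/
abbrev localInt (v : PrimesOver L q) : Type := LocalInt (𝓞 L) (pv q) v

/-- The idempotent of `ℤ_q ⊗ 𝓞 L` attached to `v`. -/
abbrev intIdem (v : PrimesOver L q) : Ohat (𝓞 L) (pv q) :=
  idem (𝓞 L) ((pv q : ℕ) : 𝓞 L) (Ohat (𝓞 L) (pv q)) v

/-- The idempotent of `ℚ_q ⊗ L` attached to `v`. -/
def locIdem (v : PrimesOver L q) : LocAlg L q := toLocAlg L q (intIdem L q v)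

theorem completeOrthogonalIdempotents_intIdem :
    CompleteOrthogonalIdempotents (intIdem L q) :=
  (Ohat.isAdicCompletionAt (𝓞 L) (pv q)).completeOrthogonalIdempotents_idem

theorem completeOrthogonalIdempotents_locIdem :
    CompleteOrthogonalIdempotents (locIdem L q) := by
  change CompleteOrthogonalIdempotents ((toLocAlg L q).toRingHom ∘ intIdem L q)
  exact (completeOrthogonalIdempotents_intIdem L q).map (toLocAlg L q).toRingHom

theorem isIdempotentElem_locIdem (v : PrimesOver L q) : IsIdempotentElem (locIdem L q v) :=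
  (completeOrthogonalIdempotents_locIdem L q).idem v

/-- The maximal ideal of `ℚ_q ⊗ L` attached to `v`. -/
def maxIdeal (v : PrimesOver L q) : Ideal (LocAlg L q) := Ideal.span {1 - locIdem L q v}

/-- The completion of `L` at `v`, as a quotient of `ℚ_q ⊗ L`. -/
abbrev localField (v : PrimesOver L q) : Type := LocAlg L q ⧸ maxIdeal L q v

variable {L q}

theorem mem_maxIdeal_iff (v : PrimesOver L q) (y : LocAlg L q) :
    y ∈ maxIdeal L q v ↔ locIdem L q v * y = 0 := by
  have hE : locIdem L q v * locIdem L q v = locIdem L q v := isIdempotentElem_locIdem L q v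
  unfold maxIdeal
  rw [Ideal.mem_span_singleton']
  constructor
  · rintro ⟨c, rfl⟩
    linear_combination (-c) * hE
  · intro h
    exact ⟨y, by linear_combination (-1 : LocAlg L q) * h⟩

theorem toLocAlg_mem_maxIdeal_iff (v : PrimesOver L q) (a : Ohat (𝓞 L) (pv q)) :
    toLocAlg L q a ∈ maxIdeal L q v ↔ a ∈ Ideal.span {1 - intIdem L q v} := by
  have he : intIdem L q v * intIdem L q v = intIdem L q v :=
    (completeOrthogonalIdempotents_intIdem L q).idem v
  rw [mem_maxIdeal_iff, locIdem, ← map_mul, map_eq_zero_iff _ toLocAlg_injective,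
    Ideal.mem_span_singleton']
  constructor
  · intro h
    exact ⟨a, by linear_combination (-1 : Ohat (𝓞 L) (pv q)) * h⟩
  · rintro ⟨c, rfl⟩
    linear_combination (-c) * he

variable (L q) in
/-- The canonical map from the completed local ring to the local field. -/
def toLocalField (v : PrimesOver L q) : localInt L q v →ₐ[ℤ_[pv q]] localField L q v :=
  Ideal.quotientMapₐ (maxIdeal L q v) (toLocAlg L q) (by
    intro a ha
    rw [Ideal.mem_comap]
    exact (toLocAlg_mem_maxIdeal_iff v a).mpr ha)

theorem toLocalField_mk (v : PrimesOver L q) (a : Ohat (𝓞 L) (pv q)) :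
    toLocalField L q v (Ideal.Quotient.mk _ a) = Ideal.Quotient.mk _ (toLocAlg L q a) := rfl

theorem toLocalField_injective (v : PrimesOver L q) :
    Function.Injective (toLocalField L q v) := by
  rw [injective_iff_map_eq_zero]
  intro a ha
  obtain ⟨a, rfl⟩ := Ideal.Quotient.mk_surjective a
  rw [toLocalField_mk, Ideal.Quotient.eq_zero_iff_mem, toLocAlg_mem_maxIdeal_iff] at ha
  exact Ideal.Quotient.eq_zero_iff_mem.mpr ha

theorem isUnit_natCast_localField (v : PrimesOver L q) :
    IsUnit (((pv q : ℕ) : ℕ) : localField L q v) := by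
  have := (isUnit_natCast_locAlg (L := L) (q := q)).map (Ideal.Quotient.mk (maxIdeal L q v))
  rwa [map_natCast] at this

theorem exists_pow_mul_eq_toLocalField (v : PrimesOver L q) (y : localField L q v) :
    ∃ (k : ℕ) (a : localInt L q v), ((pv q : ℕ) : localField L q v) ^ k * y =
      toLocalField L q v a := by
  obtain ⟨y, rfl⟩ := Ideal.Quotient.mk_surjective y
  obtain ⟨k, a, hka⟩ := exists_pow_mul_eq_toLocAlg y
  refine ⟨k, Ideal.Quotient.mk _ a, ?_⟩
  rw [toLocalField_mk, ← hka, map_mul, map_pow, map_natCast]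

/-- In the completed local ring every nonzero element divides a power of `q`. -/
theorem exists_mul_eq_natCast_pow (v : PrimesOver L q) {a : localInt L q v} (ha : a ≠ 0) :
    ∃ (b : localInt L q v) (n : ℕ), a * b = ((pv q : ℕ) : localInt L q v) ^ n := by
  obtain ⟨ϖ, hϖ⟩ := IsDiscreteValuationRing.exists_irreducible (localInt L q v)
  obtain ⟨n, hn⟩ := IsDiscreteValuationRing.associated_pow_irreducible ha hϖ
  have hp : Associated ((pv q : ℕ) : localInt L q v)
      (ϖ ^ ramExp ((pv q : ℕ) : 𝓞 L) v.1) := by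
    rw [← Ideal.span_singleton_eq_span_singleton, LocalInt.span_p_eq_maximalIdeal_pow,
      hϖ.maximalIdeal_eq, Ideal.span_singleton_pow]
  have he : 1 ≤ ramExp ((pv q : ℕ) : 𝓞 L) v.1 :=
    Nat.one_le_iff_ne_zero.mpr (LocalInt.ramExp_ne_zero v)
  have h1 : a ∣ ϖ ^ n := hn.dvd
  have h2 : ϖ ^ n ∣ ϖ ^ (ramExp ((pv q : ℕ) : 𝓞 L) v.1 * n) :=
    pow_dvd_pow _ (Nat.le_mul_of_pos_left n he)
  have h3 : ϖ ^ (ramExp ((pv q : ℕ) : 𝓞 L) v.1 * n) ∣ ((pv q : ℕ) : localInt L q v) ^ n := by
    rw [pow_mul]
    exact (hp.symm.pow_pow (n := n)).dvd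
  obtain ⟨b, hb⟩ := h1.trans (h2.trans h3)
  exact ⟨b, n, hb.symm⟩

instance maxIdeal_isMaximal (v : PrimesOver L q) : (maxIdeal L q v).IsMaximal := by
  rw [Ideal.isMaximal_iff]
  constructor
  · intro h1
    rw [← map_one (toLocAlg L q), toLocAlg_mem_maxIdeal_iff] at h1
    have h2 : (1 : localInt L q v) = 0 := by
      rw [← map_one (Ideal.Quotient.mk _)]
      exact Ideal.Quotient.eq_zero_iff_mem.mpr h1
    exact one_ne_zero h2
  · intro J y hJ hy hyJ
    obtain ⟨k, a, hka⟩ := exists_pow_mul_eq_toLocAlg y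
    have ha : (Ideal.Quotient.mk (Ideal.span {1 - intIdem L q v}) a : localInt L q v) ≠ 0 := by
      intro h0
      rw [Ideal.Quotient.eq_zero_iff_mem, ← toLocAlg_mem_maxIdeal_iff, ← hka] at h0
      obtain ⟨u, hu⟩ := (isUnit_natCast_locAlg (L := L) (q := q)).pow k
      apply hy
      have : y = (↑u⁻¹ : LocAlg L q) * (((pv q : ℕ) : LocAlg L q) ^ k * y) := by
        rw [← hu, ← mul_assoc, Units.inv_mul, one_mul]
      rw [this]
      exact Ideal.mul_mem_left _ _ h0
    obtain ⟨b, n, hb⟩ := exists_mul_eq_natCast_pow v ha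
    obtain ⟨b, rfl⟩ := Ideal.Quotient.mk_surjective b
    rw [← map_mul, ← map_natCast (Ideal.Quotient.mk (Ideal.span {1 - intIdem L q v})),
      ← map_pow, Ideal.Quotient.eq, ← toLocAlg_mem_maxIdeal_iff, map_sub, map_mul, map_pow,
      toLocAlg_natCast, ← hka] at hb
    -- `p^k * y * T b - p^n ∈ maxIdeal ≤ J`, and `y ∈ J`
    have h3 : ((pv q : ℕ) : LocAlg L q) ^ n ∈ J := by
      have h4 := hJ hb
      have h5 : ((pv q : ℕ) : LocAlg L q) ^ k * y * toLocAlg L q b ∈ J := by
        rw [mul_comm (_ ^ k) y, mul_assoc]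
        exact Ideal.mul_mem_right _ _ hyJ
      have := Ideal.sub_mem _ h5 h4
      rwa [sub_sub_cancel] at this
    obtain ⟨u, hu⟩ := (isUnit_natCast_locAlg (L := L) (q := q)).pow n
    have : (1 : LocAlg L q) = (↑u⁻¹ : LocAlg L q) * ((pv q : ℕ) : LocAlg L q) ^ n := by
      rw [← hu, Units.inv_mul]
    rw [this]
    exact Ideal.mul_mem_left _ _ h3

instance (v : PrimesOver L q) : Field (localField L q v) := Ideal.Quotient.field _

instance (v : PrimesOver L q) : Algebra (localInt L q v) (localField L q v) :=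
  (toLocalField L q v).toRingHom.toAlgebra

theorem algebraMap_localInt_localField (v : PrimesOver L q) (a : localInt L q v) :
    algebraMap (localInt L q v) (localField L q v) a = toLocalField L q v a := rfl

instance (v : PrimesOver L q) : FaithfulSMul (localInt L q v) (localField L q v) :=
  (faithfulSMul_iff_algebraMap_injective _ _).mpr (toLocalField_injective v)

instance (v : PrimesOver L q) : IsFractionRing (localInt L q v) (localField L q v) := by
  apply IsFractionRing.of_field
  intro z
  obtain ⟨k, a, hka⟩ := exists_pow_mul_eq_toLocalField v z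
  refine ⟨a, ((pv q : ℕ) : localInt L q v) ^ k, ?_⟩
  rw [algebraMap_localInt_localField, algebraMap_localInt_localField, ← hka, map_pow,
    map_natCast]
  have hne : ((pv q : ℕ) : localField L q v) ^ k ≠ 0 :=
    pow_ne_zero _ (isUnit_natCast_localField v).ne_zero
  field_simp

end Fermat.Agent.Lib.CFT.Global.Places
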