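import Mathlib
import Fermat.Agent.Lib.CFT.Global.Places.LocalField

/-!
# `ℚ_q ⊗ L` is the product of the completions of `L` at the primes above `q`

* `locAlgEquivPi L q : LocAlg L q ≃ₐ[ℚ_q] ∀ v, localField L q v`
* `primesEquivMaximalSpectrum L q : PrimesOver L q ≃ MaximalSpectrum (LocAlg L q)`
* `mem_locInt_iff_forall`, `mem_locIntUnits_iff_forall`: integrality is tested componentwise.
-/

set_option maxHeartbeats 400000

open scoped TensorProduct NumberField

noncomputable section

namespace Fermat.Agent.Lib.CFT.Global.Places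

open Module Fermat.Agent.Lib.CFT.Global

variable (L : Type) [Field L] [NumberField L] (q : Nat.Primes)

/-- `ℚ_q ⊗ L` is the product of the completions of `L` at the primes above `q`. -/
def locAlgEquivPi : LocAlg L q ≃ₐ[ℚ_[pv q]] ∀ v : PrimesOver L q, localField L q v :=
  AlgEquiv.ofBijective
    (AlgHom.pi fun v => Ideal.Quotient.mkₐ ℚ_[pv q] (maxIdeal L q v))
    (completeOrthogonalIdempotents_locIdem L q).bijective_pi

variable {L q}

@[simp]
theorem locAlgEquivPi_apply (y : LocAlg L q) (v : PrimesOver L q) :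
    locAlgEquivPi L q y v = Ideal.Quotient.mk (maxIdeal L q v) y := rfl

theorem locAlgEquivPi_toLocAlg (a : Ohat (𝓞 L) (pv q)) (v : PrimesOver L q) :
    locAlgEquivPi L q (toLocAlg L q a) v =
      algebraMap (localInt L q v) (localField L q v) (Ohat.equivPi (𝓞 L) (pv q) a v) := rfl

theorem locAlgEquivPi_locIdem_self (v : PrimesOver L q) :
    locAlgEquivPi L q (locIdem L q v) v = 1 := by
  rw [locAlgEquivPi_apply, ← sub_eq_zero, ← map_one (Ideal.Quotient.mk (maxIdeal L q v)), ← map_sub,
    Ideal.Quotient.eq_zero_iff_mem, ← neg_sub, neg_mem_iff]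
  exact Ideal.subset_span rfl

theorem locAlgEquivPi_locIdem_of_ne {v w : PrimesOver L q} (h : v ≠ w) :
    locAlgEquivPi L q (locIdem L q v) w = 0 := by
  rw [locAlgEquivPi_apply, Ideal.Quotient.eq_zero_iff_mem, mem_maxIdeal_iff]
  exact (completeOrthogonalIdempotents_locIdem L q).ortho h.symm

/-- The component of `y` at `v` only depends on `locIdem v * y`. -/
theorem locAlgEquivPi_locIdem_mul (y : LocAlg L q) (v : PrimesOver L q) :
    locAlgEquivPi L q (locIdem L q v * y) v = locAlgEquivPi L q y v := by
  rw [map_mul, Pi.mul_apply, locAlgEquivPi_locIdem_self, one_mul]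

theorem eq_zero_iff_forall_mk (y : LocAlg L q) :
    y = 0 ↔ ∀ v : PrimesOver L q, Ideal.Quotient.mk (maxIdeal L q v) y = 0 := by
  rw [← (locAlgEquivPi L q).map_eq_zero_iff]
  exact funext_iff

/-- Integrality in `ℚ_q ⊗ L` is tested componentwise. -/
theorem mem_locInt_iff_forall (y : LocAlg L q) :
    y ∈ locInt L q ↔ ∀ v : PrimesOver L q, Ideal.Quotient.mk (maxIdeal L q v) y ∈
      (algebraMap (localInt L q v) (localField L q v)).range := by
  constructor
  · intro hy v
    rw [← range_toLocAlg] at hy
    obtain ⟨a, rfl⟩ := hy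
    exact ⟨Ohat.equivPi (𝓞 L) (pv q) a v, rfl⟩
  · intro h
    choose b hb using h
    obtain ⟨a, ha⟩ := (Ohat.equivPi (𝓞 L) (pv q)).surjective b
    have : y = toLocAlg L q a := by
      apply (locAlgEquivPi L q).injective
      funext v
      rw [locAlgEquivPi_toLocAlg, ha, hb v, locAlgEquivPi_apply]
    rw [this, ← range_toLocAlg]
    exact ⟨a, rfl⟩

/-- Integral units of `ℚ_q ⊗ L` are tested componentwise. -/
theorem mem_locIntUnits_iff_forall (u : (LocAlg L q)ˣ) :
    u ∈ locIntUnits L q ↔ ∀ v : PrimesOver L q, ∃ a : (localInt L q v)ˣ,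
      algebraMap (localInt L q v) (localField L q v) a =
        Ideal.Quotient.mk (maxIdeal L q v) (u : LocAlg L q) := by
  rw [mem_locIntUnits, mem_locInt_iff_forall, mem_locInt_iff_forall]
  constructor
  · rintro ⟨h1, h2⟩ v
    obtain ⟨a, ha⟩ := h1 v
    obtain ⟨b, hb⟩ := h2 v
    have hab : a * b = 1 := by
      apply FaithfulSMul.algebraMap_injective (localInt L q v) (localField L q v)
      rw [map_mul, ha, hb, ← map_mul, ← Units.val_mul, mul_inv_cancel, Units.val_one, map_one,
        map_one]
    exact ⟨⟨a, b, hab, by rw [mul_comm]; exact hab⟩, ha⟩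
  · intro h
    refine ⟨fun v => ?_, fun v => ?_⟩
    · obtain ⟨a, ha⟩ := h v
      exact ⟨a, ha⟩
    · obtain ⟨a, ha⟩ := h v
      refine ⟨((a⁻¹ : (localInt L q v)ˣ) : localInt L q v), ?_⟩
      have h1 : algebraMap (localInt L q v) (localField L q v) ((a⁻¹ : (localInt L q v)ˣ) :
          localInt L q v) * Ideal.Quotient.mk (maxIdeal L q v) (u : LocAlg L q) = 1 := by
        rw [← ha, ← map_mul, ← Units.val_mul, inv_mul_cancel, Units.val_one, map_one]
      have h2 : Ideal.Quotient.mk (maxIdeal L q v) ((u⁻¹ : (LocAlg L q)ˣ) : LocAlg L q) *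
          Ideal.Quotient.mk (maxIdeal L q v) (u : LocAlg L q) = 1 := by
        rw [← map_mul, ← Units.val_mul, inv_mul_cancel, Units.val_one, map_one]
      have hu0 : Ideal.Quotient.mk (maxIdeal L q v) (u : LocAlg L q) ≠ 0 := by
        intro h0
        rw [h0, mul_zero] at h2
        exact zero_ne_one h2
      exact mul_right_cancel₀ hu0 (h1.trans h2.symm)

variable (L q)

/-- The primes of `𝓞 L` above `q` are the maximal ideals of `ℚ_q ⊗ L`. -/
def primesEquivMaximalSpectrum : PrimesOver L q ≃ MaximalSpectrum (LocAlg L q) :=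
  Equiv.ofBijective (fun v => ⟨maxIdeal L q v, inferInstance⟩) (by
    constructor
    · intro v w hvw
      by_contra hne
      have h1 : maxIdeal L q v = maxIdeal L q w := congrArg MaximalSpectrum.asIdeal hvw
      have h2 : locIdem L q w ∈ maxIdeal L q v := by
        rw [mem_maxIdeal_iff]
        exact (completeOrthogonalIdempotents_locIdem L q).ortho hne
      have h3 : 1 - locIdem L q w ∈ maxIdeal L q v := by
        rw [h1]
        exact Ideal.subset_span rfl
      have h4 : (1 : LocAlg L q) ∈ maxIdeal L q v := by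
        have := add_mem h3 h2
        rwa [sub_add_cancel] at this
      exact (maxIdeal_isMaximal v).ne_top ((Ideal.eq_top_iff_one _).mpr h4)
    · intro m
      have hm : m.asIdeal.IsMaximal := m.isMaximal
      obtain ⟨v, hv⟩ : ∃ v : PrimesOver L q, locIdem L q v ∉ m.asIdeal := by
        by_contra hcon
        push Not at hcon
        have h1 : (1 : LocAlg L q) ∈ m.asIdeal := by
          rw [← (completeOrthogonalIdempotents_locIdem L q).complete]
          exact sum_mem fun v _ => hcon v
        exact hm.ne_top ((Ideal.eq_top_iff_one _).mpr h1)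
      refine ⟨v, ?_⟩
      have h0 : (1 - locIdem L q v) * locIdem L q v ∈ m.asIdeal := by
        have hE : locIdem L q v * locIdem L q v = locIdem L q v := isIdempotentElem_locIdem L q v
        rw [sub_mul, one_mul, hE, sub_self]
        exact zero_mem _
      have h1 : 1 - locIdem L q v ∈ m.asIdeal :=
        (hm.isPrime.mem_or_mem h0).resolve_right hv
      have hle : maxIdeal L q v ≤ m.asIdeal := by
        unfold maxIdeal
        rw [Ideal.span_le, Set.singleton_subset_iff]
        exact h1
      ext1
      exact (maxIdeal_isMaximal v).eq_of_le hm.ne_top hle)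

variable {L q}

@[simp]
theorem primesEquivMaximalSpectrum_asIdeal (v : PrimesOver L q) :
    (primesEquivMaximalSpectrum L q v).asIdeal = maxIdeal L q v := rfl

variable (L q)

instance finite_locAlg : Module.Finite ℚ_[pv q] (LocAlg L q) :=
  Module.Finite.of_basis (locAlgBasis L q)

theorem isArtinianRing_locAlg : IsArtinianRing (LocAlg L q) :=
  IsArtinianRing.of_finite ℚ_[pv q] _

theorem isReduced_locAlg : IsReduced (LocAlg L q) :=
  isReduced_of_injective (locAlgEquivPi L q).toRingEquiv.toRingHom (locAlgEquivPi L q).injective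

instance instIsArtinianRingLocAlg : IsArtinianRing (LocAlg L q) := isArtinianRing_locAlg L q

instance instIsReducedLocAlg : IsReduced (LocAlg L q) := isReduced_locAlg L q

end Fermat.Agent.Lib.CFT.Global.Places
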