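import Mathlib
import Fermat.Agent.Lib.CFT.Global.Places.LocAlgDecomp
import Fermat.Agent.Lib.CFT.Global.Places.GaloisDecomp
import Fermat.Agent.Lib.CFT.Global.EtaleAlg

/-!
# Transfer of the Galois action from `ℤ_q ⊗ 𝓞 L` to `ℚ_q ⊗ L`

For a group `G` acting on a number field `L`, the bridge `toLocAlg L q : ℤ_q ⊗ 𝓞 L → ℚ_q ⊗ L` is
`G`-equivariant; consequently `G` permutes the idempotents `locIdem L q v` and the maximal ideals
`maxIdeal L q v` of `ℚ_q ⊗ L` exactly as it permutes the primes `v` of `𝓞 L` above `q`.
-/

open scoped TensorProduct NumberField Pointwise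

noncomputable section

namespace Fermat.Agent.Lib.CFT.Global.Places.Galois

open Fermat.Agent.Lib.CFT.Global Fermat.Agent.Lib.CFT.Global.Places IsDedekindDomain

section Functoriality

variable {K L : Type} [Field K] [NumberField K] [Field L] [NumberField L] (q : Nat.Primes)

/-- Naturality of the bridge `toLocAlg` in the number field. -/
theorem toLocAlg_ohatMap (f : K →+* L) (f₀ : 𝓞 K →+* 𝓞 L)
    (hf : ∀ x : 𝓞 K, (f₀ x : L) = f (x : K)) (z : Ohat (𝓞 K) (pv q)) :
    toLocAlg L q (ohatMap (pv q) f₀ z) = locMap f q (toLocAlg K q z) := by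
  induction z using ohat_induction_on with
  | zero => simp
  | tmul a x => rw [ohatMap_tmul, toLocAlg_tmul, toLocAlg_tmul, locMap_tmul, hf]
  | add x y hx hy => simp [hx, hy]

end Functoriality

section Action

variable {L : Type} [Field L] [NumberField L] (q : Nat.Primes)
variable {G : Type} [Group G] [MulSemiringAction G L]

/-- The bridge `toLocAlg` is `G`-equivariant. -/
theorem toLocAlg_smul (g : G) (z : Ohat (𝓞 L) (pv q)) :
    toLocAlg L q (ohatMap (pv q) (MulSemiringAction.toRingHom G (𝓞 L) g) z) =
      g • toLocAlg L q z := by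
  rw [smul_locAlg_def]
  exact toLocAlg_ohatMap q _ _ (fun x => rfl) z

/-- `G` permutes the idempotents of `ℚ_q ⊗ L`. -/
theorem smul_locIdem (g : G) (v : PrimesOver L q) :
    g • locIdem L q v = locIdem L q (g • v) := by
  unfold locIdem
  rw [← toLocAlg_smul, ohatMap_smul_idem]

/-- `G` permutes the maximal ideals of `ℚ_q ⊗ L`. -/
theorem smul_maxIdeal (g : G) (v : PrimesOver L q) :
    g • maxIdeal L q v = maxIdeal L q (g • v) := by
  unfold maxIdeal
  rw [Ideal.pointwise_smul_def, Ideal.map_span, Set.image_singleton]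
  congr 2
  change g • (1 - locIdem L q v) = _
  rw [smul_sub, smul_one, smul_locIdem]

theorem smul_mem_maxIdeal_iff (g : G) (v : PrimesOver L q) (x : LocAlg L q) :
    g • x ∈ maxIdeal L q (g • v) ↔ x ∈ maxIdeal L q v := by
  rw [← smul_maxIdeal, Ideal.smul_mem_pointwise_smul_iff]

open EtaleAlg

/-- The identification of the primes above `q` with the maximal spectrum of `ℚ_q ⊗ L` is
`G`-equivariant (for the action of `Global/EtaleAlg` on the maximal spectrum). -/
theorem primesEquivMaximalSpectrum_smul (g : G) (v : PrimesOver L q) :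
    primesEquivMaximalSpectrum L q (g • v) = g • primesEquivMaximalSpectrum L q v :=
  MaximalSpectrum.ext (smul_maxIdeal q g v).symm

theorem primesEquivMaximalSpectrum_symm_smul (g : G) (m : MaximalSpectrum (LocAlg L q)) :
    (primesEquivMaximalSpectrum L q).symm (g • m) =
      g • (primesEquivMaximalSpectrum L q).symm m := by
  apply (primesEquivMaximalSpectrum L q).injective
  rw [primesEquivMaximalSpectrum_smul, Equiv.apply_symm_apply, Equiv.apply_symm_apply]

theorem mem_stabilizer_primesEquiv_iff (g : G) (w : PrimesOver L q) :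
    g ∈ MulAction.stabilizer G (primesEquivMaximalSpectrum L q w) ↔ g • w = w := by
  rw [MulAction.mem_stabilizer_iff, ← primesEquivMaximalSpectrum_smul,
    (primesEquivMaximalSpectrum L q).injective.eq_iff]

/-- The decomposition group of `w`, computed in `ℚ_q ⊗ L` or in `𝓞 L`. -/
theorem mem_stabilizer_primesEquiv_iff' (g : G) (w : PrimesOver L q) :
    g ∈ MulAction.stabilizer G (primesEquivMaximalSpectrum L q w) ↔
      g ∈ MulAction.stabilizer G w.1.asIdeal := by
  rw [mem_stabilizer_primesEquiv_iff, MulAction.mem_stabilizer_iff, smul_prime_eq_iff]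

theorem stabilizer_primesEquiv (w : PrimesOver L q) :
    MulAction.stabilizer G (primesEquivMaximalSpectrum L q w) =
      MulAction.stabilizer G w.1.asIdeal :=
  Subgroup.ext fun g => mem_stabilizer_primesEquiv_iff' q g w

/-- The stabilizer of `w` for the action on `PrimesOver L q` is the decomposition group. -/
theorem stabilizer_primesOver (w : PrimesOver L q) :
    MulAction.stabilizer G w = MulAction.stabilizer G w.1.asIdeal :=
  Subgroup.ext fun g => by
    rw [MulAction.mem_stabilizer_iff, MulAction.mem_stabilizer_iff, smul_prime_eq_iff]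

end Action

end Fermat.Agent.Lib.CFT.Global.Places.Galois
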