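import Mathlib
import Fermat.Agent.Lib.CFT.Global.Places.LocAlgDecomp

/-!
# Units of `ℚ_q ⊗ L` and the embeddings `L → L_v`

* `finrank_locAlg`, `Module.Finite ℚ_q (localField L q v)`
* `ofField L q v : L →+* localField L q v`
* `locAlgUnitsEquivPi L q : (LocAlg L q)ˣ ≃* ∀ v, (localField L q v)ˣ`
* `localIntUnits L q v : Subgroup (localField L q v)ˣ` and the componentwise description of
  `locIntUnits L q`.
-/

set_option maxHeartbeats 400000

open scoped TensorProduct NumberField

noncomputable section

namespace Fermat.Agent.Lib.CFT.Global.Places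

open Module Fermat.Agent.Lib.CFT.Global

variable (L : Type) [Field L] [NumberField L] (q : Nat.Primes)

theorem finrank_locAlg : Module.finrank ℚ_[pv q] (LocAlg L q) = Module.finrank ℚ L :=
  Module.finrank_baseChange

instance finite_localField (v : PrimesOver L q) : Module.Finite ℚ_[pv q] (localField L q v) :=
  Module.Finite.of_surjective (Ideal.Quotient.mkₐ ℚ_[pv q] (maxIdeal L q v)).toLinearMap
    (Ideal.Quotient.mkₐ_surjective ℚ_[pv q] _)

/-- The sum of the local degrees is the global degree. -/
theorem sum_finrank_localField :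
    ∑ v : PrimesOver L q, Module.finrank ℚ_[pv q] (localField L q v) = Module.finrank ℚ L := by
  rw [← finrank_locAlg L q, (locAlgEquivPi L q).toLinearEquiv.finrank_eq, Module.finrank_pi_fintype]

/-- The embedding of `L` in its completion at `v`. -/
def ofField (v : PrimesOver L q) : L →+* localField L q v :=
  (Ideal.Quotient.mk (maxIdeal L q v)).comp
    (Algebra.TensorProduct.includeRight : L →ₐ[ℚ] LocAlg L q).toRingHom

variable {L q}

theorem ofField_apply (v : PrimesOver L q) (x : L) :
    ofField L q v x = Ideal.Quotient.mk (maxIdeal L q v) ((1 : ℚ_[pv q]) ⊗ₜ[ℚ] x) := rfl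

theorem ofField_injective (v : PrimesOver L q) : Function.Injective (ofField L q v) :=
  (ofField L q v).injective

/-- Compatibility of `L → L_v` with `𝓞 L → 𝓞_v`. -/
theorem ofField_algebraMap (v : PrimesOver L q) (x : 𝓞 L) :
    ofField L q v (x : L) = algebraMap (localInt L q v) (localField L q v)
      (algebraMap (𝓞 L) (localInt L q v) x) := by
  rw [ofField_apply, ← toLocAlg_algebraMap]
  rfl

theorem locAlgEquivPi_one_tmul (x : L) (v : PrimesOver L q) :
    locAlgEquivPi L q ((1 : ℚ_[pv q]) ⊗ₜ[ℚ] x) v = ofField L q v x := rfl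

theorem locAlgEquivPi_locUnit (x : Lˣ) (v : PrimesOver L q) :
    locAlgEquivPi L q (locUnit L q x : LocAlg L q) v = ofField L q v x := rfl

variable (L q)

/-- The units of `ℚ_q ⊗ L` are the product of the units of the completions. -/
def locAlgUnitsEquivPi : (LocAlg L q)ˣ ≃* ∀ v : PrimesOver L q, (localField L q v)ˣ :=
  (Units.mapEquiv (locAlgEquivPi L q).toMulEquiv).trans MulEquiv.piUnits

variable {L q}

@[simp]
theorem locAlgUnitsEquivPi_apply (u : (LocAlg L q)ˣ) (v : PrimesOver L q) :
    ((locAlgUnitsEquivPi L q u v : (localField L q v)ˣ) : localField L q v) =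
      Ideal.Quotient.mk (maxIdeal L q v) (u : LocAlg L q) := rfl

theorem locAlgUnitsEquivPi_locUnit (x : Lˣ) (v : PrimesOver L q) :
    locAlgUnitsEquivPi L q (locUnit L q x) v = Units.map (ofField L q v : L →* localField L q v) x :=
  Units.ext rfl

variable (L q)

/-- The units of the valuation ring, as a subgroup of `L_vˣ`. -/
def localIntUnits (v : PrimesOver L q) : Subgroup (localField L q v)ˣ :=
  (Units.map (algebraMap (localInt L q v) (localField L q v) :
    localInt L q v →* localField L q v)).range

variable {L q}

theorem mem_localIntUnits_iff (v : PrimesOver L q) (u : (localField L q v)ˣ) :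
    u ∈ localIntUnits L q v ↔ ∃ a : (localInt L q v)ˣ,
      algebraMap (localInt L q v) (localField L q v) a = (u : localField L q v) := by
  constructor
  · rintro ⟨a, rfl⟩
    exact ⟨a, rfl⟩
  · rintro ⟨a, ha⟩
    exact ⟨a, Units.ext ha⟩

/-- Integral units are tested componentwise. -/
theorem mem_locIntUnits_iff_forall_mem (u : (LocAlg L q)ˣ) :
    u ∈ locIntUnits L q ↔ ∀ v : PrimesOver L q, locAlgUnitsEquivPi L q u v ∈ localIntUnits L q v := by
  rw [mem_locIntUnits_iff_forall]
  refine forall_congr' fun v => ?_
  rw [mem_localIntUnits_iff, locAlgUnitsEquivPi_apply]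

variable (L q)

/-- The integral units of `ℚ_q ⊗ L` are the product of the unit groups of the valuation rings. -/
theorem map_locIntUnits :
    (locIntUnits L q).map (locAlgUnitsEquivPi L q).toMonoidHom =
      Subgroup.pi Set.univ (localIntUnits L q) := by
  ext y
  constructor
  · rintro ⟨u, hu, rfl⟩
    rw [Subgroup.mem_pi]
    intro v _
    exact (mem_locIntUnits_iff_forall_mem u).mp hu v
  · intro hy
    rw [Subgroup.mem_pi] at hy
    obtain ⟨u, rfl⟩ := (locAlgUnitsEquivPi L q).surjective y
    exact ⟨u, (mem_locIntUnits_iff_forall_mem u).mpr fun v => hy v (Set.mem_univ v), rfl⟩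

/-- The unit group of `𝓞_v`, identified with `localIntUnits`. -/
def localIntUnitsEquiv (v : PrimesOver L q) : (localInt L q v)ˣ ≃* localIntUnits L q v :=
  MonoidHom.ofInjective
    (f := Units.map (algebraMap (localInt L q v) (localField L q v) :
      localInt L q v →* localField L q v))
    (Units.map_injective (FaithfulSMul.algebraMap_injective _ _))

variable {L q}

theorem coe_localIntUnitsEquiv (v : PrimesOver L q) (a : (localInt L q v)ˣ) :
    (((localIntUnitsEquiv L q v a : localIntUnits L q v) : (localField L q v)ˣ) :
      localField L q v) = algebraMap (localInt L q v) (localField L q v) a := rfl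

end Fermat.Agent.Lib.CFT.Global.Places
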