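import Mathlib
import Fermat.Agent.Lib.CFT.Global.Places.GaloisLocal
import Fermat.Agent.Lib.CFT.Global.Places.LocAlgUnits

/-!
# The decomposition group is the Galois group of the extension of local fields

For number fields `L / K` with `IsGaloisGroup G K L`, a prime `w` of `𝓞 L` above the rational prime
`q` and the prime `v` of `𝓞 K` below `w`, the decomposition group of `w` is a Galois group of
`localField L q w` over `localField K q v` (the local fields being the quotients of `ℚ_q ⊗ L` and
`ℚ_q ⊗ K` by the corresponding maximal ideals).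
-/

open scoped TensorProduct NumberField Pointwise

noncomputable section

namespace Fermat.Agent.Lib.CFT.Global.Places.Galois

open Fermat.Agent.Lib.CFT.Global Fermat.Agent.Lib.CFT.Global.Places IsDedekindDomain EtaleAlg

set_option linter.style.haveILetI false

section FieldMap

variable {K L M : Type} [Field K] [NumberField K] [Field L] [NumberField L]
  [Field M] [NumberField M] {q : Nat.Primes}

/-- If `w` lies over `v`, the map `ℚ_q ⊗ K → ℚ_q ⊗ L` sends the maximal ideal at `v` into the
maximal ideal at `w`. -/
theorem locMap_mem_maxIdeal (f : K →+* L) (f₀ : 𝓞 K →+* 𝓞 L)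
    (hf : ∀ x : 𝓞 K, (f₀ x : L) = f (x : K)) {v : PrimesOver K q} {w : PrimesOver L q}
    (hvw : LiesOverAlong f₀ v w) {x : LocAlg K q} (hx : x ∈ maxIdeal K q v) :
    locMap f q x ∈ maxIdeal L q w := by
  unfold maxIdeal at hx
  obtain ⟨c, rfl⟩ := Ideal.mem_span_singleton'.mp hx
  rw [map_mul]
  apply Ideal.mul_mem_left
  have h1 : (1 : LocAlg K q) - locIdem K q v = toLocAlg K q (1 - intIdem K q v) := by
    rw [map_sub, map_one]; rfl
  rw [h1, ← toLocAlg_ohatMap q f f₀ hf, toLocAlg_mem_maxIdeal_iff]
  exact map_one_sub_idem_mem (Ohat.isAdicCompletionAt (𝓞 K) (pv q))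
    (Ohat.isAdicCompletionAt (𝓞 L) (pv q)) f₀ (map_natCast f₀ _) (ohatMap (pv q) f₀)
    (ohatMap_algebraMap (pv q) f₀) hvw

/-- The map of local fields `K_v → L_w` induced by a homomorphism of number fields, for `w` over
`v`. -/
def localFieldMap (f : K →+* L) (f₀ : 𝓞 K →+* 𝓞 L)
    (hf : ∀ x : 𝓞 K, (f₀ x : L) = f (x : K)) {v : PrimesOver K q} {w : PrimesOver L q}
    (hvw : LiesOverAlong f₀ v w) : localField K q v →+* localField L q w :=
  Ideal.quotientMap (maxIdeal L q w) (locMap f q).toRingHom
    (fun _ hx => locMap_mem_maxIdeal f f₀ hf hvw hx)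

@[simp] theorem localFieldMap_mk (f : K →+* L) (f₀ : 𝓞 K →+* 𝓞 L)
    (hf : ∀ x : 𝓞 K, (f₀ x : L) = f (x : K)) {v : PrimesOver K q} {w : PrimesOver L q}
    (hvw : LiesOverAlong f₀ v w) (x : LocAlg K q) :
    localFieldMap f f₀ hf hvw (Ideal.Quotient.mk _ x) = Ideal.Quotient.mk _ (locMap f q x) :=
  rfl

/-- `localFieldMap` extends `localIntMap`. -/
theorem localFieldMap_toLocalField (f : K →+* L) (f₀ : 𝓞 K →+* 𝓞 L)
    (hf : ∀ x : 𝓞 K, (f₀ x : L) = f (x : K)) {v : PrimesOver K q} {w : PrimesOver L q}
    (hvw : LiesOverAlong f₀ v w) (a : localInt K q v) :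
    localFieldMap f f₀ hf hvw (toLocalField K q v a) =
      toLocalField L q w (localIntMap f₀ hvw a) := by
  obtain ⟨a, rfl⟩ := Ideal.Quotient.mk_surjective a
  rw [toLocalField_mk, localFieldMap_mk, localIntMap_mk, toLocalField_mk,
    toLocAlg_ohatMap q f f₀ hf]

theorem localFieldMap_algebraMap_padic (f : K →+* L) (f₀ : 𝓞 K →+* 𝓞 L)
    (hf : ∀ x : 𝓞 K, (f₀ x : L) = f (x : K)) {v : PrimesOver K q} {w : PrimesOver L q}
    (hvw : LiesOverAlong f₀ v w) (a : ℚ_[pv q]) :
    localFieldMap f f₀ hf hvw (algebraMap ℚ_[pv q] (localField K q v) a) =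
      algebraMap ℚ_[pv q] (localField L q w) a := by
  have h1 : algebraMap ℚ_[pv q] (localField K q v) a =
      Ideal.Quotient.mk _ (algebraMap ℚ_[pv q] (LocAlg K q) a) := rfl
  have h2 : algebraMap ℚ_[pv q] (localField L q w) a =
      Ideal.Quotient.mk _ (algebraMap ℚ_[pv q] (LocAlg L q) a) := rfl
  rw [h1, h2, localFieldMap_mk, AlgHom.commutes]

end FieldMap

section StabAction

variable {L : Type} [Field L] [NumberField L] {q : Nat.Primes}
variable {G : Type} [Group G] [MulSemiringAction G L]

/-- The decomposition group of `w` (computed in `𝓞 L`) acts on the local field at `w`; this is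
the action of `Global/EtaleAlg` on the residue field of `ℚ_q ⊗ L` at the maximal ideal of `w`. -/
instance localFieldStabAction (w : PrimesOver L q) :
    MulSemiringAction (MulAction.stabilizer G w.1.asIdeal) (localField L q w) :=
  letI : MulSemiringAction (MulAction.stabilizer G (primesEquivMaximalSpectrum L q w))
      (localField L q w) := EtaleAlg.residueAction (primesEquivMaximalSpectrum L q w)
  MulSemiringAction.compHom (localField L q w)
    (Subgroup.inclusion (stabilizer_primesEquiv q w).ge)

theorem stab_smul_localField_mk (w : PrimesOver L q)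
    (g : MulAction.stabilizer G w.1.asIdeal) (x : LocAlg L q) :
    g • (Ideal.Quotient.mk (maxIdeal L q w) x : localField L q w) =
      Ideal.Quotient.mk (maxIdeal L q w) (g.1 • x) := rfl

/-- The embedding of the completed local ring in the local field is equivariant for the
decomposition group. -/
theorem stab_smul_toLocalField (w : PrimesOver L q)
    (g : MulAction.stabilizer G w.1.asIdeal) (b : localInt L q w) :
    g • toLocalField L q w b = toLocalField L q w (g • b) := by
  obtain ⟨b, rfl⟩ := Ideal.Quotient.mk_surjective b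
  rw [stabilizer_smul_mk, toLocalField_mk, toLocalField_mk, stab_smul_localField_mk,
    toLocAlg_smul]

instance smulDistribClass_localInt_localField (w : PrimesOver L q) :
    SMulDistribClass (MulAction.stabilizer G w.1.asIdeal) (localInt L q w)
      (localField L q w) where
  smul_distrib_smul g b x := by
    rw [Algebra.smul_def, Algebra.smul_def, smul_mul', algebraMap_localInt_localField,
      algebraMap_localInt_localField, stab_smul_toLocalField]

/-- The embedding `L → L_w` is equivariant for the decomposition group. -/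
theorem stab_smul_ofField (w : PrimesOver L q)
    (g : MulAction.stabilizer G w.1.asIdeal) (x : L) :
    g • ofField L q w x = ofField L q w (g.1 • x) := by
  rw [ofField_apply, ofField_apply, stab_smul_localField_mk, smul_tmul_locAlg]

/-- The decomposition group acts faithfully on `L_w` as soon as `G` acts faithfully on `L`. -/
instance faithfulSMul_localField [FaithfulSMul G L] (w : PrimesOver L q) :
    FaithfulSMul (MulAction.stabilizer G w.1.asIdeal) (localField L q w) where
  eq_of_smul_eq_smul {g h} hgh := by
    apply Subtype.ext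
    apply eq_of_smul_eq_smul (α := L)
    intro x
    apply ofField_injective w
    rw [← stab_smul_ofField, ← stab_smul_ofField, hgh]

/-- The action of the decomposition group on `L_w` is `ℚ_q`-linear. -/
theorem stab_smul_algebraMap_padic (w : PrimesOver L q)
    (g : MulAction.stabilizer G w.1.asIdeal) (a : ℚ_[pv q]) :
    g • algebraMap ℚ_[pv q] (localField L q w) a = algebraMap ℚ_[pv q] (localField L q w) a := by
  have h1 : algebraMap ℚ_[pv q] (localField L q w) a =
      Ideal.Quotient.mk _ (algebraMap ℚ_[pv q] (LocAlg L q) a) := rfl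
  rw [h1, stab_smul_localField_mk, Algebra.TensorProduct.algebraMap_apply, smul_tmul_locAlg,
    smul_one]

instance smulCommClass_padic_localField (w : PrimesOver L q) :
    SMulCommClass (MulAction.stabilizer G w.1.asIdeal) ℚ_[pv q] (localField L q w) where
  smul_comm g a x := by
    rw [Algebra.smul_def, Algebra.smul_def, smul_mul', stab_smul_algebraMap_padic]

end StabAction

section Galois

variable {K L : Type} [Field K] [NumberField K] [Field L] [NumberField L] [Algebra K L]
  {q : Nat.Primes}
variable {G : Type} [Group G] [MulSemiringAction G L]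

variable (K) in
/-- The prime of `𝓞 K` below the prime `w` of `𝓞 L`. -/
def primeBelow (w : PrimesOver L q) : PrimesOver K q :=
  under (algebraMap (𝓞 K) (𝓞 L)) (map_natCast _ _) (natCast_ne_zero' (𝓞 K) (pv q)) w

theorem liesOverAlong_primeBelow (w : PrimesOver L q) :
    LiesOverAlong (algebraMap (𝓞 K) (𝓞 L)) (primeBelow K w) w :=
  liesOverAlong_under _ _ _ w

theorem eq_primeBelow_of_liesOverAlong {v : PrimesOver K q} {w : PrimesOver L q}
    (hvw : LiesOverAlong (algebraMap (𝓞 K) (𝓞 L)) v w) : v = primeBelow K w :=
  eq_under_of_liesOverAlong _ _ _ hvw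

theorem primeBelow_asIdeal (w : PrimesOver L q) :
    (primeBelow K w).1.asIdeal = w.1.asIdeal.under (𝓞 K) := rfl

/-- `G` fixes the primes of the base field. -/
theorem liesOverAlong_smul_of_liesOverAlong [SMulCommClass G K L] (g : G)
    {v : PrimesOver K q} {w : PrimesOver L q}
    (hvw : LiesOverAlong (algebraMap (𝓞 K) (𝓞 L)) v w) :
    LiesOverAlong (algebraMap (𝓞 K) (𝓞 L)) v (g • w) := by
  intro x hx
  have h1 : g • algebraMap (𝓞 K) (𝓞 L) x ∈ g • w.1.asIdeal :=
    Ideal.smul_mem_pointwise_smul g _ _ (hvw x hx)
  have h2 : g • algebraMap (𝓞 K) (𝓞 L) x = algebraMap (𝓞 K) (𝓞 L) x := by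
    apply NumberField.RingOfIntegers.ext
    change g • algebraMap K L (x : K) = algebraMap K L (x : K)
    exact smul_algebraMap g (x : K)
  rwa [h2] at h1

/-- `G` acts transitively on the primes of `𝓞 L` above a given prime of `𝓞 K`. -/
theorem exists_smul_eq_of_liesOverAlong [Finite G] [IsGaloisGroup G K L] {v : PrimesOver K q}
    {w w' : PrimesOver L q} (hvw : LiesOverAlong (algebraMap (𝓞 K) (𝓞 L)) v w)
    (hvw' : LiesOverAlong (algebraMap (𝓞 K) (𝓞 L)) v w') : ∃ g : G, g • w = w' := by
  haveI : IsGaloisGroup G (𝓞 K) (𝓞 L) := IsGaloisGroup.of_isFractionRing G (𝓞 K) (𝓞 L) K L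
  have h1 : w.1.asIdeal.under (𝓞 K) = w'.1.asIdeal.under (𝓞 K) := by
    rw [← primeBelow_asIdeal, ← primeBelow_asIdeal, ← eq_primeBelow_of_liesOverAlong hvw,
      ← eq_primeBelow_of_liesOverAlong hvw']
  obtain ⟨g, hg⟩ := Algebra.IsInvariant.exists_smul_of_under_eq (𝓞 K) (𝓞 L) G
    w.1.asIdeal w'.1.asIdeal h1
  exact ⟨g, (smul_prime_eq_iff g w w').mpr hg.symm⟩

/-- The embedding of local fields `K_v → L_w` for `w` over `v`. -/
def localFieldBaseMap {v : PrimesOver K q} {w : PrimesOver L q}
    (hvw : LiesOverAlong (algebraMap (𝓞 K) (𝓞 L)) v w) : localField K q v →+* localField L q w :=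
  localFieldMap (algebraMap K L) (algebraMap (𝓞 K) (𝓞 L)) (fun _ => rfl) hvw

theorem localFieldBaseMap_mk {v : PrimesOver K q} {w : PrimesOver L q}
    (hvw : LiesOverAlong (algebraMap (𝓞 K) (𝓞 L)) v w) (x : LocAlg K q) :
    localFieldBaseMap hvw (Ideal.Quotient.mk _ x) =
      Ideal.Quotient.mk _ (locMap (algebraMap K L) q x) := rfl

theorem localFieldBaseMap_toLocalField {v : PrimesOver K q} {w : PrimesOver L q}
    (hvw : LiesOverAlong (algebraMap (𝓞 K) (𝓞 L)) v w) (a : localInt K q v) :
    localFieldBaseMap hvw (toLocalField K q v a) =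
      toLocalField L q w (localIntMap (algebraMap (𝓞 K) (𝓞 L)) hvw a) :=
  localFieldMap_toLocalField _ _ _ hvw a

/-- The algebra structure of `L_w` over `K_v`, for `w` over `v`. -/
@[reducible] def localFieldAlgebra {v : PrimesOver K q} {w : PrimesOver L q}
    (hvw : LiesOverAlong (algebraMap (𝓞 K) (𝓞 L)) v w) :
    Algebra (localField K q v) (localField L q w) :=
  (localFieldBaseMap hvw).toAlgebra

/-- **The decomposition group is the Galois group of the extension of local fields**. -/
theorem isGaloisGroup_localField [Finite G] [IsGaloisGroup G K L] {v : PrimesOver K q}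
    {w : PrimesOver L q} (hvw : LiesOverAlong (algebraMap (𝓞 K) (𝓞 L)) v w) :
    letI := localFieldAlgebra hvw
    IsGaloisGroup (MulAction.stabilizer G w.1.asIdeal) (localField K q v) (localField L q w) := by
  letI := localFieldAlgebra hvw
  letI := localIntAlgebra hvw
  letI : Algebra (localInt K q v) (localField L q w) :=
    ((algebraMap (localField K q v) (localField L q w)).comp
      (algebraMap (localInt K q v) (localField K q v))).toAlgebra
  haveI : IsScalarTower (localInt K q v) (localField K q v) (localField L q w) :=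
    IsScalarTower.of_algebraMap_eq (fun _ => rfl)
  haveI : IsScalarTower (localInt K q v) (localInt L q w) (localField L q w) :=
    IsScalarTower.of_algebraMap_eq (fun a => localFieldBaseMap_toLocalField hvw a)
  haveI : IsGaloisGroup G (𝓞 K) (𝓞 L) := IsGaloisGroup.of_isFractionRing G (𝓞 K) (𝓞 L) K L
  haveI := isGaloisGroup_localInt (G := G) hvw
  exact IsGaloisGroup.to_isFractionRing (MulAction.stabilizer G w.1.asIdeal)
    (localInt K q v) (localInt L q w) (localField K q v) (localField L q w)

/-- The same statement for the stabilizer of the point of the maximal spectrum of `ℚ_q ⊗ L`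
attached to `w`, acting through `EtaleAlg.residueAction` (conventions of `Global/EtaleAlg`). -/
theorem isGaloisGroup_localField' [Finite G] [IsGaloisGroup G K L] {v : PrimesOver K q}
    {w : PrimesOver L q} (hvw : LiesOverAlong (algebraMap (𝓞 K) (𝓞 L)) v w) :
    letI := localFieldAlgebra hvw
    letI : MulSemiringAction (MulAction.stabilizer G (primesEquivMaximalSpectrum L q w))
      (localField L q w) := EtaleAlg.residueAction (primesEquivMaximalSpectrum L q w)
    IsGaloisGroup (MulAction.stabilizer G (primesEquivMaximalSpectrum L q w))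
      (localField K q v) (localField L q w) := by
  letI := localFieldAlgebra hvw
  letI : MulSemiringAction (MulAction.stabilizer G (primesEquivMaximalSpectrum L q w))
    (localField L q w) := EtaleAlg.residueAction (primesEquivMaximalSpectrum L q w)
  haveI := isGaloisGroup_localField (G := G) hvw
  exact IsGaloisGroup.of_mulEquiv (G := MulAction.stabilizer G w.1.asIdeal)
    (MulEquiv.subgroupCongr (stabilizer_primesEquiv q w)) (fun _ _ => rfl)

end Galois

end Fermat.Agent.Lib.CFT.Global.Places.Galois
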