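import Mathlib
import Fermat.Agent.Lib.CFT.Global.Places.GaloisLocalField
import Fermat.Agent.Lib.CFT.Local.UnramCoh

/-!
# Units of the completed local ring at an unramified prime are cohomologically trivial

`L` a number field, `G` a finite group acting on `L`, `w` a prime of `𝓞 L` above the prime
number `q` with trivial inertia group.  The decomposition group `D_w` acts on the completed
local ring `localInt L q w`, and the unit group `(localInt L q w)ˣ` is a cohomologically trivial
`D_w`-module.  This instantiates `Local/UnramCoh` at the decomposition action of `Places/Galois*`.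
-/

set_option linter.unusedSectionVars false

open scoped NumberField Pointwise

noncomputable section

namespace Fermat.Agent.Lib.CFT.Global.Places.Galois

open Fermat.Agent.Lib.CFT.Global Fermat.Agent.Lib.CFT.Global.Places IsDedekindDomain IsLocalRing
  Fermat.Agent.Lib.CFT.LocalUnits CategoryTheory CategoryTheory.Limits groupCohomology

section Global

/-- Trivial inertia at `P` gives an element of the base ring of integers which is a uniformizer
at `P`. -/
theorem exists_mem_notMem_sq_of_inertia_eq_bot {K L : Type} [Field K] [NumberField K] [Field L]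
    [NumberField L] [Algebra K L] {G : Type} [Group G] [Finite G] [MulSemiringAction G L]
    [IsGaloisGroup G K L] (P : Ideal (𝓞 L)) [P.IsPrime] (hP : P ≠ ⊥)
    (h : Ideal.inertia G P = ⊥) :
    ∃ x : 𝓞 K, algebraMap (𝓞 K) (𝓞 L) x ∈ P ∧ algebraMap (𝓞 K) (𝓞 L) x ∉ P ^ 2 := by
  have : IsGaloisGroup G (𝓞 K) (𝓞 L) := IsGaloisGroup.of_isFractionRing G (𝓞 K) (𝓞 L) K L
  set p := P.under (𝓞 K) with hp
  have hp0 : p ≠ ⊥ := Ideal.under_ne_bot (𝓞 K) hP
  have : p.IsMaximal := Ideal.IsPrime.isMaximal inferInstance hp0
  have h1 : Nat.card (P.inertia G) = p.ramificationIdxIn (𝓞 L) :=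
    Ideal.card_inertia_eq_ramificationIdxIn p P
  rw [h, Subgroup.card_bot, Ideal.ramificationIdxIn_eq_ramificationIdx p P G,
    ← Ideal.ramificationIdx'_eq_ramificationIdx p P hp0] at h1
  have hle : p.map (algebraMap (𝓞 K) (𝓞 L)) ≤ P := Ideal.map_comap_le
  have h2 : ¬ p.map (algebraMap (𝓞 K) (𝓞 L)) ≤ P ^ 2 := by
    rw [← Ideal.ramificationIdx'_ne_one_iff hle]
    exact fun h => h h1.symm
  rw [Ideal.map_le_iff_le_comap, SetLike.not_le_iff_exists] at h2
  obtain ⟨x, hx, hx2⟩ := h2
  exact ⟨x, hx, hx2⟩

/-- A group acting on a number field with a trivial inertia group acts faithfully. -/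
theorem faithfulSMul_of_inertia_eq_bot {L : Type} [Field L] [NumberField L] {G : Type} [Group G]
    [MulSemiringAction G L] (P : Ideal (𝓞 L)) (h : Ideal.inertia G P = ⊥) :
    FaithfulSMul G L := by
  refine ⟨fun {g g'} hgg => ?_⟩
  have hmem : g'⁻¹ * g ∈ Ideal.inertia G P := by
    intro x
    have : (g'⁻¹ * g) • x = x := by
      apply NumberField.RingOfIntegers.ext
      show (g'⁻¹ * g) • (x : L) = x
      rw [mul_smul, hgg, inv_smul_smul]
    show (g'⁻¹ * g) • x - x ∈ P
    rw [this, sub_self]
    exact P.zero_mem
  rw [h, Subgroup.mem_bot] at hmem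
  exact (inv_mul_eq_one.mp hmem).symm

/-- The faithful form: an element of `𝓞 L`, fixed by `G`, which is a uniformizer at `P`. -/
theorem exists_fixed_mem_notMem_sq_of_inertia_eq_bot {L : Type} [Field L] [NumberField L]
    {G : Type} [Group G] [Finite G] [MulSemiringAction G L] (P : Ideal (𝓞 L)) [P.IsPrime]
    (hP : P ≠ ⊥) (h : Ideal.inertia G P = ⊥) :
    ∃ y : 𝓞 L, (∀ g : G, g • y = y) ∧ y ∈ P ∧ y ∉ P ^ 2 := by
  have := faithfulSMul_of_inertia_eq_bot P h
  obtain ⟨x, hx, hx2⟩ :=
    exists_mem_notMem_sq_of_inertia_eq_bot (K := FixedPoints.subfield G L) P hP h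
  refine ⟨algebraMap (𝓞 (FixedPoints.subfield G L)) (𝓞 L) x, fun g => ?_, hx, hx2⟩
  apply NumberField.RingOfIntegers.ext
  show g • algebraMap (FixedPoints.subfield G L) L (x : FixedPoints.subfield G L) = _
  exact smul_algebraMap g (x : FixedPoints.subfield G L)

end Global

section Local

variable {L : Type} [Field L] [NumberField L] {q : Nat.Primes}
variable {G : Type} [Group G] [MulSemiringAction G L]

instance finite_residueField_localInt (w : PrimesOver L q) :
    Finite (ResidueField (localInt L q w)) := by
  have : Finite (𝓞 L ⧸ w.1.asIdeal) := Ideal.finiteQuotientOfFreeOfNeBot _ w.1.ne_bot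
  exact Finite.of_equiv _ (LocalInt.residueFieldEquiv w).toEquiv

/-- The inertia group of the decomposition group acting on the completed local ring is the
inertia group at `w`. -/
theorem inertia_localInt_eq_bot (w : PrimesOver L q) (h : Ideal.inertia G w.1.asIdeal = ⊥) :
    Ideal.inertia (MulAction.stabilizer G w.1.asIdeal) (maximalIdeal (localInt L q w)) = ⊥ := by
  rw [eq_bot_iff]
  intro d hd
  rw [Subgroup.mem_bot]
  apply Subtype.ext
  show d.1 = 1
  rw [← Subgroup.mem_bot, ← h]
  intro x
  have h1 := hd (algebraMap (𝓞 L) (localInt L q w) x)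
  have h2 : d • algebraMap (𝓞 L) (localInt L q w) x - algebraMap (𝓞 L) (localInt L q w) x ∈
      maximalIdeal (localInt L q w) := h1
  rw [stabilizer_smul_algebraMap, ← map_sub, ← pow_one (maximalIdeal (localInt L q w)),
    LocalInt.algebraMap_mem_maximalIdeal_pow_iff, pow_one] at h2
  exact h2

/-- With trivial inertia at `w`, the decomposition group acts faithfully on the residue field
of the completed local ring. -/
theorem faithfulSMul_residueField_localInt (w : PrimesOver L q)
    (h : Ideal.inertia G w.1.asIdeal = ⊥) :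
    FaithfulSMul (MulAction.stabilizer G w.1.asIdeal) (ResidueField (localInt L q w)) :=
  faithfulSMul_residueField_of_inertia_eq_bot (inertia_localInt_eq_bot w h)

/-- With trivial inertia at `w`, the maximal ideal of the completed local ring is generated by
an element fixed by the decomposition group. -/
theorem exists_fixed_uniformizer_localInt [Finite G] (w : PrimesOver L q)
    (h : Ideal.inertia G w.1.asIdeal = ⊥) :
    ∃ π : localInt L q w, maximalIdeal (localInt L q w) = Ideal.span {π} ∧
      (∀ g : MulAction.stabilizer G w.1.asIdeal, g • π = π) ∧ ∀ b, π * b = 0 → b = 0 := by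
  obtain ⟨y, hy, hyP, hyP2⟩ :=
    exists_fixed_mem_notMem_sq_of_inertia_eq_bot (G := G) w.1.asIdeal w.1.ne_bot h
  refine ⟨algebraMap (𝓞 L) (localInt L q w) y, LocalInt.maximalIdeal_eq_span w hyP hyP2,
    fun g => ?_, fun b hb => ?_⟩
  · rw [stabilizer_smul_algebraMap, hy]
  · have hirr := LocalInt.irreducible_algebraMap w hyP hyP2
    exact (mul_eq_zero.mp hb).resolve_left hirr.ne_zero

attribute [local instance] Units.mulDistribMulActionRight

/-- **Units at an unramified prime are cohomologically trivial** for the decomposition group. -/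
theorem isCohTrivial_units_localInt [Finite G] (w : PrimesOver L q)
    (h : Ideal.inertia G w.1.asIdeal = ⊥) :
    Coh.IsCohTrivial
      (Rep.ofMulDistribMulAction (MulAction.stabilizer G w.1.asIdeal) (localInt L q w)ˣ) := by
  have := faithfulSMul_residueField_localInt w h
  obtain ⟨π, hπ, hfix, hreg⟩ := exists_fixed_uniformizer_localInt w h
  exact unram_isCohTrivial hπ hfix hreg

theorem isZero_groupCohomology_units_localInt [Finite G] (w : PrimesOver L q)
    (h : Ideal.inertia G w.1.asIdeal = ⊥) (n : ℕ) [NeZero n] :
    IsZero (groupCohomology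
      (Rep.ofMulDistribMulAction (MulAction.stabilizer G w.1.asIdeal) (localInt L q w)ˣ) n) := by
  have := faithfulSMul_residueField_localInt w h
  have := Fintype.ofFinite (MulAction.stabilizer G w.1.asIdeal)
  obtain ⟨π, hπ, hfix, hreg⟩ := exists_fixed_uniformizer_localInt w h
  exact unram_isZero_groupCohomology hπ hfix hreg n

theorem isZero_tateCohomology_units_localInt [Finite G] (w : PrimesOver L q)
    (h : Ideal.inertia G w.1.asIdeal = ⊥) (n : ℤ) :
    letI := Fintype.ofFinite (MulAction.stabilizer G w.1.asIdeal)
    IsZero (tateCohomology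
      (Rep.ofMulDistribMulAction (MulAction.stabilizer G w.1.asIdeal) (localInt L q w)ˣ) n) := by
  have := faithfulSMul_residueField_localInt w h
  let _ := Fintype.ofFinite (MulAction.stabilizer G w.1.asIdeal)
  obtain ⟨π, hπ, hfix, hreg⟩ := exists_fixed_uniformizer_localInt w h
  exact unram_isZero_tateCohomology hπ hfix hreg n

/-- `H¹(D_w, U_w) = 0` at an unramified prime, elementwise. -/
theorem isMulCoboundary₁_units_localInt [Finite G] (w : PrimesOver L q)
    (h : Ideal.inertia G w.1.asIdeal = ⊥)
    {f : MulAction.stabilizer G w.1.asIdeal → (localInt L q w)ˣ} (hf : IsMulCocycle₁ f) :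
    IsMulCoboundary₁ f := by
  have := faithfulSMul_residueField_localInt w h
  have := Fintype.ofFinite (MulAction.stabilizer G w.1.asIdeal)
  obtain ⟨π, hπ, hfix, hreg⟩ := exists_fixed_uniformizer_localInt w h
  exact unram_isMulCoboundary₁ hπ hfix hreg hf

/-- `H²(D_w, U_w) = 0` at an unramified prime, elementwise. -/
theorem isMulCoboundary₂_units_localInt [Finite G] (w : PrimesOver L q)
    (h : Ideal.inertia G w.1.asIdeal = ⊥)
    {f : MulAction.stabilizer G w.1.asIdeal × MulAction.stabilizer G w.1.asIdeal →
      (localInt L q w)ˣ} (hf : IsMulCocycle₂ f) :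
    IsMulCoboundary₂ f := by
  have := faithfulSMul_residueField_localInt w h
  have := Fintype.ofFinite (MulAction.stabilizer G w.1.asIdeal)
  obtain ⟨π, hπ, hfix, hreg⟩ := exists_fixed_uniformizer_localInt w h
  exact unram_isMulCoboundary₂ hπ hfix hreg hf

end Local

end Fermat.Agent.Lib.CFT.Global.Places.Galois
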