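import Mathlib
import Fermat.Agent.Lib.CFT.Global.Places.GaloisLocalField

/-!
# Unramified primes: trivial inertia gives a Galois-fixed uniformizer

If the inertia group of a prime `w` of `𝓞 L` in `G` is trivial, then a uniformizer of the prime `v`
of `𝓞 K` below `w` is a uniformizer at `w`; its image in the completed local ring `localInt L q w`
is a generator of the maximal ideal fixed by the decomposition group, and the decomposition group
acts with trivial inertia on `localInt L q w`.
-/

open scoped TensorProduct NumberField Pointwise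

noncomputable section

namespace Fermat.Agent.Lib.CFT.Global.Places.Galois

open Fermat.Agent.Lib.CFT.Global Fermat.Agent.Lib.CFT.Global.Places IsDedekindDomain IsLocalRing

set_option linter.style.haveILetI false

section Abstract

variable {O' : Type*} [CommRing O'] [IsDedekindDomain O'] [Module.Free ℤ O'] [Module.Finite ℤ O']
  [CharZero O'] {p : ℕ} [Fact p.Prime]
variable {G : Type*} [Group G] [MulSemiringAction G O']

/-- If the inertia group of `w` in `G` is trivial, the decomposition group acts with trivial inertia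
on the completed local ring at `w`. -/
theorem inertia_stabilizer_localInt_eq_bot {w : PrimesOverNat O' p}
    (h : Ideal.inertia G w.1.asIdeal = ⊥) :
    Ideal.inertia (MulAction.stabilizer G w.1.asIdeal) (maximalIdeal (LocalInt O' p w)) = ⊥ := by
  rw [eq_bot_iff]
  intro g hg
  rw [Subgroup.mem_bot]
  apply Subtype.ext
  have h1 : g.1 ∈ Ideal.inertia G w.1.asIdeal := by
    intro x
    have h2 := hg (algebraMap O' (LocalInt O' p w) x)
    rw [stabilizer_smul_algebraMap, ← map_sub] at h2
    have h3 := (LocalInt.algebraMap_mem_maximalIdeal_pow_iff w 1 (g.1 • x - x)).mp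
      (by rwa [pow_one])
    rwa [pow_one] at h3
  rw [h] at h1
  exact Subgroup.mem_bot.mp h1

/-- An element of `O'` fixed by `G` has image in `LocalInt O' p w` fixed by the decomposition
group. -/
theorem stabilizer_smul_algebraMap_of_fixed {w : PrimesOverNat O' p} {x : O'}
    (hx : ∀ g : G, g • x = x) (g : MulAction.stabilizer G w.1.asIdeal) :
    g • algebraMap O' (LocalInt O' p w) x = algebraMap O' (LocalInt O' p w) x := by
  rw [stabilizer_smul_algebraMap, hx]

end Abstract

section RamificationIdx

variable {R S : Type*} [CommRing R] [CommRing S] [Algebra R S] (p : Ideal R) (P : Ideal S)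

theorem not_map_le_sq_of_ramificationIdx'_eq_one (h : Ideal.ramificationIdx' p P = 1) :
    ¬ Ideal.map (algebraMap R S) p ≤ P ^ 2 := by
  intro h2
  unfold Ideal.ramificationIdx' at h
  by_cases hb : BddAbove {n | Ideal.map (algebraMap R S) p ≤ P ^ n}
  · have : 2 ≤ sSup {n | Ideal.map (algebraMap R S) p ≤ P ^ n} := le_csSup hb h2
    omega
  · have : sSup {n | Ideal.map (algebraMap R S) p ≤ P ^ n} = 0 := Nat.sSup_of_not_bddAbove hb
    omega

theorem exists_mem_map_not_mem_sq_of_ramificationIdx'_eq_one
    (h : Ideal.ramificationIdx' p P = 1) : ∃ π ∈ p, algebraMap R S π ∉ P ^ 2 := by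
  by_contra hcon
  push Not at hcon
  apply not_map_le_sq_of_ramificationIdx'_eq_one p P h
  rw [Ideal.map_le_iff_le_comap]
  exact fun x hx => hcon x hx

end RamificationIdx

section NumberField

variable {K L : Type} [Field K] [NumberField K] [Field L] [NumberField L] [Algebra K L]
  {q : Nat.Primes}
variable {G : Type} [Group G] [MulSemiringAction G L]

/-- **Unramified primes have a uniformizer in the base field**: if the inertia group of `w` is
trivial, some element of the prime `v` of `𝓞 K` below `w` is not in `w ^ 2`. -/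
theorem exists_mem_primeBelow_not_mem_sq [Finite G] [IsGaloisGroup G K L] (w : PrimesOver L q)
    (h : Ideal.inertia G w.1.asIdeal = ⊥) :
    ∃ π : 𝓞 K, π ∈ (primeBelow K w).1.asIdeal ∧ algebraMap (𝓞 K) (𝓞 L) π ∉ w.1.asIdeal ^ 2 := by
  haveI : IsGaloisGroup G (𝓞 K) (𝓞 L) := IsGaloisGroup.of_isFractionRing G (𝓞 K) (𝓞 L) K L
  set P : Ideal (𝓞 L) := w.1.asIdeal with hP
  set p : Ideal (𝓞 K) := (primeBelow K w).1.asIdeal with hp
  haveI : P.IsPrime := w.1.isPrime
  haveI : p.IsPrime := (primeBelow K w).1.isPrime
  haveI : P.LiesOver p := ⟨rfl⟩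
  have hp0 : p ≠ ⊥ := (primeBelow K w).1.ne_bot
  haveI : p.IsMaximal := (primeBelow K w).1.isMaximal
  have h1 : Nat.card (P.inertia G) = p.ramificationIdxIn (𝓞 L) :=
    Ideal.card_inertia_eq_ramificationIdxIn (G := G) p P
  have h2 : p.ramificationIdxIn (𝓞 L) = P.ramificationIdx (𝓞 K) :=
    Ideal.ramificationIdxIn_eq_ramificationIdx p P G
  have h3 : Ideal.ramificationIdx' p P = P.ramificationIdx (𝓞 K) :=
    Ideal.ramificationIdx'_eq_ramificationIdx p P hp0
  have h4 : Nat.card (P.inertia G) = 1 := by
    rw [h]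
    exact Subgroup.card_bot
  have h5 : Ideal.ramificationIdx' p P = 1 := by
    rw [h3, ← h2, ← h1, h4]
  exact exists_mem_map_not_mem_sq_of_ramificationIdx'_eq_one p P h5

/-- Same as `exists_mem_primeBelow_not_mem_sq`, packaged: a `G`-fixed element of `w \ w ^ 2`. -/
theorem exists_fixed_mem_not_mem_sq_of_isGaloisGroup [Finite G] [IsGaloisGroup G K L]
    (w : PrimesOver L q) (h : Ideal.inertia G w.1.asIdeal = ⊥) :
    ∃ π : 𝓞 L, (∀ g : G, g • π = π) ∧ π ∈ w.1.asIdeal ∧ π ∉ w.1.asIdeal ^ 2 := by
  obtain ⟨π, hπ, hπ2⟩ := exists_mem_primeBelow_not_mem_sq (K := K) w h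
  haveI : IsGaloisGroup G (𝓞 K) (𝓞 L) := IsGaloisGroup.of_isFractionRing G (𝓞 K) (𝓞 L) K L
  haveI : SMulCommClass G (𝓞 K) (𝓞 L) := IsGaloisGroup.commutes
  exact ⟨algebraMap (𝓞 K) (𝓞 L) π, fun g => smul_algebraMap g π, hπ, hπ2⟩

end NumberField

section Faithful

variable {L : Type} [Field L] [NumberField L] {q : Nat.Primes}
variable {G : Type} [Group G] [MulSemiringAction G L]

/-- **Trivial inertia gives a `G`-fixed uniformizer**: if `G` is a finite group acting faithfully on
the number field `L` and the inertia group of the prime `w` of `𝓞 L` is trivial, then there is a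
`G`-fixed element of `w \ w ^ 2`. -/
theorem exists_fixed_mem_not_mem_sq [Finite G] [FaithfulSMul G L] (w : PrimesOver L q)
    (h : Ideal.inertia G w.1.asIdeal = ⊥) :
    ∃ π : 𝓞 L, (∀ g : G, g • π = π) ∧ π ∈ w.1.asIdeal ∧ π ∉ w.1.asIdeal ^ 2 :=
  exists_fixed_mem_not_mem_sq_of_isGaloisGroup (K := FixedPoints.subfield G L) w h

/-- **Local form**: if the inertia group of `w` is trivial, the maximal ideal of the completed local
ring at `w` is generated by a non-zero-divisor fixed by the decomposition group. -/
theorem exists_fixed_generator_maximalIdeal [Finite G] [FaithfulSMul G L] (w : PrimesOver L q)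
    (h : Ideal.inertia G w.1.asIdeal = ⊥) :
    ∃ ϖ : localInt L q w, maximalIdeal (localInt L q w) = Ideal.span {ϖ} ∧
      (∀ g : MulAction.stabilizer G w.1.asIdeal, g • ϖ = ϖ) ∧
      (∀ b : localInt L q w, ϖ * b = 0 → b = 0) ∧ Irreducible ϖ := by
  obtain ⟨π, hfix, hπ, hπ2⟩ := exists_fixed_mem_not_mem_sq w h
  refine ⟨algebraMap (𝓞 L) (localInt L q w) π, LocalInt.maximalIdeal_eq_span w hπ hπ2,
    fun g => stabilizer_smul_algebraMap_of_fixed hfix g, ?_,
    LocalInt.irreducible_algebraMap w hπ hπ2⟩
  intro b hb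
  have hne : algebraMap (𝓞 L) (localInt L q w) π ≠ 0 :=
    (LocalInt.irreducible_algebraMap w hπ hπ2).ne_zero
  exact (mul_eq_zero.mp hb).resolve_left hne

end Faithful

end Fermat.Agent.Lib.CFT.Global.Places.Galois
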