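import Mathlib
import Fermat.Agent.Lib.CFT.Global.Places.LocAlgUnits
import Fermat.Agent.Lib.CFT.Local.UnitsFiltration
import Fermat.Agent.Lib.CFT.Global.SUnits

/-!
# The valuations `ordAt v` on `(ℚ_q ⊗ L)ˣ`

* `ordAt v : (LocAlg L q)ˣ →* Multiplicative ℤ` (normalised: uniformizer ↦ `ofAdd 1`)
* `ordAt_locUnit`: on `Lˣ` it is the `v`-adic valuation `SUnits.ordAt v.1`
* `mem_locIntUnits_iff_ordAt`: the integral units are the common kernel
* `exists_ordAt_eq`: all families of values are attained.
-/

set_option maxHeartbeats 400000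

open scoped TensorProduct NumberField WithZero

noncomputable section

namespace Fermat.Agent.Lib.CFT.Global.Places

open Module Fermat.Agent.Lib.CFT.Global IsDedekindDomain IsLocalRing
open Fermat.Agent.Lib.CFT.Local

section DVR

variable {B : Type*} [CommRing B] [IsDomain B] [IsDiscreteValuationRing B]
variable {F : Type*} [Field F] [Algebra B F] [IsFractionRing B F]

/-- `n ≤ ord x ↔ x ∈ 𝔪^n` for integral `x`. -/
theorem natCast_le_ord_iff (x : Fˣ) (b : B) (hb : (x : F) = algebraMap B F b) (n : ℕ) :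
    (n : ℤ) ≤ UnitsFiltration.ord B F x ↔ b ∈ maximalIdeal B ^ n := by
  have h := UnitsFiltration.dvrVal_eq_exp_neg_ord (B := B) x
  rw [hb, HeightOneSpectrum.valuation_of_algebraMap] at h
  have h2 := HeightOneSpectrum.intValuation_le_pow_iff_mem
    (IsDiscreteValuationRing.maximalIdeal B) b n
  rw [h, WithZero.exp_le_exp, neg_le_neg_iff] at h2
  exact h2

theorem ord_nonneg_of_eq_algebraMap (x : Fˣ) (b : B) (hb : (x : F) = algebraMap B F b) :
    0 ≤ UnitsFiltration.ord B F x := by
  have := (natCast_le_ord_iff x b hb 0).mpr (by simp)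
  simpa using this

end DVR

variable (L : Type) [Field L] [NumberField L] (q : Nat.Primes)

/-- The projection `(ℚ_q ⊗ L)ˣ → L_vˣ`. -/
def unitsProj (v : PrimesOver L q) : (LocAlg L q)ˣ →* (localField L q v)ˣ :=
  Units.map (Ideal.Quotient.mk (maxIdeal L q v) : LocAlg L q →* localField L q v)

variable {L q}

@[simp]
theorem coe_unitsProj (v : PrimesOver L q) (u : (LocAlg L q)ˣ) :
    ((unitsProj L q v u : (localField L q v)ˣ) : localField L q v) =
      Ideal.Quotient.mk (maxIdeal L q v) (u : LocAlg L q) := rfl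

theorem unitsProj_eq (v : PrimesOver L q) (u : (LocAlg L q)ˣ) :
    unitsProj L q v u = locAlgUnitsEquivPi L q u v := Units.ext rfl

theorem unitsProj_locUnit (v : PrimesOver L q) (x : Lˣ) :
    unitsProj L q v (locUnit L q x) = Units.map (ofField L q v : L →* localField L q v) x :=
  Units.ext rfl

/-- The normalised `v`-adic valuation on `(ℚ_q ⊗ L)ˣ`. -/
def ordAt (v : PrimesOver L q) : (LocAlg L q)ˣ →* Multiplicative ℤ :=
  (UnitsFiltration.ordHom (localInt L q v) (localField L q v)).comp (unitsProj L q v)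

theorem ordAt_apply (v : PrimesOver L q) (u : (LocAlg L q)ˣ) :
    ordAt v u = Multiplicative.ofAdd
      (UnitsFiltration.ord (localInt L q v) (localField L q v) (unitsProj L q v u)) := rfl

/-- The integral units are the common kernel of the `ordAt v`. -/
theorem mem_locIntUnits_iff_ordAt (u : (LocAlg L q)ˣ) :
    u ∈ locIntUnits L q ↔ ∀ v : PrimesOver L q, ordAt v u = 1 := by
  rw [mem_locIntUnits_iff_forall]
  refine forall_congr' fun v => ?_
  rw [ordAt_apply, ← ofAdd_zero, Multiplicative.ofAdd.apply_eq_iff_eq,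
    UnitsFiltration.ord_eq_zero_iff]
  rfl

/-- Every family of valuations is attained. -/
theorem exists_ordAt_eq (f : PrimesOver L q → ℤ) :
    ∃ u : (LocAlg L q)ˣ, ∀ v, ordAt v u = Multiplicative.ofAdd (f v) := by
  have h : ∀ v : PrimesOver L q, ∃ x : (localField L q v)ˣ,
      UnitsFiltration.ord (localInt L q v) (localField L q v) x = f v :=
    fun v => UnitsFiltration.ord_surjective (f v)
  choose x hx using h
  obtain ⟨u, hu⟩ := (locAlgUnitsEquivPi L q).surjective x
  refine ⟨u, fun v => ?_⟩
  rw [ordAt_apply, unitsProj_eq, hu, hx]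

/-- On integers, `ordAt` is the `v`-adic valuation. -/
theorem ord_ofField_algebraMap (v : PrimesOver L q) (a : 𝓞 L) (ha : (a : L) ≠ 0) :
    UnitsFiltration.ord (localInt L q v) (localField L q v)
      (Units.map (ofField L q v : L →* localField L q v) (Units.mk0 (a : L) ha)) =
      SUnits.ordAt v.1 (Units.mk0 (a : L) ha) := by
  set x := Units.map (ofField L q v : L →* localField L q v) (Units.mk0 (a : L) ha) with hx
  have hxa : (x : localField L q v) = algebraMap (localInt L q v) (localField L q v)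
      (algebraMap (𝓞 L) (localInt L q v) a) := by
    rw [← ofField_algebraMap]
    rfl
  have h1 : ∀ n : ℕ, (n : ℤ) ≤ UnitsFiltration.ord (localInt L q v) (localField L q v) x ↔
      a ∈ v.1.asIdeal ^ n := by
    intro n
    rw [natCast_le_ord_iff x _ hxa n]
    exact LocalInt.algebraMap_mem_maximalIdeal_pow_iff v n a
  have h2 : ∀ n : ℕ, (n : ℤ) ≤ SUnits.ordAt v.1 (Units.mk0 (a : L) ha) ↔
      a ∈ v.1.asIdeal ^ n := by
    intro n
    have h : v.1.valuation L (algebraMap (𝓞 L) L a) =
        WithZero.exp (-SUnits.ordAt v.1 (Units.mk0 (a : L) ha)) :=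
      SUnits.valuation_eq_exp_neg_ordAt v.1 (Units.mk0 (a : L) ha)
    rw [HeightOneSpectrum.valuation_of_algebraMap] at h
    have h3 := HeightOneSpectrum.intValuation_le_pow_iff_mem v.1 a n
    rw [h, WithZero.exp_le_exp, neg_le_neg_iff] at h3
    exact h3
  have h01 : 0 ≤ UnitsFiltration.ord (localInt L q v) (localField L q v) x := by
    have := (h1 0).mpr (by simp)
    simpa using this
  have h02 : 0 ≤ SUnits.ordAt v.1 (Units.mk0 (a : L) ha) := by
    have := (h2 0).mpr (by simp)
    simpa using this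
  apply le_antisymm
  · have := (h2 _).mpr ((h1 (UnitsFiltration.ord (localInt L q v) (localField L q v) x).toNat).mp
      (by rw [Int.toNat_of_nonneg h01]))
    rwa [Int.toNat_of_nonneg h01] at this
  · have := (h1 _).mpr ((h2 (SUnits.ordAt v.1 (Units.mk0 (a : L) ha)).toNat).mp
      (by rw [Int.toNat_of_nonneg h02]))
    rwa [Int.toNat_of_nonneg h02] at this

/-- On `Lˣ`, `ordAt v` is the `v`-adic valuation. -/
theorem ordAt_locUnit (v : PrimesOver L q) (x : Lˣ) :
    ordAt v (locUnit L q x) = Multiplicative.ofAdd (SUnits.ordAt v.1 x) := by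
  obtain ⟨a, b, hb, hab⟩ := IsFractionRing.div_surjective (A := 𝓞 L) (x : L)
  have hb0 : ((b : 𝓞 L) : L) ≠ 0 := by
    rw [NumberField.RingOfIntegers.coe_eq_algebraMap]
    exact IsFractionRing.to_map_ne_zero_of_mem_nonZeroDivisors hb
  have ha0 : ((a : 𝓞 L) : L) ≠ 0 := by
    intro h0
    rw [NumberField.RingOfIntegers.coe_eq_algebraMap] at h0
    rw [h0, zero_div] at hab
    exact x.ne_zero hab.symm
  have hx : x * Units.mk0 (b : L) hb0 = Units.mk0 (a : L) ha0 := by
    ext
    rw [Units.val_mul, Units.val_mk0, Units.val_mk0, ← hab,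
      NumberField.RingOfIntegers.coe_eq_algebraMap, NumberField.RingOfIntegers.coe_eq_algebraMap,
      div_mul_cancel₀]
    rwa [NumberField.RingOfIntegers.coe_eq_algebraMap] at hb0
  have key : ∀ (c : 𝓞 L) (hc : (c : L) ≠ 0), ordAt v (locUnit L q (Units.mk0 (c : L) hc)) =
      Multiplicative.ofAdd (SUnits.ordAt v.1 (Units.mk0 (c : L) hc)) := by
    intro c hc
    rw [ordAt_apply, unitsProj_locUnit, ord_ofField_algebraMap]
  have h1 : ordAt v (locUnit L q x) * ordAt v (locUnit L q (Units.mk0 (b : L) hb0)) =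
      ordAt v (locUnit L q (Units.mk0 (a : L) ha0)) := by
    rw [← map_mul, ← map_mul, hx]
  rw [key, key, ← hx, SUnits.ordAt_mul, ofAdd_add] at h1
  exact mul_right_cancel h1

theorem toAdd_ordAt_locUnit (v : PrimesOver L q) (x : Lˣ) :
    Multiplicative.toAdd (ordAt v (locUnit L q x)) = SUnits.ordAt v.1 x := by
  rw [ordAt_locUnit, toAdd_ofAdd]

end Fermat.Agent.Lib.CFT.Global.Places
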