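import Mathlib
import Fermat.Agent.Lib.CFT.Global.Places.OrdAt
import Fermat.Agent.Lib.CFT.Global.Places.GaloisDecomp
import Fermat.Agent.Lib.CFT.Global.EtaleAlg

/-!
# The Galois action on `ℚ_q ⊗ L` and on the primes above `q`

`G` a group acting on the number field `L` by ring automorphisms.  The action of `G` on
`LocAlg L q` (through the second factor) permutes the idempotents `locIdem L q v` and the maximal
ideals `maxIdeal L q v` according to the action of `G` on the primes of `𝓞 L` above `q`:
`primesEquivMaximalSpectrum` is `G`-equivariant.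
-/

set_option maxHeartbeats 400000

open scoped TensorProduct NumberField Pointwise

noncomputable section

namespace Fermat.Agent.Lib.CFT.Global.Places

open Module Fermat.Agent.Lib.CFT.Global IsDedekindDomain IsLocalRing
open Fermat.Agent.Lib.CFT.Global.Places.Galois
open Fermat.Agent.Lib.CFT.Global.EtaleAlg

variable {L : Type} [Field L] [NumberField L] {q : Nat.Primes}
variable {G : Type} [Group G] [MulSemiringAction G L]

theorem smul_one_tmul (g : G) (a : ℚ_[pv q]) (x : L) :
    g • (a ⊗ₜ[ℚ] x : LocAlg L q) = a ⊗ₜ[ℚ] (g • x) := by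
  change locMap (MulSemiringAction.toRingHom G L g) q (a ⊗ₜ[ℚ] x) = _
  rw [locMap_tmul]
  rfl

/-- `toLocAlg` is `G`-equivariant. -/
theorem toLocAlg_ohatMap_smul (g : G) (a : Ohat (𝓞 L) (pv q)) :
    toLocAlg L q (ohatMap (pv q) (MulSemiringAction.toRingHom G (𝓞 L) g) a) =
      g • toLocAlg L q a := by
  induction a using Ohat.induction_on with
  | zero => rw [map_zero, map_zero, smul_zero]
  | tmul a x =>
    rw [ohatMap_tmul, toLocAlg_tmul, toLocAlg_tmul, smul_one_tmul]
    rfl
  | add y z hy hz => rw [map_add, map_add, map_add, smul_add, hy, hz]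

/-- `G` permutes the idempotents of `ℚ_q ⊗ L`. -/
theorem smul_locIdem (g : G) (v : PrimesOver L q) :
    g • locIdem L q v = locIdem L q (g • v) := by
  unfold locIdem
  rw [← toLocAlg_ohatMap_smul, ohatMap_smul_idem]

/-- `G` permutes the maximal ideals of `ℚ_q ⊗ L`. -/
theorem smul_maxIdeal (g : G) (v : PrimesOver L q) :
    g • maxIdeal L q v = maxIdeal L q (g • v) := by
  unfold maxIdeal
  rw [Ideal.pointwise_smul_def, Ideal.map_span, Set.image_singleton]
  congr 2
  change g • (1 - locIdem L q v) = _
  rw [smul_sub, smul_one, smul_locIdem]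

/-- The bijection between primes above `q` and maximal ideals of `ℚ_q ⊗ L` is `G`-equivariant. -/
theorem primesEquivMaximalSpectrum_smul (g : G) (v : PrimesOver L q) :
    primesEquivMaximalSpectrum L q (g • v) = g • primesEquivMaximalSpectrum L q v := by
  apply MaximalSpectrum.ext
  rw [smul_asIdeal, primesEquivMaximalSpectrum_asIdeal, primesEquivMaximalSpectrum_asIdeal,
    smul_maxIdeal]

theorem primesEquivMaximalSpectrum_symm_smul (g : G) (m : MaximalSpectrum (LocAlg L q)) :
    (primesEquivMaximalSpectrum L q).symm (g • m) = g • (primesEquivMaximalSpectrum L q).symm m := by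
  rw [Equiv.symm_apply_eq, primesEquivMaximalSpectrum_smul, Equiv.apply_symm_apply]

/-- The three descriptions of the decomposition group coincide. -/
theorem stabilizer_primesEquivMaximalSpectrum (v : PrimesOver L q) :
    MulAction.stabilizer G (primesEquivMaximalSpectrum L q v) = MulAction.stabilizer G v := by
  ext g
  rw [MulAction.mem_stabilizer_iff, MulAction.mem_stabilizer_iff, ← primesEquivMaximalSpectrum_smul,
    (primesEquivMaximalSpectrum L q).apply_eq_iff_eq]

theorem stabilizer_prime_eq (v : PrimesOver L q) :
    MulAction.stabilizer G v = MulAction.stabilizer G v.1.asIdeal := by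
  ext g
  rw [MulAction.mem_stabilizer_iff, MulAction.mem_stabilizer_iff, smul_prime_eq_iff]

/-- The isomorphism `L_v ≃ L_{g v}` induced by `g`. -/
def localFieldMap (g : G) (v : PrimesOver L q) : localField L q v ≃+* localField L q (g • v) :=
  Ideal.quotientEquiv (maxIdeal L q v) (maxIdeal L q (g • v))
    (MulSemiringAction.toRingEquiv G (LocAlg L q) g) (by
      rw [← smul_maxIdeal]
      rfl)

@[simp]
theorem localFieldMap_mk (g : G) (v : PrimesOver L q) (y : LocAlg L q) :
    localFieldMap g v (Ideal.Quotient.mk (maxIdeal L q v) y) =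
      Ideal.Quotient.mk (maxIdeal L q (g • v)) (g • y) := rfl

theorem localFieldMap_ofField (g : G) (v : PrimesOver L q) (x : L) :
    localFieldMap g v (ofField L q v x) = ofField L q (g • v) (g • x) := by
  rw [ofField_apply, localFieldMap_mk, smul_one_tmul, ofField_apply]

/-- Compatibility with helper94's `localIntMap` on the valuation rings. -/
theorem localFieldMap_algebraMap (g : G) (v : PrimesOver L q) (a : localInt L q v) :
    localFieldMap g v (algebraMap (localInt L q v) (localField L q v) a) =
      algebraMap (localInt L q (g • v)) (localField L q (g • v))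
        (localIntMap (MulSemiringAction.toRingHom G (𝓞 L) g) (liesOverAlong_smul g v) a) := by
  obtain ⟨a, rfl⟩ := Ideal.Quotient.mk_surjective a
  rw [localIntMap_mk]
  change localFieldMap g v (Ideal.Quotient.mk _ (toLocAlg L q a)) =
    Ideal.Quotient.mk _ (toLocAlg L q _)
  rw [localFieldMap_mk, toLocAlg_ohatMap_smul]

/-- The components of `g • y`. -/
theorem locAlgEquivPi_smul (g : G) (y : LocAlg L q) (v : PrimesOver L q) :
    locAlgEquivPi L q (g • y) (g • v) = localFieldMap g v (locAlgEquivPi L q y v) := rfl

end Fermat.Agent.Lib.CFT.Global.Places
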