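import Mathlib
import Fermat.Agent.Lib.CFT.Global.Places.LocalFactor

/-!
# Ring automorphisms and the local factors of a `q`-adic completion (P-CFT, Global/Places part 3)

Abstract setting of `AdicDecomp`: `O` a Dedekind domain, `q : O`, `A` a `q`-adic completion of `O`.
A pair of compatible ring automorphisms `σ` of `O` (fixing `q`) and `τ` of `A` permutes the
idempotents `idem v` in the same way as `σ` permutes the primes above `q`, and induces
isomorphisms between the local factors.
-/

namespace Fermat.Agent.Lib.CFT.Global.Places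

open IsDedekindDomain IsDedekindDomain.HeightOneSpectrum

section RamExp

variable {O : Type*} [CommRing O] [IsDedekindDomain O]

theorem le_ramExp_iff {q : O} (hq : q ≠ 0) (v : HeightOneSpectrum O) (k : ℕ) :
    k ≤ ramExp q v ↔ q ∈ v.asIdeal ^ k := by
  have hI : Ideal.span {q} ≠ 0 := by simpa [Ideal.span_singleton_eq_bot] using hq
  unfold ramExp
  rw [← Associates.prime_pow_dvd_iff_le (Associates.mk_ne_zero.mpr hI) v.associates_irreducible,
    ← Associates.mk_pow, Associates.mk_le_mk_iff_dvd, Ideal.dvd_span_singleton]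

/-- Image of a prime of `O` under a ring automorphism. -/
noncomputable def mapPrime (σ : O ≃+* O) (v : HeightOneSpectrum O) : HeightOneSpectrum O :=
  equivOfRingEquiv σ v

omit [IsDedekindDomain O] in
theorem mem_mapPrime_iff (σ : O ≃+* O) (v : HeightOneSpectrum O) (x : O) :
    x ∈ (mapPrime σ v).asIdeal ↔ σ.symm x ∈ v.asIdeal := Iff.rfl

theorem apply_mem_mapPrime_iff (σ : O ≃+* O) (v : HeightOneSpectrum O) (x : O) :
    σ x ∈ (mapPrime σ v).asIdeal ↔ x ∈ v.asIdeal := by
  rw [mem_mapPrime_iff, RingEquiv.symm_apply_apply]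

theorem mapPrime_asIdeal (σ : O ≃+* O) (v : HeightOneSpectrum O) :
    (mapPrime σ v).asIdeal = v.asIdeal.map (σ : O →+* O) := by
  ext x
  rw [mem_mapPrime_iff]
  constructor
  · intro hx
    have := Ideal.mem_map_of_mem (σ : O →+* O) hx
    simpa using this
  · intro hx
    have h1 : v.asIdeal.map (σ : O →+* O) = v.asIdeal.comap (σ.symm : O →+* O) :=
      Ideal.map_comap_of_equiv σ
    rw [h1] at hx
    exact hx

theorem mapPrime_asIdeal_pow (σ : O ≃+* O) (v : HeightOneSpectrum O) (k : ℕ) :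
    (mapPrime σ v).asIdeal ^ k = (v.asIdeal ^ k).map (σ : O →+* O) := by
  rw [mapPrime_asIdeal, Ideal.map_pow]

theorem apply_mem_mapPrime_pow_iff (σ : O ≃+* O) (v : HeightOneSpectrum O) (k : ℕ) (x : O) :
    σ x ∈ (mapPrime σ v).asIdeal ^ k ↔ x ∈ v.asIdeal ^ k := by
  rw [mapPrime_asIdeal_pow]
  have h1 : (v.asIdeal ^ k).map (σ : O →+* O) = (v.asIdeal ^ k).comap (σ.symm : O →+* O) :=
    Ideal.map_comap_of_equiv σ
  rw [h1, Ideal.mem_comap]
  simp

theorem mapPrime_refl (v : HeightOneSpectrum O) : mapPrime (RingEquiv.refl O) v = v := by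
  ext x
  rw [mem_mapPrime_iff]
  rfl

theorem mapPrime_trans (σ σ' : O ≃+* O) (v : HeightOneSpectrum O) :
    mapPrime (σ.trans σ') v = mapPrime σ' (mapPrime σ v) := by
  ext x
  simp only [mem_mapPrime_iff]
  rfl

theorem mapPrime_symm_mapPrime (σ : O ≃+* O) (v : HeightOneSpectrum O) :
    mapPrime σ.symm (mapPrime σ v) = v := by
  rw [← mapPrime_trans, RingEquiv.self_trans_symm, mapPrime_refl]

theorem mapPrime_mapPrime_symm (σ : O ≃+* O) (v : HeightOneSpectrum O) :
    mapPrime σ (mapPrime σ.symm v) = v := by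
  rw [← mapPrime_trans, RingEquiv.symm_trans_self, mapPrime_refl]

theorem ramExp_mapPrime {q : O} (hq : q ≠ 0) (σ : O ≃+* O) (v : HeightOneSpectrum O) :
    ramExp (σ q) (mapPrime σ v) = ramExp q v := by
  have hσq : σ q ≠ 0 := (map_ne_zero_iff σ σ.injective).mpr hq
  refine eq_of_forall_le_iff fun k => ?_
  rw [le_ramExp_iff hσq, le_ramExp_iff hq, apply_mem_mapPrime_pow_iff]

theorem apply_mem_primePow_mapPrime_iff {q : O} (hq : q ≠ 0) (σ : O ≃+* O)
    (v : HeightOneSpectrum O) (x : O) :
    σ x ∈ primePow (σ q) (mapPrime σ v) ↔ x ∈ primePow q v := by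
  unfold primePow
  rw [ramExp_mapPrime hq, apply_mem_mapPrime_pow_iff]

/-- The action of an automorphism fixing `q` on the primes above `q`. -/
noncomputable def mapPrimesAbove {q : O} (σ : O ≃+* O) (hσ : σ q = q) (v : PrimesAbove O q) :
    PrimesAbove O q :=
  ⟨mapPrime σ v.1, by
    rw [mem_mapPrime_iff]
    have : σ.symm q = q := by rw [RingEquiv.symm_apply_eq, hσ]
    rw [this]; exact v.2⟩

@[simp]
theorem mapPrimesAbove_val {q : O} (σ : O ≃+* O) (hσ : σ q = q) (v : PrimesAbove O q) :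
    (mapPrimesAbove σ hσ v).1 = mapPrime σ v.1 := rfl

omit [IsDedekindDomain O] in
theorem symm_apply_eq_self {q : O} {σ : O ≃+* O} (hσ : σ q = q) : σ.symm q = q := by
  rw [RingEquiv.symm_apply_eq, hσ]

theorem mapPrimesAbove_symm_mapPrimesAbove {q : O} (σ : O ≃+* O) (hσ : σ q = q)
    (v : PrimesAbove O q) :
    mapPrimesAbove σ.symm (symm_apply_eq_self hσ) (mapPrimesAbove σ hσ v) = v :=
  Subtype.ext (mapPrime_symm_mapPrime σ v.1)

theorem mapPrimesAbove_mapPrimesAbove_symm {q : O} (σ : O ≃+* O) (hσ : σ q = q)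
    (v : PrimesAbove O q) :
    mapPrimesAbove σ hσ (mapPrimesAbove σ.symm (symm_apply_eq_self hσ) v) = v :=
  Subtype.ext (mapPrime_mapPrime_symm σ v.1)

end RamExp

section Idem

variable {O : Type*} [CommRing O] [IsDedekindDomain O] {q : O}
variable {A : Type*} [CommRing A] [Algebra O A]

/-- Compatibility of a pair of automorphisms of `O` and `A`. -/
def IsCompat (σ : O ≃+* O) (τ : A ≃+* A) : Prop :=
  ∀ x : O, τ (algebraMap O A x) = algebraMap O A (σ x)

omit [IsDedekindDomain O] in
theorem IsCompat.symm {σ : O ≃+* O} {τ : A ≃+* A} (hc : IsCompat σ τ) :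
    IsCompat σ.symm τ.symm := by
  intro x
  rw [RingEquiv.symm_apply_eq, hc, RingEquiv.apply_symm_apply]

omit [IsDedekindDomain O] in
theorem IsCompat.trans {σ σ' : O ≃+* O} {τ τ' : A ≃+* A} (hc : IsCompat σ τ)
    (hc' : IsCompat σ' τ') : IsCompat (σ.trans σ') (τ.trans τ') := by
  intro x
  simp only [RingEquiv.trans_apply]
  rw [hc, hc']

omit [IsDedekindDomain O] in
theorem IsCompat.refl : IsCompat (RingEquiv.refl O) (RingEquiv.refl A) := fun _ => rfl

omit [IsDedekindDomain O] in
theorem IsCompat.map_span_q {σ : O ≃+* O} {τ : A ≃+* A} (hc : IsCompat σ τ) (hσ : σ q = q)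
    {a : A} (ha : a ∈ Ideal.span {algebraMap O A q}) :
    τ a ∈ Ideal.span {algebraMap O A q} := by
  obtain ⟨c, rfl⟩ := Ideal.mem_span_singleton'.mp ha
  rw [map_mul, hc, hσ]
  exact Ideal.mul_mem_left _ _ (Ideal.mem_span_singleton_self _)

namespace IsAdicCompletionAt

variable (h : IsAdicCompletionAt O q A)
include h

/-- **Equivariance of the idempotents**: `τ (idem v) = idem (σ v)`. -/
theorem map_idem {σ : O ≃+* O} {τ : A ≃+* A} (hc : IsCompat σ τ) (hσ : σ q = q)
    (v : PrimesAbove O q) :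
    τ (idem O q A v) = idem O q A (mapPrimesAbove σ hσ v) := by
  obtain ⟨he, b, ⟨hb1, hb2⟩, heb⟩ := h.idem_spec v
  refine h.eq_idem (b := σ b) ?_ ?_ ?_ ?_
  · unfold IsIdempotentElem
    rw [← map_mul, he.eq]
  · have h1 : σ b - 1 = σ (b - 1) := by rw [map_sub, map_one]
    rw [h1, mapPrimesAbove_val]
    have := (apply_mem_primePow_mapPrime_iff h.ne_zero σ v.1 (b - 1)).mpr hb1
    rwa [hσ] at this
  · intro w hw
    have hw' : mapPrimesAbove σ.symm (symm_apply_eq_self hσ) w ≠ v := by
      intro hwv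
      apply hw
      rw [← hwv, mapPrimesAbove_mapPrimesAbove_symm]
    have h2 := hb2 _ hw'
    have h3 := (apply_mem_primePow_mapPrime_iff h.ne_zero σ
      (mapPrimesAbove σ.symm (symm_apply_eq_self hσ) w).1 b).mpr h2
    rw [hσ, mapPrimesAbove_val, mapPrime_mapPrime_symm] at h3
    exact h3
  · have h1 : τ (idem O q A v) - algebraMap O A (σ b) = τ (idem O q A v - algebraMap O A b) := by
      rw [map_sub, hc]
    rw [h1]
    exact hc.map_span_q hσ heb

end IsAdicCompletionAt

/-- The isomorphism between local factors induced by a compatible pair of automorphisms. -/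
noncomputable def localFactorEquiv (h : IsAdicCompletionAt O q A) {σ : O ≃+* O} {τ : A ≃+* A}
    (hc : IsCompat σ τ) (hσ : σ q = q) (v : PrimesAbove O q) :
    LocalFactor O q A v ≃+* LocalFactor O q A (mapPrimesAbove σ hσ v) :=
  Ideal.quotientEquiv _ _ τ (by
    rw [Ideal.map_span, Set.image_singleton]
    congr 2
    symm
    change τ (1 - idem O q A v) = _
    rw [map_sub, map_one, h.map_idem hc hσ])

@[simp]
theorem localFactorEquiv_mk (h : IsAdicCompletionAt O q A) {σ : O ≃+* O} {τ : A ≃+* A}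
    (hc : IsCompat σ τ) (hσ : σ q = q) (v : PrimesAbove O q) (a : A) :
    localFactorEquiv h hc hσ v (Ideal.Quotient.mk _ a) = Ideal.Quotient.mk _ (τ a) := rfl

theorem localFactorEquiv_algebraMap (h : IsAdicCompletionAt O q A) {σ : O ≃+* O} {τ : A ≃+* A}
    (hc : IsCompat σ τ) (hσ : σ q = q) (v : PrimesAbove O q) (x : O) :
    localFactorEquiv h hc hσ v (algebraMap O (LocalFactor O q A v) x) =
      algebraMap O (LocalFactor O q A (mapPrimesAbove σ hσ v)) (σ x) := by
  change localFactorEquiv h hc hσ v (Ideal.Quotient.mk _ (algebraMap O A x)) = _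
  rw [localFactorEquiv_mk, hc]
  rfl

end Idem

end Fermat.Agent.Lib.CFT.Global.Places
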