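import Mathlib
import Fermat.Agent.Lib.CFT.Global.Places.GaloisLocal
import Fermat.Agent.Lib.CFT.Global.FirstIneqPlaces

/-!
# The maximal spectrum of `ℚ_q ⊗ L` and the primes of `𝓞 L` above `q`, equivariantly

Translation between the action of `G` on `PrimesOver L q` (`Places/GaloisDecomp`), the action on
`FirstIneq.PrimesOverQ L q` through `SUnits.primeMap` (`Global/FirstIneqPlaces`) and the action on
`MaximalSpectrum (LocAlg L q)` (`Global/EtaleAlg`).
-/

open scoped TensorProduct NumberField Pointwise

noncomputable section

namespace Fermat.Agent.Lib.CFT.Global.Places.Galois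

open Fermat.Agent.Lib.CFT.Global Fermat.Agent.Lib.CFT.Global.Places IsDedekindDomain EtaleAlg
open Fermat.Agent.Lib.CFT.Global.OrbitProd

set_option linter.style.haveILetI false

variable {L : Type} [Field L] [NumberField L] (q : Nat.Primes)
variable {G : Type} [Group G] [MulSemiringAction G L]

/-- The action of `G` on the primes above `q` is the action through `SUnits.primeMap`. -/
theorem smul_prime_val_eq_primeMap (g : G) (v : PrimesOver L q) :
    (g • v).1 = SUnits.primeMap (MulSemiringAction.toRingEquiv G L g) v.1 := by
  apply HeightOneSpectrum.ext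
  ext a
  rw [smul_prime_asIdeal, Ideal.mem_pointwise_smul_iff_inv_smul_mem, SUnits.mem_primeMap_iff]
  rfl

variable (L) in
/-- The maximal spectrum of `ℚ_q ⊗ L` is the set of primes of `𝓞 L` above `q`
(in the form used by `Global/FirstIneqPlaces`). -/
def maxSpecEquivPrimesOverQ : MaximalSpectrum (LocAlg L q) ≃ FirstIneq.PrimesOverQ L q :=
  (primesEquivMaximalSpectrum L q).symm

theorem maxSpecEquivPrimesOverQ_symm_asIdeal (v : FirstIneq.PrimesOverQ L q) :
    ((maxSpecEquivPrimesOverQ L q).symm v).asIdeal = maxIdeal L q v := rfl

/-- `maxSpecEquivPrimesOverQ` is `G`-equivariant. -/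
theorem maxSpecEquivPrimesOverQ_smul (g : G) (m : MaximalSpectrum (LocAlg L q)) :
    letI := FirstIneq.primesOverAction L G q
    maxSpecEquivPrimesOverQ L q (g • m) = g • maxSpecEquivPrimesOverQ L q m := by
  letI := FirstIneq.primesOverAction L G q
  apply Subtype.ext
  have h1 := primesEquivMaximalSpectrum_symm_smul q g m
  have h2 := smul_prime_val_eq_primeMap q g ((primesEquivMaximalSpectrum L q).symm m)
  rw [← h1] at h2
  exact h2

/-- The orbit products of `MaximalSpectrum (LocAlg L q)` and of the primes above `q` agree. -/
theorem orbProd_maxSpec_eq [Fintype G] [Fintype (MaximalSpectrum (LocAlg L q))] :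
    letI := FirstIneq.primesOverAction L G q
    orbProd G (MaximalSpectrum (LocAlg L q)) = orbProd G (FirstIneq.PrimesOverQ L q) := by
  letI := FirstIneq.primesOverAction L G q
  exact orbProd_congr (maxSpecEquivPrimesOverQ L q) (fun g m => maxSpecEquivPrimesOverQ_smul q g m)

end Fermat.Agent.Lib.CFT.Global.Places.Galois
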