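import Mathlib
import Fermat.Agent.Lib.CFT.Global.Places.GaloisLocalField

/-!
# Decomposition groups and local fields in towers

For number fields `L → L'` with groups `G`, `G'` acting compatibly along `f : G' →* G`, and a prime
`w'` of `𝓞 L'` over the prime `w` of `𝓞 L`: `f` maps the decomposition group of `w'` into the
decomposition group of `w`, the embedding of local fields `L_w → L'_w'` is equivariant, and in the
Galois situation `D_w' → D_w` is surjective.
-/

open scoped TensorProduct NumberField Pointwise

noncomputable section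

namespace Fermat.Agent.Lib.CFT.Global.Places.Galois

open Fermat.Agent.Lib.CFT.Global Fermat.Agent.Lib.CFT.Global.Places IsDedekindDomain EtaleAlg

set_option linter.style.haveILetI false
set_option linter.unusedSectionVars false

section Functoriality

variable {K L M : Type} [Field K] [NumberField K] [Field L] [NumberField L]
  [Field M] [NumberField M] {q : Nat.Primes}

theorem localFieldMap_comp (f : K →+* L) (f₀ : 𝓞 K →+* 𝓞 L)
    (hf : ∀ x : 𝓞 K, (f₀ x : L) = f (x : K)) (g : L →+* M) (g₀ : 𝓞 L →+* 𝓞 M)
    (hg : ∀ x : 𝓞 L, (g₀ x : M) = g (x : L)) {v : PrimesOver K q} {w : PrimesOver L q}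
    {u : PrimesOver M q} (hvw : LiesOverAlong f₀ v w) (hwu : LiesOverAlong g₀ w u)
    (x : localField K q v) :
    localFieldMap (g.comp f) (g₀.comp f₀) (fun x => by
        rw [RingHom.comp_apply, RingHom.comp_apply, hg, hf]) (liesOverAlong_comp hvw hwu) x =
      localFieldMap g g₀ hg hwu (localFieldMap f f₀ hf hvw x) := by
  obtain ⟨x, rfl⟩ := Ideal.Quotient.mk_surjective x
  rw [localFieldMap_mk, localFieldMap_mk, localFieldMap_mk, locMap_comp]

/-- `w'` lies over `w` iff the maximal ideal of `w` is the preimage of the maximal ideal of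
`w'`. -/
theorem liesOverAlong_iff_comap_maxIdeal (f : K →+* L) (f₀ : 𝓞 K →+* 𝓞 L)
    (hf : ∀ x : 𝓞 K, (f₀ x : L) = f (x : K)) (v : PrimesOver K q) (w : PrimesOver L q) :
    LiesOverAlong f₀ v w ↔ (maxIdeal L q w).comap (locMap f q) = maxIdeal K q v := by
  constructor
  · intro hvw
    have hle : maxIdeal K q v ≤ (maxIdeal L q w).comap (locMap f q) :=
      fun x hx => locMap_mem_maxIdeal f f₀ hf hvw hx
    have hne : (maxIdeal L q w).comap (locMap f q) ≠ ⊤ :=
      (Ideal.comap_isPrime (locMap f q) (maxIdeal L q w)).ne_top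
    exact ((maxIdeal_isMaximal v).eq_of_le hne hle).symm
  · intro h
    set v₀ : PrimesOver K q := under f₀ (map_natCast f₀ _) (natCast_ne_zero' (𝓞 K) (pv q)) w
    have hv₀ : LiesOverAlong f₀ v₀ w := liesOverAlong_under _ _ _ w
    have hle : maxIdeal K q v₀ ≤ (maxIdeal L q w).comap (locMap f q) :=
      fun x hx => locMap_mem_maxIdeal f f₀ hf hv₀ hx
    have hne : (maxIdeal L q w).comap (locMap f q) ≠ ⊤ :=
      (Ideal.comap_isPrime (locMap f q) (maxIdeal L q w)).ne_top
    have h2 : maxIdeal K q v₀ = maxIdeal K q v :=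
      ((maxIdeal_isMaximal v₀).eq_of_le hne hle).trans h
    have h3 : v₀ = v := by
      apply (primesEquivMaximalSpectrum K q).injective
      exact MaximalSpectrum.ext h2
    rw [← h3]
    exact hv₀

end Functoriality

section Equivariance

variable {L L' : Type} [Field L] [NumberField L] [Field L'] [NumberField L'] {q : Nat.Primes}
variable {G G' : Type} [Group G] [Group G'] [MulSemiringAction G L] [MulSemiringAction G' L']
variable (ι : L →+* L') (ι₀ : 𝓞 L →+* 𝓞 L') (hι : ∀ x : 𝓞 L, (ι₀ x : L') = ι (x : L))
variable (f : G' →* G) (hf : ∀ (g' : G') (x : L), ι (f g' • x) = g' • ι x)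

include hι hf in
theorem map_int_smul (g' : G') (y : 𝓞 L) : ι₀ (f g' • y) = g' • ι₀ y := by
  apply NumberField.RingOfIntegers.ext
  rw [hι]
  change ι (f g' • (y : L)) = g' • ((ι₀ y : 𝓞 L') : L')
  rw [hf, hι]

include hf in
theorem locMap_smul (g' : G') (x : LocAlg L q) :
    locMap ι q (f g' • x) = g' • locMap ι q x := by
  induction x using TensorProduct.induction_on with
  | zero => simp
  | tmul a x => rw [smul_tmul_locAlg, locMap_tmul, locMap_tmul, smul_tmul_locAlg, hf]
  | add x y hx hy => rw [smul_add, map_add, map_add, smul_add, hx, hy]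

include hι hf in
theorem liesOverAlong_smul_smul {w : PrimesOver L q} {w' : PrimesOver L' q}
    (hww' : LiesOverAlong ι₀ w w') (g' : G') : LiesOverAlong ι₀ (f g' • w) (g' • w') := by
  intro x hx
  rw [smul_prime_asIdeal, Ideal.mem_pointwise_smul_iff_inv_smul_mem] at hx
  have h1 := hww' _ hx
  rw [← map_inv, map_int_smul ι ι₀ hι f hf] at h1
  rw [smul_prime_asIdeal, Ideal.mem_pointwise_smul_iff_inv_smul_mem]
  exact h1

include hι hf in
/-- `f` maps the decomposition group of `w'` into the decomposition group of `w`. -/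
theorem map_mem_stabilizer {w : PrimesOver L q} {w' : PrimesOver L' q}
    (hww' : LiesOverAlong ι₀ w w') {g' : G'} (hg' : g' ∈ MulAction.stabilizer G' w'.1.asIdeal) :
    f g' ∈ MulAction.stabilizer G w.1.asIdeal := by
  have h1 : g' • w' = w' := (smul_prime_eq_iff g' w' w').mpr (MulAction.mem_stabilizer_iff.mp hg')
  have h2 := liesOverAlong_smul_smul ι ι₀ hι f hf hww' g'
  rw [h1] at h2
  have h3 := eq_under_of_liesOverAlong ι₀ (map_natCast ι₀ _) (natCast_ne_zero' (𝓞 L) (pv q)) h2
  have h4 := eq_under_of_liesOverAlong ι₀ (map_natCast ι₀ _) (natCast_ne_zero' (𝓞 L) (pv q)) hww'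
  rw [MulAction.mem_stabilizer_iff, ← smul_prime_eq_iff, h3, ← h4]

/-- The homomorphism `D_w' → D_w` between decomposition groups induced by `f : G' →* G`. -/
def stabMap {w : PrimesOver L q} {w' : PrimesOver L' q} (hww' : LiesOverAlong ι₀ w w') :
    MulAction.stabilizer G' w'.1.asIdeal →* MulAction.stabilizer G w.1.asIdeal where
  toFun g' := ⟨f g'.1, map_mem_stabilizer ι ι₀ hι f hf hww' g'.2⟩
  map_one' := Subtype.ext (map_one f)
  map_mul' a b := Subtype.ext (map_mul f a.1 b.1)

@[simp] theorem coe_stabMap {w : PrimesOver L q} {w' : PrimesOver L' q}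
    (hww' : LiesOverAlong ι₀ w w') (g' : MulAction.stabilizer G' w'.1.asIdeal) :
    (stabMap ι ι₀ hι f hf hww' g' : G) = f g'.1 := rfl

/-- The embedding of local fields `L_w → L'_w'` is equivariant along `D_w' → D_w`. -/
theorem localFieldMap_stab_smul {w : PrimesOver L q} {w' : PrimesOver L' q}
    (hww' : LiesOverAlong ι₀ w w') (g' : MulAction.stabilizer G' w'.1.asIdeal)
    (x : localField L q w) :
    localFieldMap ι ι₀ hι hww' (stabMap ι ι₀ hι f hf hww' g' • x) =
      g' • localFieldMap ι ι₀ hι hww' x := by
  obtain ⟨x, rfl⟩ := Ideal.Quotient.mk_surjective x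
  rw [stab_smul_localField_mk, localFieldMap_mk, localFieldMap_mk, stab_smul_localField_mk,
    coe_stabMap, locMap_smul ι f hf]

end Equivariance

section GaloisTower

variable (K : Type) {L L' : Type} [Field K] [NumberField K] [Field L] [NumberField L] [Field L']
  [NumberField L'] [Algebra K L] [Algebra K L'] [Algebra L L'] [IsScalarTower K L L']
  {q : Nat.Primes}
variable {G G' : Type} [Group G] [Group G'] [MulSemiringAction G L] [MulSemiringAction G' L']
  [Finite G] [Finite G'] [IsGaloisGroup G K L] [IsGaloisGroup G' K L']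
variable (f : G' →* G) (hf : ∀ (g' : G') (x : L), algebraMap L L' (f g' • x) = g' • algebraMap L L' x)

include hf in
/-- A homomorphism of Galois groups compatible with restriction is the restriction
homomorphism. -/
theorem eq_restrictHom : f = IsGaloisGroup.restrictHom G' G K L L' := by
  ext g'
  haveI : FaithfulSMul G L := IsGaloisGroup.faithful K
  apply eq_of_smul_eq_smul (α := L)
  intro x
  apply (algebraMap L L').injective
  rw [hf, IsGaloisGroup.algebraMap_restrictHom_smul]

include K hf in
theorem surjective_of_compat : Function.Surjective f := by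
  rw [eq_restrictHom K f hf]
  exact IsGaloisGroup.restrictHom_surjective G' G K L L'

include K hf in
/-- Elements of `G'` fixing `L` pointwise are in the kernel of `f`. -/
theorem map_eq_one_of_mem_fixingSubgroup {h : G'}
    (hh : h ∈ fixingSubgroup G' (Set.range (algebraMap L L'))) : f h = 1 := by
  haveI : FaithfulSMul G L := IsGaloisGroup.faithful K
  apply eq_of_smul_eq_smul (α := L)
  intro x
  apply (algebraMap L L').injective
  rw [hf, one_smul]
  exact (mem_fixingSubgroup_iff G').mp hh _ ⟨x, rfl⟩

include K hf in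
/-- **Surjectivity of `D_w' → D_w`**: every element of the decomposition group of `w` lifts to the
decomposition group of `w'`. -/
theorem exists_mem_stabilizer_map_eq {w : PrimesOver L q} {w' : PrimesOver L' q}
    (hww' : LiesOverAlong (algebraMap (𝓞 L) (𝓞 L')) w w') {g : G}
    (hg : g ∈ MulAction.stabilizer G w.1.asIdeal) :
    ∃ g' ∈ MulAction.stabilizer G' w'.1.asIdeal, f g' = g := by
  obtain ⟨g₀, rfl⟩ := surjective_of_compat K f hf g
  have hgw : f g₀ • w = w := (smul_prime_eq_iff _ w w).mpr (MulAction.mem_stabilizer_iff.mp hg)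
  have h1 : LiesOverAlong (algebraMap (𝓞 L) (𝓞 L')) w (g₀ • w') := by
    have := liesOverAlong_smul_smul (algebraMap L L') (algebraMap (𝓞 L) (𝓞 L')) (fun _ => rfl)
      f hf hww' g₀
    rwa [hgw] at this
  -- the subgroup fixing `L` is a Galois group of `L'/L`, hence transitive on the primes over `w`
  let N : Subgroup G' := fixingSubgroup G' (Set.range (algebraMap L L'))
  haveI : IsGaloisGroup N L L' := IsGaloisGroup.of_isScalarTower G' K L' L
  obtain ⟨h, hh⟩ := exists_smul_eq_of_liesOverAlong (G := N) h1 hww'
  refine ⟨h.1 * g₀, ?_, ?_⟩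
  · rw [MulAction.mem_stabilizer_iff, mul_smul]
    have := (smul_prime_eq_iff h (g₀ • w') w').mp hh
    exact this
  · rw [map_mul, map_eq_one_of_mem_fixingSubgroup K f hf h.2, one_mul]

include K hf in
theorem stabMap_surjective {w : PrimesOver L q} {w' : PrimesOver L' q}
    (hww' : LiesOverAlong (algebraMap (𝓞 L) (𝓞 L')) w w') :
    Function.Surjective (stabMap (algebraMap L L') (algebraMap (𝓞 L) (𝓞 L')) (fun _ => rfl)
      f hf hww') := by
  intro g
  obtain ⟨g', hg', hfg⟩ := exists_mem_stabilizer_map_eq K f hf hww' g.2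
  exact ⟨⟨g', hg'⟩, Subtype.ext hfg⟩

end GaloisTower

section Degrees

variable {K L L' : Type} [Field K] [NumberField K] [Field L] [NumberField L] [Field L']
  [NumberField L'] [Algebra K L] [Algebra K L'] [Algebra L L'] [IsScalarTower K L L']
  {q : Nat.Primes}
variable {G G' : Type} [Group G] [Group G'] [MulSemiringAction G L] [MulSemiringAction G' L']

/-- The fixed field of the decomposition group in `L_w` is the image of `K_v`. -/
theorem mem_range_localFieldBaseMap_iff [Finite G] [IsGaloisGroup G K L] {v : PrimesOver K q}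
    {w : PrimesOver L q} (hvw : LiesOverAlong (algebraMap (𝓞 K) (𝓞 L)) v w)
    (x : localField L q w) :
    x ∈ (localFieldBaseMap hvw).range ↔
      ∀ g : MulAction.stabilizer G w.1.asIdeal, g • x = x := by
  letI := localFieldAlgebra hvw
  have hG := isGaloisGroup_localField (G := G) hvw
  constructor
  · rintro ⟨y, rfl⟩ g
    haveI := hG.commutes
    exact smul_algebraMap g y
  · intro h
    exact hG.isInvariant.isInvariant x h

/-- The order of the decomposition group is the local degree. -/
theorem card_stabilizer_eq_finrank [Finite G] [IsGaloisGroup G K L] {v : PrimesOver K q}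
    {w : PrimesOver L q} (hvw : LiesOverAlong (algebraMap (𝓞 K) (𝓞 L)) v w) :
    letI := localFieldAlgebra hvw
    Nat.card (MulAction.stabilizer G w.1.asIdeal) =
      Module.finrank (localField K q v) (localField L q w) := by
  letI := localFieldAlgebra hvw
  haveI := isGaloisGroup_localField (G := G) hvw
  exact IsGaloisGroup.card_eq_finrank _ _ _

theorem liesOverAlong_trans {v : PrimesOver K q} {w : PrimesOver L q} {w' : PrimesOver L' q}
    (hvw : LiesOverAlong (algebraMap (𝓞 K) (𝓞 L)) v w)
    (hww' : LiesOverAlong (algebraMap (𝓞 L) (𝓞 L')) w w') :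
    LiesOverAlong (algebraMap (𝓞 K) (𝓞 L')) v w' := by
  intro x hx
  rw [IsScalarTower.algebraMap_apply (𝓞 K) (𝓞 L) (𝓞 L')]
  exact hww' _ (hvw x hx)

theorem localFieldBaseMap_comp {v : PrimesOver K q} {w : PrimesOver L q} {w' : PrimesOver L' q}
    (hvw : LiesOverAlong (algebraMap (𝓞 K) (𝓞 L)) v w)
    (hww' : LiesOverAlong (algebraMap (𝓞 L) (𝓞 L')) w w') (x : localField K q v) :
    localFieldBaseMap (liesOverAlong_trans hvw hww') x =
      localFieldBaseMap hww' (localFieldBaseMap hvw x) := by
  obtain ⟨x, rfl⟩ := Ideal.Quotient.mk_surjective x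
  rw [localFieldBaseMap_mk, localFieldBaseMap_mk, localFieldBaseMap_mk, ← locMap_comp]
  congr 3
  exact IsScalarTower.algebraMap_eq K L L'

/-- Multiplicativity of the orders of the decomposition groups in a tower. -/
theorem card_stabilizer_tower [Finite G] [Finite G'] [IsGaloisGroup G K L]
    [IsGaloisGroup G' K L'] {v : PrimesOver K q} {w : PrimesOver L q} {w' : PrimesOver L' q}
    (hvw : LiesOverAlong (algebraMap (𝓞 K) (𝓞 L)) v w)
    (hww' : LiesOverAlong (algebraMap (𝓞 L) (𝓞 L')) w w') :
    letI := localFieldAlgebra hww'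
    Nat.card (MulAction.stabilizer G' w'.1.asIdeal) =
      Nat.card (MulAction.stabilizer G w.1.asIdeal) *
        Module.finrank (localField L q w) (localField L' q w') := by
  letI := localFieldAlgebra hvw
  letI := localFieldAlgebra hww'
  letI := localFieldAlgebra (liesOverAlong_trans hvw hww')
  haveI : IsScalarTower (localField K q v) (localField L q w) (localField L' q w') :=
    IsScalarTower.of_algebraMap_eq (fun x => localFieldBaseMap_comp hvw hww' x)
  rw [card_stabilizer_eq_finrank (G := G') (liesOverAlong_trans hvw hww'),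
    card_stabilizer_eq_finrank (G := G) hvw]
  exact (Module.finrank_mul_finrank _ _ _).symm

end Degrees

end Fermat.Agent.Lib.CFT.Global.Places.Galois
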