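import Mathlib
import Fermat.Agent.Lib.CFT.Global.Places.GaloisLocalField
import Fermat.Agent.Lib.CFT.Global.TensorExt

/-!
# The sum of the local degrees is the global degree (relative version)

For a finite extension `L / K` of number fields, a rational prime `q` and a prime `v` of `𝓞 K`
above `q`:  `∑_{w ∣ v} [L_w : K_v] = [L : K]`.

The proof is a dimension count over `ℚ_q`: the image `ε` in `ℚ_q ⊗ L` of the idempotent `e_v` of
`ℚ_q ⊗ K` is the sum of the idempotents `e_w`, `w ∣ v`; since `ℚ_q ⊗ L` is free of rank `[L : K]`
over `ℚ_q ⊗ K`, `tr(ε) = [L : K] tr(e_v)`, and the trace of an idempotent is the dimension of its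
image.
-/

set_option maxHeartbeats 400000
set_option linter.style.haveILetI false

open scoped TensorProduct NumberField

noncomputable section

namespace Fermat.Agent.Lib.CFT.Global.Places

open Module Fermat.Agent.Lib.CFT.Global IsDedekindDomain
open Fermat.Agent.Lib.CFT.Global.Places.Galois

section Abstract

variable {F : Type*} [Field F]

/-- The trace of (multiplication by) an idempotent is the dimension of its image. -/
theorem finrank_range_mulLeft_eq_trace {A : Type*} [CommRing A] [Algebra F A] [Module.Finite F A]
    {e : A} (he : IsIdempotentElem e) :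
    ((Module.finrank F (LinearMap.range (LinearMap.mulLeft F e)) : ℕ) : F) = Algebra.trace F A e := by
  have hproj : LinearMap.IsProj (LinearMap.range (LinearMap.mulLeft F e)) (LinearMap.mulLeft F e) :=
    ⟨fun x => ⟨x, rfl⟩, fun x hx => by
      obtain ⟨y, rfl⟩ := hx
      simp only [LinearMap.mulLeft_apply]
      rw [← mul_assoc, he.eq]⟩
  rw [Algebra.trace_apply, ← hproj.trace]
  rfl

variable [CharZero F]

/-- If `S` is free of rank `n` over `R`, the image of an idempotent `e` of `R` cuts out in `S` a
subspace of dimension `n` times the dimension of `e R`. -/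
theorem finrank_range_mulLeft_algebraMap {R S ι : Type*} [CommRing R] [CommRing S] [Algebra F R]
    [Algebra F S] [Algebra R S] [IsScalarTower F R S] [Module.Finite F R] [Fintype ι]
    (b : Basis ι R S) {e : R} (he : IsIdempotentElem e) :
    Module.finrank F (LinearMap.range (LinearMap.mulLeft F (algebraMap R S e))) =
      Fintype.card ι * Module.finrank F (LinearMap.range (LinearMap.mulLeft F e)) := by
  haveI : Module.Finite R S := Module.Finite.of_basis b
  haveI : Module.Free R S := Module.Free.of_basis b
  haveI : Module.Finite F S := Module.Finite.trans R S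
  have he' : IsIdempotentElem (algebraMap R S e) := he.map (algebraMap R S)
  apply Nat.cast_injective (R := F)
  rw [finrank_range_mulLeft_eq_trace he', Nat.cast_mul, finrank_range_mulLeft_eq_trace he,
    ← Algebra.trace_trace (S := R), Algebra.trace_algebraMap_of_basis b, map_nsmul, nsmul_eq_mul]

end Abstract

section Local

variable {L : Type} [Field L] [NumberField L] {q : Nat.Primes}

/-- The projection of `ℚ_q ⊗ L` on the factors indexed by a finite set of primes. -/
def projFinset (T : Finset (PrimesOver L q)) :
    LocAlg L q →ₗ[ℚ_[pv q]] (∀ w : T, localField L q w.1) :=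
  LinearMap.pi fun w => (Ideal.Quotient.mkₐ ℚ_[pv q] (maxIdeal L q w.1)).toLinearMap

theorem projFinset_apply (T : Finset (PrimesOver L q)) (y : LocAlg L q) (w : T) :
    projFinset T y w = Ideal.Quotient.mk (maxIdeal L q w.1) y := rfl

theorem projFinset_surjective (T : Finset (PrimesOver L q)) :
    Function.Surjective (projFinset T) := by
  classical
  intro z
  obtain ⟨y, hy⟩ := (locAlgEquivPi L q).surjective
    (fun w => if h : w ∈ T then z ⟨w, h⟩ else 0)
  refine ⟨y, ?_⟩
  funext w
  rw [projFinset_apply, ← locAlgEquivPi_apply, hy]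
  exact dif_pos w.2

theorem locIdem_mul_sum_of_mem {T : Finset (PrimesOver L q)} {w : PrimesOver L q} (hw : w ∈ T) :
    locIdem L q w * ∑ u ∈ T, locIdem L q u = locIdem L q w := by
  classical
  rw [Finset.mul_sum, Finset.sum_eq_single w]
  · exact isIdempotentElem_locIdem L q w
  · intro u _ hu
    exact (completeOrthogonalIdempotents_locIdem L q).ortho (Ne.symm hu)
  · intro h
    exact absurd hw h

theorem isIdempotentElem_sum_locIdem (T : Finset (PrimesOver L q)) :
    IsIdempotentElem (∑ u ∈ T, locIdem L q u) := by
  unfold IsIdempotentElem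
  rw [Finset.sum_mul]
  exact Finset.sum_congr rfl fun w hw => locIdem_mul_sum_of_mem hw

theorem ker_projFinset (T : Finset (PrimesOver L q)) :
    LinearMap.ker (projFinset T) =
      LinearMap.ker (LinearMap.mulLeft ℚ_[pv q] (∑ u ∈ T, locIdem L q u)) := by
  ext y
  rw [LinearMap.mem_ker, LinearMap.mem_ker, LinearMap.mulLeft_apply]
  constructor
  · intro h
    rw [Finset.sum_mul]
    refine Finset.sum_eq_zero fun w hw => ?_
    rw [← mem_maxIdeal_iff, ← Ideal.Quotient.eq_zero_iff_mem]
    exact congrFun h ⟨w, hw⟩
  · intro h
    funext w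
    rw [projFinset_apply, Pi.zero_apply, Ideal.Quotient.eq_zero_iff_mem, mem_maxIdeal_iff,
      ← locIdem_mul_sum_of_mem w.2, mul_assoc, h, mul_zero]

/-- The sum of the absolute local degrees over a finite set `T` of primes is the dimension of the
image of the idempotent `∑_{w ∈ T} e_w`. -/
theorem sum_finrank_eq_finrank_range (T : Finset (PrimesOver L q)) :
    ∑ w ∈ T, Module.finrank ℚ_[pv q] (localField L q w) =
      Module.finrank ℚ_[pv q]
        (LinearMap.range (LinearMap.mulLeft ℚ_[pv q] (∑ u ∈ T, locIdem L q u))) := by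
  have h1 := LinearMap.finrank_range_add_finrank_ker (projFinset T)
  have h2 := LinearMap.finrank_range_add_finrank_ker
    (LinearMap.mulLeft ℚ_[pv q] (∑ u ∈ T, locIdem L q u))
  rw [LinearMap.range_eq_top.mpr (projFinset_surjective T), finrank_top, ker_projFinset,
    Module.finrank_pi_fintype] at h1
  rw [← Finset.sum_coe_sort T (fun w => Module.finrank ℚ_[pv q] (localField L q w))]
  omega

theorem finrank_localField_eq_finrank_range (v : PrimesOver L q) :
    Module.finrank ℚ_[pv q] (localField L q v) =
      Module.finrank ℚ_[pv q]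
        (LinearMap.range (LinearMap.mulLeft ℚ_[pv q] (locIdem L q v))) := by
  have := sum_finrank_eq_finrank_range ({v} : Finset (PrimesOver L q))
  rwa [Finset.sum_singleton, Finset.sum_singleton] at this

end Local

section Relative

variable {K L : Type} [Field K] [NumberField K] [Field L] [NumberField L] [Algebra K L]
  {q : Nat.Primes}

open Classical in
/-- The primes of `𝓞 L` above the prime `v` of `𝓞 K`. -/
def primesOverPrime (L : Type) [Field L] [NumberField L] [Algebra K L] (v : PrimesOver K q) :
    Finset (PrimesOver L q) :=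
  Finset.univ.filter fun w => LiesOverAlong (algebraMap (𝓞 K) (𝓞 L)) v w

theorem mem_primesOverPrime {v : PrimesOver K q} {w : PrimesOver L q} :
    w ∈ primesOverPrime L v ↔ LiesOverAlong (algebraMap (𝓞 K) (𝓞 L)) v w := by
  classical
  unfold primesOverPrime
  rw [Finset.mem_filter]
  exact ⟨fun h => h.2, fun h => ⟨Finset.mem_univ _, h⟩⟩

theorem mem_primesOverPrime_iff_primeBelow {v : PrimesOver K q} {w : PrimesOver L q} :
    w ∈ primesOverPrime L v ↔ primeBelow K w = v := by
  rw [mem_primesOverPrime]
  constructor
  · intro h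
    exact (eq_primeBelow_of_liesOverAlong h).symm
  · rintro rfl
    exact liesOverAlong_primeBelow w

/-- The idempotent of `v` becomes in `ℚ_q ⊗ L` the sum of the idempotents of the `w ∣ v`. -/
theorem locMap_locIdem (v : PrimesOver K q) :
    locMap (algebraMap K L) q (locIdem K q v) = ∑ w ∈ primesOverPrime L v, locIdem L q w := by
  classical
  unfold locIdem
  rw [← toLocAlg_ohatMap q (algebraMap K L) (algebraMap (𝓞 K) (𝓞 L)) (fun _ => rfl)]
  have h := map_idem_eq_sum (Ohat.isAdicCompletionAt (𝓞 K) (pv q))
    (Ohat.isAdicCompletionAt (𝓞 L) (pv q)) (algebraMap (𝓞 K) (𝓞 L)) (map_natCast _ _)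
    (ohatMap (pv q) (algebraMap (𝓞 K) (𝓞 L))) (ohatMap_algebraMap (pv q) _) v
  change ohatMap (pv q) (algebraMap (𝓞 K) (𝓞 L)) (intIdem K q v) = _ at h
  rw [h, map_sum]
  unfold primesOverPrime
  refine Finset.sum_congr ?_ fun _ _ => rfl
  ext w
  simp only [Finset.mem_filter, Finset.mem_univ, true_and]

attribute [local instance] TensorExt.tAlgebra

/-- `∑_{w ∣ v} [L_w : ℚ_q] = [L : K] [K_v : ℚ_q]`. -/
theorem sum_finrank_localField_over (v : PrimesOver K q) :
    ∑ w ∈ primesOverPrime L v, Module.finrank ℚ_[pv q] (localField L q w) =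
      Module.finrank K L * Module.finrank ℚ_[pv q] (localField K q v) := by
  rw [sum_finrank_eq_finrank_range, finrank_localField_eq_finrank_range, ← locMap_locIdem]
  haveI : IsScalarTower ℚ_[pv q] (LocAlg K q) (LocAlg L q) :=
    IsScalarTower.of_algebraMap_eq fun a =>
      ((TensorExt.tmap ℚ_[pv q] (algebraMap K L)).commutes a).symm
  have h := finrank_range_mulLeft_algebraMap (F := ℚ_[pv q])
    (TensorExt.tBasis ℚ_[pv q] (Module.finBasis K L)) (isIdempotentElem_locIdem K q v)
  rw [Fintype.card_fin] at h
  exact h

/-- The relative local degree `[L_w : K_v]`, for `w` over `v`. -/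
def localDegree {v : PrimesOver K q} {w : PrimesOver L q}
    (hvw : LiesOverAlong (algebraMap (𝓞 K) (𝓞 L)) v w) : ℕ :=
  letI := localFieldAlgebra hvw
  Module.finrank (localField K q v) (localField L q w)

/-- Tower law for the local degrees. -/
theorem finrank_mul_localDegree {v : PrimesOver K q} {w : PrimesOver L q}
    (hvw : LiesOverAlong (algebraMap (𝓞 K) (𝓞 L)) v w) :
    Module.finrank ℚ_[pv q] (localField K q v) * localDegree hvw =
      Module.finrank ℚ_[pv q] (localField L q w) := by
  letI := localFieldAlgebra hvw
  haveI : IsScalarTower ℚ_[pv q] (localField K q v) (localField L q w) :=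
    IsScalarTower.of_algebraMap_eq fun a =>
      (localFieldMap_algebraMap_padic (algebraMap K L) (algebraMap (𝓞 K) (𝓞 L))
        (fun _ => rfl) hvw a).symm
  exact Module.finrank_mul_finrank ℚ_[pv q] (localField K q v) (localField L q w)

theorem localDegree_pos {v : PrimesOver K q} {w : PrimesOver L q}
    (hvw : LiesOverAlong (algebraMap (𝓞 K) (𝓞 L)) v w) : 0 < localDegree hvw := by
  have h := finrank_mul_localDegree hvw
  have hpos : 0 < Module.finrank ℚ_[pv q] (localField L q w) := Module.finrank_pos
  rw [← h] at hpos
  exact Nat.pos_of_mul_pos_left hpos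

/-- **The sum of the local degrees is the global degree**: `∑_{w ∣ v} [L_w : K_v] = [L : K]`. -/
theorem sum_localDegree (v : PrimesOver K q)
    [Fintype {w : PrimesOver L q // LiesOverAlong (algebraMap (𝓞 K) (𝓞 L)) v w}] :
    ∑ w : {w : PrimesOver L q // LiesOverAlong (algebraMap (𝓞 K) (𝓞 L)) v w},
      localDegree w.2 = Module.finrank K L := by
  classical
  have hpos : 0 < Module.finrank ℚ_[pv q] (localField K q v) := Module.finrank_pos
  apply Nat.eq_of_mul_eq_mul_left hpos
  rw [Finset.mul_sum, mul_comm _ (Module.finrank K L), ← sum_finrank_localField_over v]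
  have : ∑ w ∈ primesOverPrime L v, Module.finrank ℚ_[pv q] (localField L q w) =
      ∑ w : {w : PrimesOver L q // LiesOverAlong (algebraMap (𝓞 K) (𝓞 L)) v w},
        Module.finrank ℚ_[pv q] (localField L q w.1) := by
    unfold primesOverPrime
    rw [Finset.sum_subtype (p := fun w => LiesOverAlong (algebraMap (𝓞 K) (𝓞 L)) v w)]
    intro w
    simp only [Finset.mem_filter, Finset.mem_univ, true_and]
  rw [this]
  exact Finset.sum_congr rfl fun w _ => finrank_mul_localDegree w.2

end Relative

end Fermat.Agent.Lib.CFT.Global.Places
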