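import Mathlib

/-!
# Norms in semi-local situations (pure algebra)

* `norm_pi_eq_prod_norm`: the norm of a finite product of finite free algebras is the product of
  the norms.
* `algebraMap_norm_eq_prod_norm`: let `S` be a finite free `R`-algebra, `R → k` a surjection
  whose kernel is cut out by an idempotent `e` (`ker = {r | e r = 0}`), and `π j : S → T j` a
  finite family of `R`-algebra maps to `k`-algebras which identifies `S / {s | e s = 0}` with
  `∏ j, T j`.  Then the image in `k` of `N_{S/R}(y)` is `∏ j, N_{T j / k}(π j y)`.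
-/

set_option maxHeartbeats 400000
set_option linter.style.haveILetI false
set_option linter.unusedSectionVars false

open scoped TensorProduct

noncomputable section

namespace Fermat.Agent.Lib.CFT.Global.Places

open Module

section PiNorm

universe u v w

/-- The norm of a binary product algebra is the product of the norms. -/
theorem norm_prod_eq_mul {F : Type*} [CommRing F] {A B : Type*} [CommRing A] [CommRing B]
    [Algebra F A] [Algebra F B] [Module.Free F A] [Module.Finite F A] [Module.Free F B]
    [Module.Finite F B] (a : A) (b : B) :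
    Algebra.norm F ((a, b) : A × B) = Algebra.norm F a * Algebra.norm F b := by
  rw [Algebra.norm_apply, Algebra.norm_apply, Algebra.norm_apply, ← LinearMap.det_prodMap]
  congr 1

/-- Splitting off one factor of a product of algebras. -/
def piSplitAtAlg {ι : Type u} [DecidableEq ι] (F : Type w) [CommRing F] (A : ι → Type v)
    [∀ i, CommRing (A i)] [∀ i, Algebra F (A i)] (a : ι) :
    (∀ i, A i) ≃ₐ[F] A a × (∀ j : {j // j ≠ a}, A j) :=
  { Equiv.piSplitAt a A with
    map_mul' := fun _ _ => rfl
    map_add' := fun _ _ => rfl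
    commutes' := fun _ => rfl }

theorem piSplitAtAlg_apply {ι : Type u} [DecidableEq ι] (F : Type w) [CommRing F]
    (A : ι → Type v) [∀ i, CommRing (A i)] [∀ i, Algebra F (A i)] (a : ι) (x : ∀ i, A i) :
    piSplitAtAlg F A a x = (x a, fun j : {j // j ≠ a} => x j.1) := rfl

theorem norm_pi_eq_prod_norm_aux {F : Type w} [CommRing F] :
    ∀ (n : ℕ) {ι : Type u} [Fintype ι] (_ : Fintype.card ι = n) {A : ι → Type v}
      [∀ i, CommRing (A i)] [∀ i, Algebra F (A i)] [∀ i, Module.Free F (A i)]
      [∀ i, Module.Finite F (A i)] (x : ∀ i, A i),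
      Algebra.norm F x = ∏ i, Algebra.norm F (x i)
  | 0, ι, _, hn, A, _, _, _, _, x => by
    haveI : IsEmpty ι := Fintype.card_eq_zero_iff.mp hn
    rw [Finset.univ_eq_empty, Finset.prod_empty, Algebra.norm_apply]
    exact LinearMap.det_eq_one_of_subsingleton _
  | n + 1, ι, _, hn, A, _, _, _, _, x => by
    classical
    haveI : Nonempty ι := Fintype.card_pos_iff.mp (by omega)
    obtain ⟨a⟩ := ‹Nonempty ι›
    have hcard : Fintype.card {j // j ≠ a} = n := by
      rw [Fintype.card_subtype_compl, Fintype.card_subtype_eq, hn]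
      rfl
    rw [← Algebra.norm_eq_of_algEquiv (piSplitAtAlg F A a), piSplitAtAlg_apply, norm_prod_eq_mul,
      norm_pi_eq_prod_norm_aux n hcard (fun j : {j // j ≠ a} => x j.1),
      ← Fintype.prod_subtype_mul_prod_subtype (fun i => i = a) fun i => Algebra.norm F (x i)]
    congr 1
    haveI : Subsingleton {i // i = a} := ⟨fun p q => Subtype.ext (p.2.trans q.2.symm)⟩
    refine Eq.symm ?_
    convert Fintype.prod_subsingleton (fun i : {i // i = a} => Algebra.norm F (x i.1)) ⟨a, rfl⟩

/-- The norm of a finite product of finite free algebras is the product of the norms. -/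
theorem norm_pi_eq_prod_norm {ι : Type u} [Fintype ι] {F : Type w} [CommRing F] {A : ι → Type v}
    [∀ i, CommRing (A i)] [∀ i, Algebra F (A i)] [∀ i, Module.Free F (A i)]
    [∀ i, Module.Finite F (A i)] (x : ∀ i, A i) :
    Algebra.norm F x = ∏ i, Algebra.norm F (x i) :=
  norm_pi_eq_prod_norm_aux (Fintype.card ι) rfl x

end PiNorm

section BaseChange

variable {R : Type*} [CommRing R] (k : Type*) [CommRing k] [Algebra R k]
  {S : Type*} [CommRing S] [Algebra R S]

/-- The norm commutes with base change. -/
theorem norm_one_tmul_baseChange [Module.Free R S] [Module.Finite R S] (y : S) :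
    Algebra.norm k ((1 : k) ⊗ₜ[R] y) = algebraMap R k (Algebra.norm R y) := by
  rw [Algebra.norm_apply, Algebra.norm_apply, ← LinearMap.det_baseChange]
  congr 1
  apply TensorProduct.AlgebraTensorModule.curry_injective
  ext z
  simp [Algebra.TensorProduct.tmul_mul_tmul]

end BaseChange

section SemiLocal

variable {R S k : Type*} [CommRing R] [CommRing S] [CommRing k] [Algebra R S] [Algebra R k]
variable {J : Type*} [Fintype J] {T : J → Type*} [∀ j, CommRing (T j)] [∀ j, Algebra R (T j)]
  [∀ j, Algebra k (T j)] [∀ j, IsScalarTower R k (T j)]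

/-- The comparison map `k ⊗[R] S → ∏ j, T j`. -/
def semiLocalMap (π : ∀ j, S →ₐ[R] T j) : k ⊗[R] S →ₐ[k] (∀ j, T j) :=
  Algebra.TensorProduct.lift (Algebra.ofId k (∀ j, T j)) (AlgHom.pi π) (fun _ _ => Commute.all _ _)

theorem semiLocalMap_one_tmul (π : ∀ j, S →ₐ[R] T j) (s : S) (j : J) :
    semiLocalMap (k := k) π ((1 : k) ⊗ₜ[R] s) j = π j s := by
  unfold semiLocalMap
  rw [Algebra.TensorProduct.lift_tmul, map_one, one_mul]
  rfl

theorem exists_eq_one_tmul (hk : Function.Surjective (algebraMap R k)) (z : k ⊗[R] S) :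
    ∃ s : S, z = (1 : k) ⊗ₜ[R] s := by
  induction z using TensorProduct.induction_on with
  | zero => exact ⟨0, (TensorProduct.tmul_zero _ _).symm⟩
  | tmul a s =>
    obtain ⟨r, rfl⟩ := hk a
    refine ⟨r • s, ?_⟩
    rw [TensorProduct.tmul_smul, TensorProduct.smul_tmul', Algebra.smul_def, mul_one]
  | add x y hx hy =>
    obtain ⟨s, rfl⟩ := hx
    obtain ⟨t, rfl⟩ := hy
    exact ⟨s + t, (TensorProduct.tmul_add _ _ _).symm⟩

/-- The comparison map is bijective in the semi-local situation. -/
theorem semiLocalMap_bijective (π : ∀ j, S →ₐ[R] T j) (e : R)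
    (hk : Function.Surjective (algebraMap R k)) (hke : algebraMap R k e = 1)
    (hsurj : Function.Surjective fun (s : S) (j : J) => π j s)
    (hker : ∀ s : S, (∀ j, π j s = 0) → algebraMap R S e * s = 0) :
    Function.Bijective (semiLocalMap (k := k) π) := by
  constructor
  · rw [injective_iff_map_eq_zero]
    intro z hz
    obtain ⟨s, rfl⟩ := exists_eq_one_tmul hk z
    have h1 : ∀ j, π j s = 0 := fun j => by
      rw [← semiLocalMap_one_tmul (k := k) π s j, hz, Pi.zero_apply]
    have h2 := hker s h1
    have h3 : s = (1 - e) • s := by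
      rw [sub_smul, one_smul, Algebra.smul_def, h2, sub_zero]
    rw [h3, TensorProduct.tmul_smul, TensorProduct.smul_tmul', Algebra.smul_def, map_sub, map_one,
      hke, sub_self, zero_mul, TensorProduct.zero_tmul]
  · intro y
    obtain ⟨s, hs⟩ := hsurj y
    refine ⟨(1 : k) ⊗ₜ[R] s, ?_⟩
    funext j
    rw [semiLocalMap_one_tmul, ← hs]

/-- **Semi-local decomposition of the norm.** -/
theorem algebraMap_norm_eq_prod_norm [Module.Free R S] [Module.Finite R S]
    [∀ j, Module.Free k (T j)] [∀ j, Module.Finite k (T j)]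
    (π : ∀ j, S →ₐ[R] T j) (e : R)
    (hk : Function.Surjective (algebraMap R k)) (hke : algebraMap R k e = 1)
    (hsurj : Function.Surjective fun (s : S) (j : J) => π j s)
    (hker : ∀ s : S, (∀ j, π j s = 0) → algebraMap R S e * s = 0) (y : S) :
    algebraMap R k (Algebra.norm R y) = ∏ j, Algebra.norm k (π j y) := by
  let Φ : k ⊗[R] S ≃ₐ[k] (∀ j, T j) :=
    AlgEquiv.ofBijective (semiLocalMap (k := k) π) (semiLocalMap_bijective π e hk hke hsurj hker)
  rw [← norm_one_tmul_baseChange k y, ← Algebra.norm_eq_of_algEquiv Φ, norm_pi_eq_prod_norm]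
  refine Finset.prod_congr rfl fun j _ => ?_
  congr 1
  exact semiLocalMap_one_tmul π y j

end SemiLocal

end Fermat.Agent.Lib.CFT.Global.Places
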