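import Mathlib
import Fermat.Agent.Lib.CFT.Global.Places.RelDegree
import Fermat.Agent.Lib.CFT.Global.Places.SemiLocalNorm
import Fermat.Agent.Lib.CFT.Global.Places.OrdAt
import Fermat.Agent.Lib.CFT.Global.IdeleNorm

/-!
# The local components of the relative norm `ℚ_q ⊗ L → ℚ_q ⊗ K`

For a finite extension `L / K` of number fields, a prime `v` of `𝓞 K` above `q` and
`y ∈ ℚ_q ⊗ L`:  the `v`-component of `N_{(ℚ_q ⊗ L)/(ℚ_q ⊗ K)}(y)` is `∏_{w ∣ v} N_{L_w/K_v}(y_w)`.
-/

set_option maxHeartbeats 400000
set_option linter.style.haveILetI false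
set_option linter.unusedSectionVars false

open scoped TensorProduct NumberField

noncomputable section

namespace Fermat.Agent.Lib.CFT.Global.Places

open Module Fermat.Agent.Lib.CFT.Global IsDedekindDomain
open Fermat.Agent.Lib.CFT.Global.Places.Galois

variable {K L : Type} [Field K] [NumberField K] [Field L] [NumberField L] [Algebra K L]
  {q : Nat.Primes}

/-- The local norm `L_w → K_v`, for `w` over `v`. -/
def localNorm {v : PrimesOver K q} {w : PrimesOver L q}
    (hvw : LiesOverAlong (algebraMap (𝓞 K) (𝓞 L)) v w) : localField L q w →* localField K q v :=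
  letI := localFieldAlgebra hvw
  Algebra.norm (localField K q v)

theorem isScalarTower_padic_localField {v : PrimesOver K q} {w : PrimesOver L q}
    (hvw : LiesOverAlong (algebraMap (𝓞 K) (𝓞 L)) v w) :
    letI := localFieldAlgebra hvw
    IsScalarTower ℚ_[pv q] (localField K q v) (localField L q w) := by
  letI := localFieldAlgebra hvw
  exact IsScalarTower.of_algebraMap_eq fun a =>
    (localFieldMap_algebraMap_padic (algebraMap K L) (algebraMap (𝓞 K) (𝓞 L))
      (fun _ => rfl) hvw a).symm

theorem finite_localField_rel {v : PrimesOver K q} {w : PrimesOver L q}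
    (hvw : LiesOverAlong (algebraMap (𝓞 K) (𝓞 L)) v w) :
    letI := localFieldAlgebra hvw
    Module.Finite (localField K q v) (localField L q w) := by
  letI := localFieldAlgebra hvw
  haveI := isScalarTower_padic_localField hvw
  exact Module.Finite.of_restrictScalars_finite ℚ_[pv q] (localField K q v) (localField L q w)

attribute [local instance] TensorExt.tAlgebra

/-- **The `v`-component of the norm is the product of the local norms over `w ∣ v`.** -/
theorem mk_norm_eq_prod_localNorm (v : PrimesOver K q)
    [Fintype {w : PrimesOver L q // LiesOverAlong (algebraMap (𝓞 K) (𝓞 L)) v w}]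
    (y : LocAlg L q) :
    Ideal.Quotient.mk (maxIdeal K q v) (Algebra.norm (LocAlg K q) y) =
      ∏ w : {w : PrimesOver L q // LiesOverAlong (algebraMap (𝓞 K) (𝓞 L)) v w},
        localNorm w.2 (Ideal.Quotient.mk (maxIdeal L q w.1) y) := by
  classical
  letI : ∀ w : {w : PrimesOver L q // LiesOverAlong (algebraMap (𝓞 K) (𝓞 L)) v w},
      Algebra (localField K q v) (localField L q w.1) := fun w => localFieldAlgebra w.2
  haveI : ∀ w : {w : PrimesOver L q // LiesOverAlong (algebraMap (𝓞 K) (𝓞 L)) v w},
      IsScalarTower (LocAlg K q) (localField K q v) (localField L q w.1) := fun w =>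
    IsScalarTower.of_algebraMap_eq fun _ => rfl
  haveI : ∀ w : {w : PrimesOver L q // LiesOverAlong (algebraMap (𝓞 K) (𝓞 L)) v w},
      Module.Finite (localField K q v) (localField L q w.1) := fun w => finite_localField_rel w.2
  have h := algebraMap_norm_eq_prod_norm (R := LocAlg K q) (S := LocAlg L q)
    (k := localField K q v)
    (T := fun w : {w : PrimesOver L q // LiesOverAlong (algebraMap (𝓞 K) (𝓞 L)) v w} =>
      localField L q w.1)
    (fun w => Ideal.Quotient.mkₐ (LocAlg K q) (maxIdeal L q w.1)) (locIdem K q v)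
    Ideal.Quotient.mk_surjective (locAlgEquivPi_locIdem_self v)
    (by
      intro z
      obtain ⟨s, hs⟩ := (locAlgEquivPi L q).surjective
        (fun w => if h : LiesOverAlong (algebraMap (𝓞 K) (𝓞 L)) v w then z ⟨w, h⟩ else 0)
      refine ⟨s, ?_⟩
      funext w
      change Ideal.Quotient.mk (maxIdeal L q w.1) s = z w
      rw [← locAlgEquivPi_apply, hs]
      exact dif_pos w.2)
    (by
      intro s hs
      change locMap (algebraMap K L) q (locIdem K q v) * s = 0
      rw [locMap_locIdem, Finset.sum_mul]
      refine Finset.sum_eq_zero fun w hw => ?_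
      rw [← mem_maxIdeal_iff, ← Ideal.Quotient.eq_zero_iff_mem]
      exact hs ⟨w, mem_primesOverPrime.mp hw⟩)
    y
  exact h

/-- Units version, for the local relative norm of `Global/IdeleNorm`. -/
theorem unitsProj_locRelNorm (v : PrimesOver K q)
    [Fintype {w : PrimesOver L q // LiesOverAlong (algebraMap (𝓞 K) (𝓞 L)) v w}]
    (u : (LocAlg L q)ˣ) :
    unitsProj K q v (locRelNorm K L q u) =
      ∏ w : {w : PrimesOver L q // LiesOverAlong (algebraMap (𝓞 K) (𝓞 L)) v w},
        Units.map (localNorm w.2) (unitsProj L q w.1 u) := by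
  apply Units.ext
  rw [coe_unitsProj, val_locRelNorm, mk_norm_eq_prod_localNorm v (u : LocAlg L q)]
  rw [Units.coe_prod]
  rfl

end Fermat.Agent.Lib.CFT.Global.Places
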