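import Mathlib
import Fermat.Agent.Lib.CFT.Global.Places.UnramLocalInt

/-!
# Norm and twist surjectivity for the local units at an unramified prime

Complements `Places/UnramLocalInt` (cohomological triviality of `(localInt L q w)ˣ` over the
decomposition group at a prime with trivial inertia) with the elementwise statements used for
Herbrand quotients: every fixed unit is a norm, every unit of norm one is a twist, and the
decomposition group is cyclic.
-/

open scoped NumberField Pointwise

noncomputable section

namespace Fermat.Agent.Lib.CFT.Global.Places.Galois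

open Fermat.Agent.Lib.CFT.Global Fermat.Agent.Lib.CFT.Global.Places IsDedekindDomain IsLocalRing
  Fermat.Agent.Lib.CFT.LocalUnits

set_option linter.style.haveILetI false

variable {L : Type} [Field L] [NumberField L] {q : Nat.Primes}
variable {G : Type} [Group G] [MulSemiringAction G L]

/-- The decomposition group of a prime with trivial inertia is cyclic. -/
theorem isCyclic_stabilizer_of_inertia_eq_bot [Finite G] (w : PrimesOver L q)
    (h : Ideal.inertia G w.1.asIdeal = ⊥) : IsCyclic (MulAction.stabilizer G w.1.asIdeal) := by
  haveI := faithfulSMul_residueField_localInt w h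
  exact isCyclic_of_faithfulSMul_finite_field (MulAction.stabilizer G w.1.asIdeal)
    (ResidueField (localInt L q w))

/-- At a prime with trivial inertia every `D_w`-fixed unit of `𝓞_w` is the norm of a unit. -/
theorem exists_unitsNorm_eq_localInt [Finite G] (w : PrimesOver L q)
    (h : Ideal.inertia G w.1.asIdeal = ⊥) {u : (localInt L q w)ˣ}
    (hu : ∀ g : MulAction.stabilizer G w.1.asIdeal, g • (u : localInt L q w) = u) :
    letI := Fintype.ofFinite (MulAction.stabilizer G w.1.asIdeal)
    ∃ v : (localInt L q w)ˣ,
      unitsNorm (MulAction.stabilizer G w.1.asIdeal) (localInt L q w) v = u := by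
  letI := Fintype.ofFinite (MulAction.stabilizer G w.1.asIdeal)
  haveI := faithfulSMul_residueField_localInt w h
  obtain ⟨ϖ, hϖ, hfix, hreg⟩ := exists_fixed_uniformizer_localInt w h
  exact unram_exists_unitsNorm_eq hϖ hfix hreg hu

/-- At a prime with trivial inertia every unit of `𝓞_w` of norm `1` is of the form `σ v / v`, for a
generator `σ` of the decomposition group (Hilbert 90 for the units). -/
theorem exists_unitsTwist_eq_localInt [Finite G] (w : PrimesOver L q)
    (h : Ideal.inertia G w.1.asIdeal = ⊥) {σ : MulAction.stabilizer G w.1.asIdeal}
    (hσ : ∀ g, g ∈ Subgroup.zpowers σ) {u : (localInt L q w)ˣ} :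
    letI := Fintype.ofFinite (MulAction.stabilizer G w.1.asIdeal)
    unitsNorm (MulAction.stabilizer G w.1.asIdeal) (localInt L q w) u = 1 →
      ∃ v : (localInt L q w)ˣ, unitsTwist (localInt L q w) σ v = u := by
  letI := Fintype.ofFinite (MulAction.stabilizer G w.1.asIdeal)
  haveI := faithfulSMul_residueField_localInt w h
  obtain ⟨ϖ, hϖ, hfix, hreg⟩ := exists_fixed_uniformizer_localInt w h
  intro hu
  exact unram_exists_unitsTwist_eq hϖ hfix hreg hσ hu

end Fermat.Agent.Lib.CFT.Global.Places.Galois
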